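/-
GATE-C / BASE-KUM (A), helper78.  Abstract Kummer sequences on level-constant cohomology.

For a discrete representation `A` of `(G, 𝒰)` over `k`, a scalar `c : k` acting SURJECTIVELY on `A`,
and a short exact sequence `0 → T → A -c→ A → 0` (so `T = A[c]`), the long exact sequence of `Hlc`
breaks into the Kummer short exact sequences
  `0 → Hlc^i(A)/c → Hlc^(i+1)(T) → Hlc^(i+1)(A)[c] → 0`.
They are stated elementwise.  Mathlib + `GC/Prof` only.
-/
import Fermat.Agent.GC.Prof.Concrete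

set_option autoImplicit false

open CategoryTheory

noncomputable section

namespace Fermat.Agent.GC.KumH

open Fermat.Agent.GC.Prof

universe u

variable {k G : Type u} [CommRing k] [Group G] (𝒰 : LevelSystem G)

/-! ### Scalars act on `Hlc` by scalars -/

section Smul

variable (A : Rep.{u} k G) [IsDiscrete 𝒰 A]

omit [IsDiscrete 𝒰 A] in
lemma lcMapLin_smul_id (c : k) (n : ℕ) (f : lcSub 𝒰 A n) :
    lcMapLin 𝒰 (c • 𝟙 A) n f = c • f := by
  apply Subtype.ext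
  funext g
  rfl

/-- Multiplication by a scalar on the coefficients induces multiplication by that scalar on
`Hlc`. -/
theorem HlcMap_smul_id (c : k) (n : ℕ) (x : Hlc 𝒰 A n) :
    HlcMap 𝒰 (c • 𝟙 A) n x = c • x := by
  obtain ⟨f, hf, rfl⟩ := Hlc_exists_mk 𝒰 A x
  rw [HlcMap_mk, ← HlcMk_smul]
  exact HlcMk_congr 𝒰 A (lcMapLin_smul_id 𝒰 A c n f) _

end Smul

/-! ### The Kummer sequence -/

/-- A Kummer sequence `0 → T → A -c→ A → 0`. -/
structure KummerSeq (T A : Rep.{u} k G) (c : k) where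
  /-- the inclusion of the `c`-torsion -/
  ι : T ⟶ A
  zero : ι ≫ (c • 𝟙 A) = 0
  shortExact : (ShortComplex.mk ι (c • 𝟙 A) zero).ShortExact

namespace KummerSeq

variable {𝒰} {T A : Rep.{u} k G} {c : k} [IsDiscrete 𝒰 T] [IsDiscrete 𝒰 A] (K : KummerSeq T A c)

/-- The short complex underlying a Kummer sequence. -/
abbrev X : ShortComplex (Rep.{u} k G) := ShortComplex.mk K.ι (c • 𝟙 A) K.zero

instance : IsDiscrete 𝒰 K.X.X₁ := ‹IsDiscrete 𝒰 T›
instance : IsDiscrete 𝒰 K.X.X₂ := ‹IsDiscrete 𝒰 A›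
instance : IsDiscrete 𝒰 K.X.X₃ := ‹IsDiscrete 𝒰 A›

variable (𝒰) in
/-- The Kummer connecting homomorphism `Hlc^i(A) → Hlc^(i+1)(T)`. -/
def δ (i : ℕ) : Hlc 𝒰 A i ⟶ Hlc 𝒰 T (i + 1) :=
  Hlcδ 𝒰 K.shortExact i (i + 1) rfl

/-- Exactness at `Hlc^i(A)` (the source of `δ`): `δ x = 0` iff `x` is divisible by `c`. -/
theorem δ_eq_zero_iff (i : ℕ) (x : Hlc 𝒰 A i) :
    K.δ 𝒰 i x = 0 ↔ ∃ x' : Hlc 𝒰 A i, c • x' = x := by
  have hex := Hlc_exact₃ 𝒰 K.shortExact i (i + 1) rfl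
  rw [ShortComplex.moduleCat_exact_iff] at hex
  constructor
  · intro h
    obtain ⟨x', hx'⟩ := hex x h
    refine ⟨x', ?_⟩
    rw [← HlcMap_smul_id 𝒰 A c i x']
    exact hx'
  · rintro ⟨x', rfl⟩
    rw [← HlcMap_smul_id 𝒰 A c i x']
    exact congr($((lcShortComplex_shortExact 𝒰 K.shortExact).comp_δ i (i + 1) rfl) x')

/-- Exactness at `Hlc^(i+1)(T)`: a class dies in `Hlc^(i+1)(A)` iff it is in the image of `δ`. -/
theorem ι_eq_zero_iff (i : ℕ) (y : Hlc 𝒰 T (i + 1)) :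
    HlcMap 𝒰 K.ι (i + 1) y = 0 ↔ ∃ x : Hlc 𝒰 A i, K.δ 𝒰 i x = y := by
  have hex := Hlc_exact₁ 𝒰 K.shortExact i (i + 1) rfl
  rw [ShortComplex.moduleCat_exact_iff] at hex
  constructor
  · intro h
    exact hex y h
  · rintro ⟨x, rfl⟩
    exact congr($((lcShortComplex_shortExact 𝒰 K.shortExact).δ_comp i (i + 1) rfl) x)

/-- Exactness at `Hlc^i(A)` (the target of `ι`): a class is killed by `c` iff it comes from `T`. -/
theorem smul_eq_zero_iff (i : ℕ) (z : Hlc 𝒰 A i) :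
    c • z = 0 ↔ ∃ y : Hlc 𝒰 T i, HlcMap 𝒰 K.ι i y = z := by
  have hex := Hlc_exact₂ 𝒰 K.shortExact i
  rw [ShortComplex.moduleCat_exact_iff] at hex
  constructor
  · intro h
    refine hex z ?_
    change HlcMap 𝒰 (c • 𝟙 A) i z = 0
    rw [HlcMap_smul_id]
    exact h
  · rintro ⟨y, rfl⟩
    rw [← HlcMap_smul_id 𝒰 A c i]
    have := congr($(HlcMap_comp 𝒰 K.ι (c • 𝟙 A) i) y)
    rw [K.zero] at this
    simp only [ModuleCat.hom_comp, LinearMap.comp_apply] at this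
    rw [← this, HlcMap, lcMap_zero, HomologicalComplex.homologyMap_zero]
    rfl

include K in
/-- `(b0)`-form: if `Hlc^i(A)` is `c`-divisible and `Hlc^(i+1)(A)` has no `c`-torsion then
`Hlc^(i+1)(T) = 0`. -/
theorem eq_zero_of_divisible_of_torsionFree (i : ℕ)
    (hdiv : ∀ x : Hlc 𝒰 A i, ∃ x' : Hlc 𝒰 A i, c • x' = x)
    (htf : ∀ z : Hlc 𝒰 A (i + 1), c • z = 0 → z = 0) (y : Hlc 𝒰 T (i + 1)) : y = 0 := by
  have h1 : HlcMap 𝒰 K.ι (i + 1) y = 0 := by
    apply htf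
    exact (K.smul_eq_zero_iff (i + 1) _).2 ⟨y, rfl⟩
  obtain ⟨x, rfl⟩ := (K.ι_eq_zero_iff i y).1 h1
  exact (K.δ_eq_zero_iff i x).2 (hdiv x)

end KummerSeq

end Fermat.Agent.GC.KumH
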