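/-
GATE-C / C4 Kummer-index stream (helper51).  (E2) Isotropy bound, pure group theory (Mathlib only).

* `card_monoidHom_le_card` : `#Hom(A, C) ≤ #A` for `A` finite abelian, `C` finite cyclic;
* `relIndex_sq_le_index_of_isotropic` : for a bimultiplicative pairing `β` on `G` with cyclic values,
  `L ≤ G` of finite index killed on the right, `W ≤ G` isotropic with left kernel inside `L`:
  `[W : W ⊓ L]² ≤ [G : L]`.
-/
import Mathlib

set_option autoImplicit false

namespace Fermat.Agent.GC.Kummer

/-- A finite abelian group has at most `#A` homomorphisms into a finite cyclic group. -/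
theorem card_monoidHom_le_card (A C : Type*) [CommGroup A] [Finite A] [CommGroup C] [Finite C]
    [IsCyclic C] : Nat.card (A →* C) ≤ Nat.card A := by
  classical
  have hn : Nat.card C ≠ 0 := Nat.card_pos.ne'
  have : NeZero (Nat.card C) := ⟨hn⟩
  -- embed `C` into `ℂˣ`
  have hcard : Nat.card C = Nat.card (rootsOfUnity (Nat.card C) ℂ) := by
    rw [Complex.card_rootsOfUnity]
  let e : C ≃* rootsOfUnity (Nat.card C) ℂ := mulEquivOfCyclicCardEq hcard
  let ι : C →* ℂˣ := (Subgroup.subtype _).comp e.toMonoidHom
  have hι : Function.Injective ι := by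
    intro x y h
    exact e.injective (Subtype.ext h)
  have hexp : Monoid.exponent A ≠ 0 := Monoid.exponent_ne_zero_of_finite
  have : NeZero ((Monoid.exponent A : ℕ) : ℂ) := ⟨by exact_mod_cast hexp⟩
  rw [← CommGroup.card_monoidHom_of_hasEnoughRootsOfUnity A ℂ]
  have : Finite (A →* ℂˣ) :=
    Nat.finite_of_card_ne_zero (by
      rw [CommGroup.card_monoidHom_of_hasEnoughRootsOfUnity A ℂ]; exact Nat.card_pos.ne')
  refine Nat.card_le_card_of_injective (fun f : A →* C => ι.comp f) ?_
  intro f g h
  ext a
  exact hι (DFunLike.congr_fun h a)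

theorem finite_monoidHom_of_finite (A C : Type*) [CommGroup A] [Finite A] [CommGroup C] [Finite C] :
    Finite (A →* C) :=
  Finite.of_injective (fun f : A →* C => (f : A → C)) DFunLike.coe_injective

/-- (E2) Isotropy bound, group-theoretic form.  `β` a bimultiplicative pairing on a commutative group
`G` with values in a finite cyclic group, `L ≤ G` of finite index, `W ≤ G` with
* `β a · = 1` on `L` for `a ∈ W`,
* `W` isotropic,
* the left kernel of `β` restricted to `W` is contained in `L`.
Then `[W : W ⊓ L] ^ 2 ≤ [G : L]`. -/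
theorem relIndex_sq_le_index_of_isotropic {G C : Type*} [CommGroup G] [CommGroup C] [Finite C]
    [IsCyclic C] (L W : Subgroup G) (hL : L.index ≠ 0) (β : G →* G →* C)
    (hker : ∀ a ∈ W, (∀ b, β a b = 1) → a ∈ L)
    (hiso : ∀ a ∈ W, ∀ b ∈ W, β a b = 1)
    (hL2 : ∀ a ∈ W, ∀ b ∈ L, β a b = 1) :
    L.relIndex W ^ 2 ≤ L.index := by
  classical
  set M : Subgroup G := W ⊔ L with hM
  have hLM : L ≤ M := le_sup_right
  have hMfin : M.index ≠ 0 := ne_zero_of_dvd_ne_zero hL (Subgroup.index_dvd_of_le hLM)
  have : M.FiniteIndex := ⟨hMfin⟩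
  have : Finite (G ⧸ M) := Subgroup.finite_quotient_of_finiteIndex
  -- the pairing kills `M` on the right for `a ∈ W`
  have hkill : ∀ a : W, M ≤ (β (a : G)).ker := by
    intro a
    rw [hM, sup_le_iff]
    exact ⟨fun b hb => hiso a a.2 b hb, fun b hb => hL2 a a.2 b hb⟩
  let Φ : W →* ((G ⧸ M) →* C) :=
    { toFun := fun a => QuotientGroup.lift M (β (a : G)) (hkill a)
      map_one' := by
        ext x
        simp
      map_mul' := by
        intro a b
        ext x
        simp }
  have hΦker : Φ.ker ≤ L.subgroupOf W := by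
    intro a ha
    rw [Subgroup.mem_subgroupOf]
    refine hker a a.2 (fun b => ?_)
    have := DFunLike.congr_fun (MonoidHom.mem_ker.1 ha) (QuotientGroup.mk b : G ⧸ M)
    simpa [Φ] using this
  have : Finite ((G ⧸ M) →* C) := finite_monoidHom_of_finite _ _
  have h1 : Φ.ker.index ≤ Nat.card (G ⧸ M) := by
    rw [Subgroup.index_ker]
    exact (Nat.card_le_card_of_injective _ Subtype.val_injective).trans
      (card_monoidHom_le_card _ _)
  have hker0 : Φ.ker.index ≠ 0 := by
    rw [Subgroup.index_ker]
    exact Nat.card_pos.ne'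
  have h2 : L.relIndex W ≤ M.index := by
    have := Nat.le_of_dvd (Nat.pos_of_ne_zero hker0) (Subgroup.index_dvd_of_le hΦker)
    exact this.trans h1
  have h3 : L.relIndex W = L.relIndex M := by
    rw [hM, Subgroup.relIndex_sup_right]
  have h4 : L.relIndex M * M.index = L.index := Subgroup.relIndex_mul_index hLM
  calc L.relIndex W ^ 2 = L.relIndex W * L.relIndex W := sq _
    _ ≤ L.relIndex W * M.index := Nat.mul_le_mul_left _ h2
    _ = L.index := by rw [h3, h4]

end Fermat.Agent.GC.Kummer
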