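/-
GATE-C / C4 Kummer-index stream (helper51).  Generic group-index lemmas (Mathlib only).
-/
import Mathlib

set_option autoImplicit false

namespace Fermat.Agent.GC.Kummer

/-- If the diagonal map `G → ∏ G ⧸ H i` is onto ("approximation"), the index of `⨅ H i` is the
product of the indices. -/
theorem index_iInf_eq_prod {G : Type*} [Group G] {ι : Type*} [Fintype ι] (H : ι → Subgroup G)
    (happrox : ∀ x : ι → G, ∃ y : G, ∀ i, (x i)⁻¹ * y ∈ H i) :
    (⨅ i, H i).index = ∏ i, (H i).index := by
  classical
  have hsurj : Function.Surjective (Subgroup.quotientiInfEmbedding H) := by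
    intro z
    choose x hx using fun i => QuotientGroup.mk_surjective (z i)
    obtain ⟨y, hy⟩ := happrox x
    refine ⟨QuotientGroup.mk y, ?_⟩
    funext i
    rw [Subgroup.quotientiInfEmbedding_apply_mk, ← hx i]
    exact (QuotientGroup.eq.2 (hy i)).symm
  have hbij : Function.Bijective (Subgroup.quotientiInfEmbedding H) :=
    ⟨(Subgroup.quotientiInfEmbedding H).injective, hsurj⟩
  have hcard := Nat.card_congr (Equiv.ofBijective _ hbij)
  rw [Nat.card_pi] at hcard
  simpa [Subgroup.index] using hcard

/-- `[G : H ⊔ U] * [U : U ⊓ H] = [G : H]` for a normal subgroup `H` (e.g. `G` commutative). -/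
theorem index_sup_mul_relIndex {G : Type*} [Group G] (H U : Subgroup G) [H.Normal] :
    (H ⊔ U).index * H.relIndex U = H.index := by
  rw [← Subgroup.relIndex_sup_left U H, mul_comm]
  exact Subgroup.relIndex_mul_index le_sup_left

end Fermat.Agent.GC.Kummer
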