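/-
GATE-C / C4 Kummer-index stream (helper51).

`K ⊇ μ_p`, `p` odd, `S` a finite set of primes of `K` containing the primes above `p` and generating
the class group; `𝒦_S := ⋂_{v ∈ S} localPowSubgroup p v` (elements of `Kˣ` that are local `p`-th powers
at every `v ∈ S`), `U_S := S.unit K`.  Then

* `[Kˣ : 𝒦_S] = p ^ (2 |S| + 2 r₂)`             (exact: local indices + weak approximation);
* `U_S ∩ 𝒦_S = U_S ^ p`                           ("easy key lemma": `K(x^(1/p))/K` would be
                                                   unramified everywhere and split at `S`,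
                                                   contradicting the first inequality FI-u);
* `[Kˣ : 𝒦_S · U_S] = p ^ (|S| + r₂)`.

Idelically: `[J_K : Kˣ · (∏_{v∈S} K_v^{×p} × ∏_{v∉S} 𝒪_v^×)] = p ^ (|S| + r₂) = [K(U_S^(1/p)) : K]`,
the index computation behind the existence theorem (exponent `p`) and the second inequality.
Everything is built on the landed (frozen) T14 library `Fermat/Agent/S14/**`.
-/
import Fermat.Agent.GC.Kummer.Index
import Fermat.Agent.S14.FirstInequality
import Fermat.Agent.S14.SI.Kummer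
import Fermat.Agent.S14.SI.KL.Root
import Fermat.Agent.S14.SI.Asm.LocalIndex
import Fermat.Agent.S14.SI.Asm.SplitNormKL
import Fermat.Agent.S14.SI.Asm.Surj
import Fermat.Agent.S14_helper27.SUnits

set_option autoImplicit false

open NumberField IsDedekindDomain nonZeroDivisors Polynomial

namespace Fermat.Agent.GC.Kummer

open Fermat.Agent.S14 Fermat.Agent.S14.SI

variable {K : Type*} [Field K] [NumberField K]

/-- `𝒦_S`: the elements of `Kˣ` which are local `p`-th powers (precision `prec p v`) at all `v ∈ S`. -/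
noncomputable def locPow (p : ℕ) (S : Finset (HeightOneSpectrum (𝓞 K))) : Subgroup Kˣ :=
  ⨅ v : S, localPowSubgroup p v.1.asIdeal

lemma mem_locPow {p : ℕ} {S : Finset (HeightOneSpectrum (𝓞 K))} {x : Kˣ} :
    x ∈ locPow p S ↔ ∀ v ∈ S, IsLocalPow p v.asIdeal (prec p v.asIdeal) x := by
  simp only [locPow, Subgroup.mem_iInf, Subtype.forall]
  rfl

lemma pow_mem_locPow (p : ℕ) (S : Finset (HeightOneSpectrum (𝓞 K))) (y : Kˣ) :
    y ^ p ∈ locPow p S := by
  rw [mem_locPow]
  intro v _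
  exact Bridge.isLocalPow_pow p v.asIdeal _ y

/-- exact index of `𝒦_S` -/
theorem index_locPow {p : ℕ} (hp : p.Prime) (hp2 : p ≠ 2) (ζ : K) (hζ : IsPrimitiveRoot ζ p)
    (S : Finset (HeightOneSpectrum (𝓞 K)))
    (hSp : ∀ v : HeightOneSpectrum (𝓞 K), (p : 𝓞 K) ∈ v.asIdeal → v ∈ S) :
    (locPow p S).index = p ^ (2 * S.card + 2 * InfinitePlace.nrComplexPlaces K) := by
  classical
  have h3 : 3 ≤ p := by have := hp.two_le; omega
  have htc : IsTotallyComplex K :=
    Fermat.Agent.S14_helper27.isTotallyComplex_of_isPrimitiveRoot K h3 hζ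
  have hfin : Module.finrank ℚ K = 2 * InfinitePlace.nrComplexPlaces K :=
    IsTotallyComplex.finrank (K := K)
  have hidx : ∀ v : HeightOneSpectrum (𝓞 K), (localPowSubgroup p v.asIdeal).index =
      p ^ 2 * Ideal.absNorm v.asIdeal ^ ordP p v.asIdeal := by
    intro v
    rw [Subgroup.index_eq_card]
    exact Fermat.Agent.S14_helper12.card_quotient_localPowSubgroup' hp ζ hζ v.asIdeal v.ne_bot
  rw [locPow, index_iInf_eq_prod]
  · rw [Finset.prod_coe_sort S (fun v => (localPowSubgroup p v.asIdeal).index)]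
    simp_rw [hidx]
    rw [Finset.prod_mul_distrib, Finset.prod_const, Asm.prod_absNorm_pow_ordP hp.ne_zero S hSp,
      ← pow_mul, ← pow_add, hfin]
  · intro x
    obtain ⟨y, hy⟩ := exists_approx S (fun v => if h : v ∈ S then x ⟨v, h⟩ else 1)
      (fun v => prec p v.asIdeal)
    refine ⟨y, fun v => ?_⟩
    have h1 := hy v.1 v.2
    rw [dif_pos v.2] at h1
    have h2 : (x v)⁻¹ * y = y / x v := by rw [div_eq_mul_inv, mul_comm]
    rw [h2]
    exact Bridge.OneModPow.isLocalPow h1

section EasyKey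

variable {N : Type*} [Field N] [NumberField N] [Algebra K N]

/-- a Kummer extension `K(x^(1/p))` with `x` an `S`-unit that is a local `p`-th power at all of `S ⊇ {v ∣ p}`
is unramified everywhere -/
theorem unramifiedEverywhere_of_locPow {p : ℕ} (hp : p.Prime) (hp2 : p ≠ 2) (ζ : K)
    (hζ : IsPrimitiveRoot ζ p) [IsGalois K N]
    (S : Finset (HeightOneSpectrum (𝓞 K)))
    (hSp : ∀ v : HeightOneSpectrum (𝓞 K), (p : 𝓞 K) ∈ v.asIdeal → v ∈ S)
    (x : Kˣ) (hxS : x ∈ (S : Set (HeightOneSpectrum (𝓞 K))).unit K) (hx : x ∈ locPow p S)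
    (β : N) (hβ : β ^ p = algebraMap K N x) (hN : IntermediateField.adjoin K {β} = ⊤) :
    UnramifiedEverywhere K N := by
  intro P hPprime hP0 τ hτ
  haveI := hPprime
  -- the prime below
  have hv0 : P.under (𝓞 K) ≠ ⊥ := fun h => hP0 (Ideal.eq_bot_of_comap_eq_bot h)
  let v : HeightOneSpectrum (𝓞 K) := ⟨P.under (𝓞 K), inferInstance, hv0⟩
  by_cases hvS : v ∈ S
  · -- split at `v`
    have hloc : IsLocalPow p (P.under (𝓞 K)) (prec p (P.under (𝓞 K))) x := (mem_locPow.1 hx) v hvS
    refine decomposition_trivial_of_isLocalPow hp hp2 ζ hζ x β hβ hN P hP0 hloc τ ?_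
    intro z hz
    have := hτ z
    have h2 : τ • z = (τ • z - z) + z := by ring
    rw [h2]
    exact Ideal.add_mem _ this hz
  · -- `x` is a unit at `v`, `v ∤ p`
    have hPp : (p : 𝓞 N) ∉ P := by
      intro hmem
      apply hvS
      apply hSp v
      change (p : 𝓞 K) ∈ P.under (𝓞 K)
      rw [Ideal.under_def, Ideal.mem_comap, map_natCast]
      exact hmem
    have hunit : IsUnitAt (P.under (𝓞 K)) x := by
      have := (Bridge.mem_unit_iff _ _).1 hxS v hvS
      exact this
    refine inertia_trivial_of_dvd_ord hp ζ hζ x β hβ hN P hP0 hPp ⟨1, ?_⟩ τ hτ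
    simpa using hunit

end EasyKey

/-- **Easy key lemma**: an `S`-unit which is a local `p`-th power at every `v ∈ S` is a `p`-th power,
if `S ⊇ {v ∣ p}` generates the class group. -/
theorem easy_key {p : ℕ} (hp : p.Prime) (hp2 : p ≠ 2) (ζ : K) (hζ : IsPrimitiveRoot ζ p)
    (S : Finset (HeightOneSpectrum (𝓞 K)))
    (hSp : ∀ v : HeightOneSpectrum (𝓞 K), (p : 𝓞 K) ∈ v.asIdeal → v ∈ S)
    (hScl : Subgroup.closure (Set.range fun v : S =>
        ClassGroup.mk0 ⟨v.1.asIdeal, mem_nonZeroDivisors_of_ne_zero v.1.ne_bot⟩) = ⊤)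
    (x : Kˣ) (hxS : x ∈ (S : Set (HeightOneSpectrum (𝓞 K))).unit K) (hx : x ∈ locPow p S) :
    ∃ y : Kˣ, y ^ p = x := by
  by_contra hne
  push_neg at hne
  have hne' : ∀ y : K, y ^ p ≠ (x : K) := by
    intro y hy
    have hy0 : y ≠ 0 := by
      rintro rfl
      rw [zero_pow hp.ne_zero] at hy
      exact x.ne_zero hy.symm
    exact hne (Units.mk0 y hy0) (Units.ext (by simpa using hy))
  have h3 : 3 ≤ p := by have := hp.two_le; omega
  have htc : IsTotallyComplex K :=
    Fermat.Agent.S14_helper27.isTotallyComplex_of_isPrimitiveRoot K h3 hζ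
  -- the Kummer extension
  haveI : IsGalois K (kummerExt K p (x : K)) := kummerExt_isGalois hp ζ hζ (x : K)
  have hdeg : Module.finrank K (kummerExt K p (x : K)) = p :=
    finrank_kummerExt hp ζ hζ (x : K) hne'
  obtain ⟨β, hβ⟩ := KL.exists_root_splittingField (K := K) hp.pos (x : K)
  have hN : IntermediateField.adjoin K {β} = ⊤ :=
    KL.adjoin_eq_top_of_pow_eq hp hdeg (x : K) hne' β hβ
  have hunr : UnramifiedEverywhere K (kummerExt K p (x : K)) :=
    unramifiedEverywhere_of_locPow hp hp2 ζ hζ S hSp x hxS hx β hβ hN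
  apply normClasses_ne_top K (kummerExt K p (x : K)) hp hdeg htc hunr
  rw [eq_top_iff, ← hScl, Subgroup.closure_le]
  rintro _ ⟨v, rfl⟩
  refine Asm.mk0_mem_normClasses_of_split_kl (L := kummerExt K p (x : K)) v.1 ?_
  intro P hPprime hPv τ hτ
  haveI := hPprime
  have hP0 : P ≠ ⊥ := by
    rintro rfl
    apply v.1.ne_bot
    rw [← hPv]
    ext z
    simp [Ideal.under_def, Ideal.mem_comap]
  have hloc : IsLocalPow p (P.under (𝓞 K)) (prec p (P.under (𝓞 K))) x := by
    have := (mem_locPow.1 hx) v.1 v.2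
    rw [hPv]
    exact this
  exact decomposition_trivial_of_isLocalPow hp hp2 ζ hζ x β hβ hN P hP0 hloc τ hτ

/-- `[U_S : U_S ∩ 𝒦_S] = p ^ (|S| + r₂)` -/
theorem relIndex_locPow_unit {p : ℕ} (hp : p.Prime) (hp2 : p ≠ 2) (ζ : K) (hζ : IsPrimitiveRoot ζ p)
    (S : Finset (HeightOneSpectrum (𝓞 K)))
    (hSp : ∀ v : HeightOneSpectrum (𝓞 K), (p : 𝓞 K) ∈ v.asIdeal → v ∈ S)
    (hScl : Subgroup.closure (Set.range fun v : S =>
        ClassGroup.mk0 ⟨v.1.asIdeal, mem_nonZeroDivisors_of_ne_zero v.1.ne_bot⟩) = ⊤) :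
    (locPow p S).relIndex ((S : Set (HeightOneSpectrum (𝓞 K))).unit K) =
      p ^ (S.card + InfinitePlace.nrComplexPlaces K) :=
  Asm.relIndex_of_key hp hp2 ζ hζ S (locPow p S) (pow_mem_locPow p S)
    (fun x hxS hx => easy_key hp hp2 ζ hζ S hSp hScl x hxS hx)

/-- **(KI-1)** `[Kˣ : 𝒦_S · U_S] = p ^ (|S| + r₂)`. -/
theorem index_locPow_sup_unit {p : ℕ} (hp : p.Prime) (hp2 : p ≠ 2) (ζ : K)
    (hζ : IsPrimitiveRoot ζ p) (S : Finset (HeightOneSpectrum (𝓞 K)))
    (hSp : ∀ v : HeightOneSpectrum (𝓞 K), (p : 𝓞 K) ∈ v.asIdeal → v ∈ S)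
    (hScl : Subgroup.closure (Set.range fun v : S =>
        ClassGroup.mk0 ⟨v.1.asIdeal, mem_nonZeroDivisors_of_ne_zero v.1.ne_bot⟩) = ⊤) :
    (locPow p S ⊔ (S : Set (HeightOneSpectrum (𝓞 K))).unit K).index =
      p ^ (S.card + InfinitePlace.nrComplexPlaces K) := by
  have h1 := index_sup_mul_relIndex (locPow p S) ((S : Set (HeightOneSpectrum (𝓞 K))).unit K)
  rw [relIndex_locPow_unit hp hp2 ζ hζ S hSp hScl, index_locPow hp hp2 ζ hζ S hSp] at h1
  have hpos : 0 < p ^ (S.card + InfinitePlace.nrComplexPlaces K) := pow_pos hp.pos _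
  have h2 : p ^ (2 * S.card + 2 * InfinitePlace.nrComplexPlaces K) =
      p ^ (S.card + InfinitePlace.nrComplexPlaces K) *
        p ^ (S.card + InfinitePlace.nrComplexPlaces K) := by
    rw [← pow_add]; congr 1; ring
  rw [h2] at h1
  exact Nat.eq_of_mul_eq_mul_right hpos h1

end Fermat.Agent.GC.Kummer
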