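/-
GATE-C / C4 Kummer-index stream (helper51).  (KI-2): the counting step of the second inequality.

`K ⊇ μ_p`, `S ⊇ {v ∣ p}`, `T` disjoint from `S` with `|T| + 1 = |S| + r₂` and the KEY property
`U_{S∪T} ∩ 𝒦_S ⊆ Kˣᵖ` (T14 `key_lemma`).  Then `[Kˣ : 𝒦_S · U_{S∪T}] = p`.
-/
import Fermat.Agent.GC.Kummer.Count

set_option autoImplicit false

open NumberField IsDedekindDomain nonZeroDivisors

namespace Fermat.Agent.GC.Kummer

open Fermat.Agent.S14 Fermat.Agent.S14.SI

variable {K : Type*} [Field K] [NumberField K]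

/-- **(KI-2)** `[Kˣ : 𝒦_S · U_{S ∪ T}] = p`, given the key property for `(S, T)`. -/
theorem index_locPow_sup_unit_union {p : ℕ} (hp : p.Prime) (hp2 : p ≠ 2) (ζ : K)
    (hζ : IsPrimitiveRoot ζ p) (S T : Finset (HeightOneSpectrum (𝓞 K))) (hST : Disjoint T S)
    (hSp : ∀ v : HeightOneSpectrum (𝓞 K), (p : 𝓞 K) ∈ v.asIdeal → v ∈ S)
    (hcard : T.card + 1 = S.card + InfinitePlace.nrComplexPlaces K)
    (hkey : ∀ x ∈ ((S : Set (HeightOneSpectrum (𝓞 K))) ∪
        (T : Set (HeightOneSpectrum (𝓞 K)))).unit K, x ∈ locPow p S → ∃ y : Kˣ, y ^ p = x) :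
    (locPow p S ⊔ ((S : Set (HeightOneSpectrum (𝓞 K))) ∪
      (T : Set (HeightOneSpectrum (𝓞 K)))).unit K).index = p := by
  classical
  have hcoe : ((S ∪ T : Finset (HeightOneSpectrum (𝓞 K))) : Set (HeightOneSpectrum (𝓞 K))) =
      (S : Set (HeightOneSpectrum (𝓞 K))) ∪ (T : Set (HeightOneSpectrum (𝓞 K))) :=
    Finset.coe_union S T
  have hrel : (locPow p S).relIndex (((S : Set (HeightOneSpectrum (𝓞 K))) ∪
      (T : Set (HeightOneSpectrum (𝓞 K)))).unit K) =
      p ^ ((S ∪ T).card + InfinitePlace.nrComplexPlaces K) := by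
    rw [← hcoe]
    refine Asm.relIndex_of_key hp hp2 ζ hζ (S ∪ T) (locPow p S) (pow_mem_locPow p S) ?_
    intro x hx hx'
    rw [hcoe] at hx
    exact hkey x hx hx'
  have hcardU : (S ∪ T).card = S.card + T.card :=
    Finset.card_union_of_disjoint (Finset.disjoint_left.2 fun v hvS hvT =>
      (Finset.disjoint_left.1 hST) hvT hvS)
  have h1 := index_sup_mul_relIndex (locPow p S) (((S : Set (HeightOneSpectrum (𝓞 K))) ∪
      (T : Set (HeightOneSpectrum (𝓞 K)))).unit K)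
  rw [hrel, index_locPow hp hp2 ζ hζ S hSp, hcardU] at h1
  set n := S.card + T.card + InfinitePlace.nrComplexPlaces K with hn
  have h2 : 2 * S.card + 2 * InfinitePlace.nrComplexPlaces K = n + 1 := by omega
  rw [h2, pow_succ, mul_comm (p ^ n) p] at h1
  exact Nat.eq_of_mul_eq_mul_right (pow_pos hp.pos n) h1

end Fermat.Agent.GC.Kummer
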