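/-
GATE-C / C4 Kummer-index stream (helper51).  (KI-c): `(S ∪ T)`-units are `S`-units times global norms.

* `exists_ord_eq_count` : if `S` generates `Cl(K)`, every nonzero ideal is principal away from `S`;
* `exists_norm_uniformizer` : a prime `v ∉ S` which splits completely in `N` has a "uniformiser away
  from `S`" that is a global norm from `N` (if the primes of `N` above `S` generate `Cl(N)`);
* `unit_union_le_sup_normRange` : `U_{S ∪ T} ≤ U_S · N_{N/K}(Nˣ)` for `T` split in `N`.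
All on top of the landed (frozen) T14 library.
-/
import Fermat.Agent.GC.Kummer.KI2
import Fermat.Agent.S14.SI.KL.Class
import Fermat.Agent.S14.SI.KL.Norm
import Fermat.Agent.S14.SI.Asm.Principal

set_option autoImplicit false

open NumberField IsDedekindDomain nonZeroDivisors

namespace Fermat.Agent.GC.Kummer

open Fermat.Agent.S14 Fermat.Agent.S14.SI

variable {K : Type*} [Field K] [NumberField K]

/-- the count of a nonzero integer of `K` -/
lemma count_span_eq_ord (v : HeightOneSpectrum (𝓞 K)) (c : 𝓞 K) (hc : (c : K) ≠ 0) :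
    FractionalIdeal.count K v ((Ideal.span {c} : Ideal (𝓞 K)) : FractionalIdeal (𝓞 K)⁰ K) =
      Multiplicative.toAdd (Bridge.ord v (Units.mk0 (c : K) hc)) := by
  rw [← Asm.count_spanSingleton_eq_ord, FractionalIdeal.coeIdeal_span_singleton]
  rfl

/-- If `S` generates the class group, every nonzero ideal is principal away from `S`. -/
theorem exists_ord_eq_count (S : Finset (HeightOneSpectrum (𝓞 K)))
    (hScl : Subgroup.closure (Set.range fun v : S =>
        ClassGroup.mk0 ⟨v.1.asIdeal, mem_nonZeroDivisors_of_ne_zero v.1.ne_bot⟩) = ⊤)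
    (𝔞 : Ideal (𝓞 K)) (h𝔞 : 𝔞 ≠ ⊥) :
    ∃ y : Kˣ, ∀ v : HeightOneSpectrum (𝓞 K), v ∉ S →
      Multiplicative.toAdd (Bridge.ord v y) =
        FractionalIdeal.count K v (𝔞 : FractionalIdeal (𝓞 K)⁰ K) := by
  classical
  obtain ⟨n, c₁, c₂, hc₁, hc₂, e⟩ := KL.exists_eq_prod_of_closure_eq_top S hScl 𝔞 h𝔞
  have hc₁K : (c₁ : K) ≠ 0 := by
    rwa [Ne, RingOfIntegers.coe_eq_zero_iff]
  have hc₂K : (c₂ : K) ≠ 0 := by
    rwa [Ne, RingOfIntegers.coe_eq_zero_iff]
  refine ⟨Units.mk0 (c₂ : K) hc₂K / Units.mk0 (c₁ : K) hc₁K, fun v hv => ?_⟩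
  rw [map_div, toAdd_div, ← count_span_eq_ord, ← count_span_eq_ord]
  have e' := congrArg (fun I : Ideal (𝓞 K) => FractionalIdeal.count K v
    (I : FractionalIdeal (𝓞 K)⁰ K)) e
  beta_reduce at e'
  have h1 : ((Ideal.span {c₁} : Ideal (𝓞 K)) : FractionalIdeal (𝓞 K)⁰ K) ≠ 0 := by
    rw [FractionalIdeal.coeIdeal_ne_zero, Ne, Ideal.span_singleton_eq_bot]; exact hc₁
  have h2 : ((Ideal.span {c₂} : Ideal (𝓞 K)) : FractionalIdeal (𝓞 K)⁰ K) ≠ 0 := by
    rw [FractionalIdeal.coeIdeal_ne_zero, Ne, Ideal.span_singleton_eq_bot]; exact hc₂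
  have h3 : (𝔞 : FractionalIdeal (𝓞 K)⁰ K) ≠ 0 := FractionalIdeal.coeIdeal_ne_zero.2 h𝔞
  have h4 : ∀ w ∈ S, ((w.asIdeal : FractionalIdeal (𝓞 K)⁰ K)) ^ n w ≠ 0 := fun w _ =>
    pow_ne_zero _ (FractionalIdeal.coeIdeal_ne_zero.2 w.ne_bot)
  have h5 : ((∏ w ∈ S, w.asIdeal ^ n w : Ideal (𝓞 K)) : FractionalIdeal (𝓞 K)⁰ K) =
      ∏ w ∈ S, ((w.asIdeal : FractionalIdeal (𝓞 K)⁰ K)) ^ n w := by
    rw [← FractionalIdeal.coeIdealHom_apply, map_prod]
    refine Finset.prod_congr rfl (fun w _ => ?_)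
    rw [FractionalIdeal.coeIdealHom_apply, FractionalIdeal.coeIdeal_pow]
  have h6 : FractionalIdeal.count K v (∏ w ∈ S, ((w.asIdeal : FractionalIdeal (𝓞 K)⁰ K)) ^ n w)
      = 0 := by
    rw [FractionalIdeal.count_prod K v S _ h4]
    apply Finset.sum_eq_zero
    intro w hw
    rw [FractionalIdeal.count_pow, FractionalIdeal.count_maximal_coprime K v (w := w), mul_zero]
    rintro rfl
    exact hv hw
  rw [FractionalIdeal.coeIdeal_mul, FractionalIdeal.coeIdeal_mul,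
    FractionalIdeal.count_mul K v h1 h3, h5, FractionalIdeal.count_mul K v h2 ?_, h6] at e'
  · omega
  · exact Finset.prod_ne_zero_iff.2 h4

variable {N : Type*} [Field N] [NumberField N] [Algebra K N]

/-- A prime `v ∉ S` of `K` that splits completely in `N` has a "uniformiser away from `S`" which is a
global norm from `N`, provided the primes of `N` above `S` generate `Cl(N)`. -/
theorem exists_norm_uniformizer [IsGalois K N] (S : Finset (HeightOneSpectrum (𝓞 K)))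
    (SN : Finset (HeightOneSpectrum (𝓞 N)))
    (hSN : ∀ Q ∈ SN, Bridge.below K Q ∈ S)
    (hSNcl : Subgroup.closure (Set.range fun Q : SN =>
        ClassGroup.mk0 ⟨Q.1.asIdeal, mem_nonZeroDivisors_of_ne_zero Q.1.ne_bot⟩) = ⊤)
    (v : HeightOneSpectrum (𝓞 K))
    (hsplit : ∀ P : Ideal (𝓞 N), P.IsPrime → P ≠ ⊥ → P.under (𝓞 K) = v.asIdeal → ∀ τ : N ≃ₐ[K] N,
      (∀ z : 𝓞 N, z ∈ P → τ • z ∈ P) → τ = 1) :
    ∃ z : Nˣ, ∀ w : HeightOneSpectrum (𝓞 K), w ∉ S →
      (w = v → Multiplicative.toAdd (Bridge.ord w (Units.map (Algebra.norm K : N →* K) z)) = 1) ∧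
      (w ≠ v → Multiplicative.toAdd (Bridge.ord w (Units.map (Algebra.norm K : N →* K) z)) = 0) := by
  classical
  have := v.isPrime
  obtain ⟨P, hPprime, hP0, hPv⟩ := KL.exists_prime_relNorm_eq (N := N) v.asIdeal v.ne_bot hsplit
  obtain ⟨n, c₁, c₂, hc₁, hc₂, e⟩ := KL.exists_eq_prod_of_closure_eq_top SN hSNcl P hP0
  have hc₁N : (c₁ : N) ≠ 0 := by rwa [Ne, RingOfIntegers.coe_eq_zero_iff]
  have hc₂N : (c₂ : N) ≠ 0 := by rwa [Ne, RingOfIntegers.coe_eq_zero_iff]
  set m₁ : 𝓞 K := Algebra.intNorm (𝓞 K) (𝓞 N) c₁ with hm₁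
  set m₂ : 𝓞 K := Algebra.intNorm (𝓞 K) (𝓞 N) c₂ with hm₂
  have hm₁0 : m₁ ≠ 0 := Algebra.intNorm_ne_zero.2 hc₁
  have hm₂0 : m₂ ≠ 0 := Algebra.intNorm_ne_zero.2 hc₂
  have hm₁K : (m₁ : K) ≠ 0 := by rwa [Ne, RingOfIntegers.coe_eq_zero_iff]
  have hm₂K : (m₂ : K) ≠ 0 := by rwa [Ne, RingOfIntegers.coe_eq_zero_iff]
  have hn₁ : (m₁ : K) = Algebra.norm K (c₁ : N) := Algebra.algebraMap_intNorm c₁
  have hn₂ : (m₂ : K) = Algebra.norm K (c₂ : N) := Algebra.algebraMap_intNorm c₂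
  -- the norm of the ideal equation
  have e' := congrArg (Ideal.relNorm (𝓞 K)) e
  rw [map_mul, map_mul, Ideal.relNorm_singleton, Ideal.relNorm_singleton, hPv, map_prod] at e'
  refine ⟨Units.mk0 (c₂ : N) hc₂N / Units.mk0 (c₁ : N) hc₁N, fun w hw => ?_⟩
  have hz : Units.map (Algebra.norm K : N →* K) (Units.mk0 (c₂ : N) hc₂N / Units.mk0 (c₁ : N) hc₁N)
      = Units.mk0 (m₂ : K) hm₂K / Units.mk0 (m₁ : K) hm₁K := by
    rw [map_div]
    congr 1
    · exact Units.ext (by simp [hn₂])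
    · exact Units.ext (by simp [hn₁])
  rw [hz, map_div, toAdd_div, ← count_span_eq_ord, ← count_span_eq_ord]
  have e'' := congrArg (fun I : Ideal (𝓞 K) => FractionalIdeal.count K w
    (I : FractionalIdeal (𝓞 K)⁰ K)) e'
  beta_reduce at e''
  have h1 : ((Ideal.span {m₁} : Ideal (𝓞 K)) : FractionalIdeal (𝓞 K)⁰ K) ≠ 0 := by
    rw [FractionalIdeal.coeIdeal_ne_zero, Ne, Ideal.span_singleton_eq_bot]; exact hm₁0
  have h2 : ((Ideal.span {m₂} : Ideal (𝓞 K)) : FractionalIdeal (𝓞 K)⁰ K) ≠ 0 := by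
    rw [FractionalIdeal.coeIdeal_ne_zero, Ne, Ideal.span_singleton_eq_bot]; exact hm₂0
  have h3 : (v.asIdeal : FractionalIdeal (𝓞 K)⁰ K) ≠ 0 := FractionalIdeal.coeIdeal_ne_zero.2 v.ne_bot
  -- the norms of the primes above `S`
  have hQ : ∀ Q ∈ SN, ∃ s : ℕ, Ideal.relNorm (𝓞 K) (Q.asIdeal ^ n Q) = (Bridge.below K Q).asIdeal ^ s := by
    intro Q _
    have : Q.asIdeal.LiesOver (Bridge.below K Q).asIdeal := ⟨rfl⟩
    obtain ⟨s, hs⟩ := Ideal.exists_relNorm_eq_pow_of_isPrime Q.asIdeal (Bridge.below K Q).asIdeal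
    exact ⟨s * n Q, by rw [map_pow, hs, pow_mul]⟩
  choose! s hs using hQ
  have h5 : ((∏ Q ∈ SN, Ideal.relNorm (𝓞 K) (Q.asIdeal ^ n Q) : Ideal (𝓞 K)) :
      FractionalIdeal (𝓞 K)⁰ K) =
      ∏ Q ∈ SN, (((Bridge.below K Q).asIdeal : FractionalIdeal (𝓞 K)⁰ K)) ^ s Q := by
    rw [← FractionalIdeal.coeIdealHom_apply, map_prod]
    refine Finset.prod_congr rfl (fun Q hQ => ?_)
    rw [FractionalIdeal.coeIdealHom_apply, hs Q hQ, FractionalIdeal.coeIdeal_pow]
  have h4 : ∀ Q ∈ SN, (((Bridge.below K Q).asIdeal : FractionalIdeal (𝓞 K)⁰ K)) ^ s Q ≠ 0 :=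
    fun Q _ => pow_ne_zero _ (FractionalIdeal.coeIdeal_ne_zero.2 (Bridge.below K Q).ne_bot)
  have h6 : FractionalIdeal.count K w
      (∏ Q ∈ SN, (((Bridge.below K Q).asIdeal : FractionalIdeal (𝓞 K)⁰ K)) ^ s Q) = 0 := by
    rw [FractionalIdeal.count_prod K w SN _ h4]
    apply Finset.sum_eq_zero
    intro Q hQ
    rw [FractionalIdeal.count_pow,
      FractionalIdeal.count_maximal_coprime K w (w := Bridge.below K Q), mul_zero]
    intro h
    exact hw (h ▸ hSN Q hQ)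
  rw [FractionalIdeal.coeIdeal_mul, FractionalIdeal.coeIdeal_mul,
    FractionalIdeal.count_mul K w h1 h3, h5, FractionalIdeal.count_mul K w h2 ?_, h6,
    FractionalIdeal.count_maximal K w v] at e''
  · constructor
    · intro hwv
      rw [if_pos hwv.symm] at e''
      omega
    · intro hwv
      rw [if_neg (fun h => hwv h.symm)] at e''
      omega
  · exact Finset.prod_ne_zero_iff.2 h4

/-- the group of global norms -/
noncomputable def normRange (K N : Type*) [Field K] [Field N] [Algebra K N] : Subgroup Kˣ :=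
  (Units.map (Algebra.norm K : N →* K)).range

lemma mem_unit_iff_toAdd (S : Set (HeightOneSpectrum (𝓞 K))) (x : Kˣ) :
    x ∈ S.unit K ↔ ∀ v : HeightOneSpectrum (𝓞 K), v ∉ S →
      Multiplicative.toAdd (Bridge.ord v x) = 0 := by
  rw [Bridge.mem_unit_iff]
  refine forall₂_congr (fun v _ => ?_)
  rw [Bridge.isUnitAt_iff_ord]
  exact ⟨fun h => by rw [h]; rfl, fun h => Multiplicative.toAdd.injective h⟩

/-- **(KI-c)** `U_{S ∪ T} ≤ U_S · N_{N/K}(Nˣ)` if the primes of `T` split completely in `N` and the primes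
of `N` above `S` generate `Cl(N)`. -/
theorem unit_union_le_sup_normRange [IsGalois K N] (S : Finset (HeightOneSpectrum (𝓞 K)))
    (SN : Finset (HeightOneSpectrum (𝓞 N)))
    (hSN : ∀ Q ∈ SN, Bridge.below K Q ∈ S)
    (hSNcl : Subgroup.closure (Set.range fun Q : SN =>
        ClassGroup.mk0 ⟨Q.1.asIdeal, mem_nonZeroDivisors_of_ne_zero Q.1.ne_bot⟩) = ⊤)
    (T : Finset (HeightOneSpectrum (𝓞 K)))
    (hsplit : ∀ v ∈ T, ∀ P : Ideal (𝓞 N), P.IsPrime → P ≠ ⊥ → P.under (𝓞 K) = v.asIdeal →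
      ∀ τ : N ≃ₐ[K] N, (∀ z : 𝓞 N, z ∈ P → τ • z ∈ P) → τ = 1) :
    ((S : Set (HeightOneSpectrum (𝓞 K))) ∪ (T : Set (HeightOneSpectrum (𝓞 K)))).unit K ≤
      (S : Set (HeightOneSpectrum (𝓞 K))).unit K ⊔ normRange K N := by
  classical
  induction T using Finset.induction_on with
  | empty =>
    simp only [Finset.coe_empty, Set.union_empty]
    exact le_sup_left
  | insert v T hvT ih =>
    have ih' := ih (fun w hw => hsplit w (Finset.mem_insert_of_mem hw))
    intro x hx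
    by_cases hvS : v ∈ S
    · apply ih'
      rw [mem_unit_iff_toAdd] at hx ⊢
      intro w hw
      apply hx w
      simp only [Finset.coe_insert, Set.mem_union, Finset.mem_coe, Set.mem_insert_iff, not_or] at hw ⊢
      refine ⟨hw.1, ?_, hw.2⟩
      rintro rfl
      exact hw.1 hvS
    · obtain ⟨z, hz⟩ := exists_norm_uniformizer S SN hSN hSNcl v
        (hsplit v (Finset.mem_insert_self v T))
      set π : Kˣ := Units.map (Algebra.norm K : N →* K) z with hπ
      set n : ℤ := Multiplicative.toAdd (Bridge.ord v x) with hn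
      have hπR : π ^ n ∈ normRange K N := Subgroup.zpow_mem _ (MonoidHom.mem_range.2 ⟨z, rfl⟩) n
      have hx' : x / π ^ n ∈ ((S : Set (HeightOneSpectrum (𝓞 K))) ∪
          (T : Set (HeightOneSpectrum (𝓞 K)))).unit K := by
        rw [mem_unit_iff_toAdd] at hx ⊢
        intro w hw
        simp only [Set.mem_union, Finset.mem_coe, not_or] at hw
        rw [map_div, map_zpow, toAdd_div, toAdd_zpow]
        by_cases hwv : w = v
        · rw [(hz w hw.1).1 hwv, hwv]
          simp [hn]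
        · rw [(hz w hw.1).2 hwv, hx w]
          · simp
          · simp only [Finset.coe_insert, Set.mem_union, Finset.mem_coe, Set.mem_insert_iff, not_or]
            exact ⟨hw.1, hwv, hw.2⟩
      have h1 := ih' hx'
      have h2 : x = (x / π ^ n) * π ^ n := (div_mul_cancel x (π ^ n)).symm
      rw [h2]
      exact Subgroup.mul_mem _ h1 (Subgroup.mem_sup_right hπR)

end Fermat.Agent.GC.Kummer
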