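/-
GATE-C / C4 Kummer-index stream (helper51).  `S`-class group versus divisors away from `S`.

* `primeSet S`, `ClS S := ClassGroup (𝓞 K) ⧸ Capit.sClasses (primeSet S)` (the `S`-class group);
* `mk_mem_sClasses_iff` : the class of a fractional ideal `I` is an `S`-class iff some `y ∈ Kˣ` has
  `ord_v y = count_v I` for all `v ∉ S`.
On top of the landed T14 library and helper79's `Capit.sClasses`.
-/
import Fermat.Agent.GC.Kummer.NormUnit
import Fermat.Agent.GC.Capit.ClassGroup
import Fermat.Agent.S14.SI.FT.Divisor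

set_option autoImplicit false

open NumberField IsDedekindDomain nonZeroDivisors

namespace Fermat.Agent.GC.Kummer

open Fermat.Agent.S14 Fermat.Agent.S14.SI

variable {K : Type*} [Field K] [NumberField K]

/-- the set of prime ideals underlying a finite set of finite places -/
def primeSet (S : Finset (HeightOneSpectrum (𝓞 K))) : Set (Ideal (𝓞 K)) :=
  {I | ∃ v ∈ S, v.asIdeal = I}

omit [NumberField K] in
lemma asIdeal_mem_primeSet {S : Finset (HeightOneSpectrum (𝓞 K))}
    {v : HeightOneSpectrum (𝓞 K)} : v.asIdeal ∈ primeSet S ↔ v ∈ S := by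
  constructor
  · rintro ⟨w, hw, e⟩
    rwa [← HeightOneSpectrum.ext e]
  · intro h
    exact ⟨v, h, rfl⟩

/-- The `S`-class group `Cl_S(K)`. -/
abbrev ClS (S : Finset (HeightOneSpectrum (𝓞 K))) : Type _ :=
  ClassGroup (𝓞 K) ⧸ Capit.sClasses (primeSet S)

lemma count_coe_eq_zero_of_not_le (v : HeightOneSpectrum (𝓞 K)) {J : Ideal (𝓞 K)} (hJ : J ≠ 0)
    (h : ¬ J ≤ v.asIdeal) : FractionalIdeal.count K v (J : FractionalIdeal (𝓞 K)⁰ K) = 0 := by
  classical
  rw [FractionalIdeal.count_coe K v hJ, Nat.cast_eq_zero]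
  by_contra hne
  exact h (Ideal.le_of_dvd ((Associates.count_ne_zero_iff_dvd hJ v.irreducible).1 hne))

lemma count_eq_zero_of_supportedOn {S : Finset (HeightOneSpectrum (𝓞 K))} {J : Ideal (𝓞 K)}
    (hJ : J ≠ 0) (hS : Capit.SupportedOn (primeSet S) J) {v : HeightOneSpectrum (𝓞 K)}
    (hv : v ∉ S) : FractionalIdeal.count K v (J : FractionalIdeal (𝓞 K)⁰ K) = 0 :=
  count_coe_eq_zero_of_not_le v hJ (fun hle => hv (asIdeal_mem_primeSet.1 (hS _ v.isPrime hle)))

/-- principal fractional ideals are trivial in the class group -/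
lemma mk_toPrincipalIdeal (y : Kˣ) : ClassGroup.mk K (toPrincipalIdeal (𝓞 K) K y) = 1 := by
  rw [ClassGroup.mk_eq_one_iff, coe_toPrincipalIdeal, FractionalIdeal.coe_spanSingleton]
  exact ⟨⟨(y : K), rfl⟩⟩

/-- a fractional ideal whose counts vanish away from `S` has its class in `sClasses` -/
theorem mk_mem_sClasses_of_count_eq_zero (S : Finset (HeightOneSpectrum (𝓞 K)))
    (I : (FractionalIdeal (𝓞 K)⁰ K)ˣ)
    (h : ∀ v : HeightOneSpectrum (𝓞 K), v ∉ S →
      FractionalIdeal.count K v (I : FractionalIdeal (𝓞 K)⁰ K) = 0) :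
    ClassGroup.mk K I ∈ Capit.sClasses (primeSet S) := by
  classical
  set n : HeightOneSpectrum (𝓞 K) → ℤ := fun v =>
    FractionalIdeal.count K v (I : FractionalIdeal (𝓞 K)⁰ K) with hn
  have hI : (I : FractionalIdeal (𝓞 K)⁰ K) ≠ 0 := I.ne_zero
  have hfact := FractionalIdeal.finprod_heightOneSpectrum_factorization' (K := K) hI
  have hfin : ∏ v ∈ S, ((v.asIdeal : FractionalIdeal (𝓞 K)⁰ K)) ^ (n v) =
      (I : FractionalIdeal (𝓞 K)⁰ K) := by
    rw [← hfact]
    symm
    apply finprod_eq_prod_of_mulSupport_subset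
    intro v hv
    by_contra hvS
    apply hv
    show ((v.asIdeal : FractionalIdeal (𝓞 K)⁰ K)) ^ (n v) = 1
    rw [hn]
    simp only
    rw [h v (by simpa using hvS), zpow_zero]
  let u : HeightOneSpectrum (𝓞 K) → (FractionalIdeal (𝓞 K)⁰ K)ˣ := fun v =>
    FractionalIdeal.mk0 K ⟨v.asIdeal, mem_nonZeroDivisors_of_ne_zero v.ne_bot⟩
  have hu : ∏ v ∈ S, (u v) ^ (n v) = I := by
    apply Units.ext
    rw [← hfin, Units.coe_prod]
    apply Finset.prod_congr rfl
    intro v _
    rw [Units.val_zpow_eq_zpow_val]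
    rfl
  rw [← hu, map_prod]
  refine Subgroup.prod_mem _ (fun v hv => ?_)
  rw [map_zpow, ClassGroup.mk_mk0]
  refine Subgroup.zpow_mem _ (Subgroup.subset_closure ?_) _
  exact ⟨⟨v.asIdeal, mem_nonZeroDivisors_of_ne_zero v.ne_bot⟩, v.isPrime,
    asIdeal_mem_primeSet.2 hv, rfl⟩

/-- (F1) The class of `I` is an `S`-class iff `I` is principal away from `S`. -/
theorem mk_mem_sClasses_iff (S : Finset (HeightOneSpectrum (𝓞 K)))
    (I : (FractionalIdeal (𝓞 K)⁰ K)ˣ) :
    ClassGroup.mk K I ∈ Capit.sClasses (primeSet S) ↔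
      ∃ y : Kˣ, ∀ v : HeightOneSpectrum (𝓞 K), v ∉ S →
        Multiplicative.toAdd (Bridge.ord v y) =
          FractionalIdeal.count K v (I : FractionalIdeal (𝓞 K)⁰ K) := by
  classical
  constructor
  · intro h
    obtain ⟨J, hJ, e⟩ := (Capit.mem_sClasses_iff _ _).1 h
    rw [← ClassGroup.mk_mk0 K J] at e
    have h1 : ClassGroup.mk K (I * (FractionalIdeal.mk0 K J)⁻¹) = 1 := by
      rw [map_mul, map_inv, e, mul_inv_cancel]
    rw [ClassGroup.mk_eq_one_iff] at h1
    obtain ⟨x, hx⟩ := h1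
    have hJ0 : ((J : Ideal (𝓞 K)) : FractionalIdeal (𝓞 K)⁰ K) ≠ 0 :=
      FractionalIdeal.coeIdeal_ne_zero.2 (mem_nonZeroDivisors_iff_ne_zero.1 J.2)
    have hx' : (I : FractionalIdeal (𝓞 K)⁰ K) *
        (((J : Ideal (𝓞 K)) : FractionalIdeal (𝓞 K)⁰ K))⁻¹ =
        FractionalIdeal.spanSingleton (𝓞 K)⁰ x := by
      apply FractionalIdeal.coeToSubmodule_injective
      change (((I : FractionalIdeal (𝓞 K)⁰ K) *
        (((J : Ideal (𝓞 K)) : FractionalIdeal (𝓞 K)⁰ K))⁻¹ : FractionalIdeal (𝓞 K)⁰ K) :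
          Submodule (𝓞 K) K) = (FractionalIdeal.spanSingleton (𝓞 K)⁰ x :
            FractionalIdeal (𝓞 K)⁰ K)
      rw [FractionalIdeal.coe_spanSingleton]
      simpa using hx
    have hx0 : x ≠ 0 := by
      rintro rfl
      rw [FractionalIdeal.spanSingleton_zero] at hx'
      exact mul_ne_zero I.ne_zero (inv_ne_zero hJ0) hx'
    refine ⟨Units.mk0 x hx0, fun v hv => ?_⟩
    rw [← Asm.count_spanSingleton_eq_ord, Units.val_mk0, ← hx',
      FractionalIdeal.count_mul K v I.ne_zero (inv_ne_zero hJ0), FractionalIdeal.count_inv,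
      count_eq_zero_of_supportedOn (mem_nonZeroDivisors_iff_ne_zero.1 J.2) hJ hv]
    ring
  · rintro ⟨y, hy⟩
    have h1 : ClassGroup.mk K (I * (toPrincipalIdeal (𝓞 K) K y)⁻¹) ∈
        Capit.sClasses (primeSet S) := by
      apply mk_mem_sClasses_of_count_eq_zero
      intro v hv
      have hy0 : FractionalIdeal.spanSingleton (𝓞 K)⁰ (y : K) ≠ 0 := by
        rw [Ne, FractionalIdeal.spanSingleton_eq_zero_iff]; exact y.ne_zero
      rw [Units.val_mul, Units.val_inv_eq_inv_val, coe_toPrincipalIdeal,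
        FractionalIdeal.count_mul K v I.ne_zero (inv_ne_zero hy0), FractionalIdeal.count_inv,
        Asm.count_spanSingleton_eq_ord, hy v hv]
      ring
    rwa [map_mul, map_inv, mk_toPrincipalIdeal, inv_one, mul_one] at h1

end Fermat.Agent.GC.Kummer
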