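/-
GATE-C / C4 Kummer-index stream (helper51).  (G7-unram) COUNT part, in `Kˣ`-language.

`K ∋ μ_p`, `p` odd, `S` a finite set of primes.
* `divOff p S` (`W_S`): `x ∈ Kˣ` with `p ∣ ord_v x` for all `v ∉ S`   (`= H¹(G_{K,S}, μ_p)` lifted);
* `kummerSel p S` (`V_S = W_S ⊓ 𝒦_S`): moreover local `p`-th power at all `v ∈ S` (`= Sha¹(μ_p)`);
* `sClassHom p S : W_S →* Cl_S`, `x ↦ [∏_{v ∉ S} v^(ord_v x / p)]`, kernel `Kˣᵖ · U_S`,
  range `Cl_S[p]`;
* (E1a) `relIndex_pow_sup_unit_divOff : [W_S : Kˣᵖ · U_S] = #Cl_S[p]`;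
* (E1b) `relIndex_pow_divOff : [W_S : Kˣᵖ] = p^(|S| + r₂) · #Cl_S[p]`;
* (E3) `card_clS_torsion_le_relIndex_kummerSel` : COUNT + ISOTROPY ⟹ `#Cl_S[p] ≤ [V_S : Kˣᵖ]`
  (existence of enough unramified `S`-split extensions of exponent `p`);
* `card_ker_powMonoidHom_eq_index_range` : `#A[n] = #(A/Aⁿ)` for finite abelian `A`.
-/
import Fermat.Agent.GC.Kummer.SClass
import Fermat.Agent.GC.Kummer.Isotropy

set_option autoImplicit false

open NumberField IsDedekindDomain nonZeroDivisors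

namespace Fermat.Agent.GC.Kummer

open Fermat.Agent.S14 Fermat.Agent.S14.SI

variable {K : Type*} [Field K] [NumberField K]

/-- `W_S`: the elements of `Kˣ` whose divisor is a `p`-th power away from `S`. -/
def divOff (p : ℕ) (S : Finset (HeightOneSpectrum (𝓞 K))) : Subgroup Kˣ where
  carrier := {x | ∀ v : HeightOneSpectrum (𝓞 K), v ∉ S →
    (p : ℤ) ∣ Multiplicative.toAdd (Bridge.ord v x)}
  one_mem' := by
    intro v _
    simp
  mul_mem' := by
    intro x y hx hy v hv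
    rw [map_mul, toAdd_mul]
    exact dvd_add (hx v hv) (hy v hv)
  inv_mem' := by
    intro x hx v hv
    rw [map_inv, toAdd_inv]
    exact (dvd_neg).2 (hx v hv)

lemma mem_divOff {p : ℕ} {S : Finset (HeightOneSpectrum (𝓞 K))} {x : Kˣ} :
    x ∈ divOff p S ↔ ∀ v : HeightOneSpectrum (𝓞 K), v ∉ S →
      (p : ℤ) ∣ Multiplicative.toAdd (Bridge.ord v x) := Iff.rfl

lemma pow_mem_divOff (p : ℕ) (S : Finset (HeightOneSpectrum (𝓞 K))) (y : Kˣ) :
    y ^ p ∈ divOff p S := by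
  intro v _
  rw [map_pow, toAdd_pow]
  exact ⟨Multiplicative.toAdd (Bridge.ord v y), by simp⟩

lemma unit_le_divOff (p : ℕ) (S : Finset (HeightOneSpectrum (𝓞 K))) :
    (S : Set (HeightOneSpectrum (𝓞 K))).unit K ≤ divOff p S := by
  intro x hx v hv
  rw [(mem_unit_iff_toAdd _ x).1 hx v (by simpa using hv)]
  exact dvd_zero _

lemma ordv_eq_toAdd_ord (v : HeightOneSpectrum (𝓞 K)) (x : Kˣ) :
    FT.ordv v x = Multiplicative.toAdd (Bridge.ord v x) := by
  rw [FT.ordv_eq_count, Asm.count_spanSingleton_eq_ord]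

/-- the divisor of `x` away from `S`, divided by `p` -/
noncomputable def offDiv (p : ℕ) (S : Finset (HeightOneSpectrum (𝓞 K))) (x : Kˣ) :
    HeightOneSpectrum (𝓞 K) →₀ ℤ := by
  classical
  exact ((FT.dvFun x).filter (· ∉ S)).mapRange (fun n : ℤ => n / (p : ℤ)) (by simp)

lemma offDiv_of_mem {p : ℕ} {S : Finset (HeightOneSpectrum (𝓞 K))} (x : Kˣ)
    {v : HeightOneSpectrum (𝓞 K)} (hv : v ∈ S) : offDiv p S x v = 0 := by
  classical
  rw [offDiv, Finsupp.mapRange_apply, Finsupp.filter_apply]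
  simp [hv]

lemma offDiv_of_notMem {p : ℕ} {S : Finset (HeightOneSpectrum (𝓞 K))} (x : Kˣ)
    {v : HeightOneSpectrum (𝓞 K)} (hv : v ∉ S) :
    offDiv p S x v = Multiplicative.toAdd (Bridge.ord v x) / (p : ℤ) := by
  classical
  rw [offDiv, Finsupp.mapRange_apply, Finsupp.filter_apply]
  simp [hv, ordv_eq_toAdd_ord]

lemma offDiv_mul {p : ℕ} {S : Finset (HeightOneSpectrum (𝓞 K))} {x y : Kˣ}
    (hx : x ∈ divOff p S) : offDiv p S (x * y) = offDiv p S x + offDiv p S y := by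
  classical
  ext v
  rw [Finsupp.add_apply]
  by_cases hv : v ∈ S
  · rw [offDiv_of_mem _ hv, offDiv_of_mem _ hv, offDiv_of_mem _ hv, add_zero]
  · rw [offDiv_of_notMem _ hv, offDiv_of_notMem _ hv, offDiv_of_notMem _ hv, map_mul, toAdd_mul]
    exact Int.add_ediv_of_dvd_left (hx v hv)

lemma idealOfDiv_add (f g : HeightOneSpectrum (𝓞 K) →₀ ℤ) :
    FT.idealOfDiv (f + g) = FT.idealOfDiv f * FT.idealOfDiv g := by
  classical
  unfold FT.idealOfDiv
  exact Finsupp.prod_add_index' (fun v => zpow_zero _)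
    (fun v a b => zpow_add₀ (FractionalIdeal.coeIdeal_ne_zero.2 v.ne_bot) a b)

/-- the unit fractional ideal attached to a divisor -/
noncomputable def idealUnitOfDiv (f : HeightOneSpectrum (𝓞 K) →₀ ℤ) :
    (FractionalIdeal (𝓞 K)⁰ K)ˣ :=
  Units.mk0 (FT.idealOfDiv f) (FT.idealOfDiv_ne_zero f)

lemma idealUnitOfDiv_add (f g : HeightOneSpectrum (𝓞 K) →₀ ℤ) :
    idealUnitOfDiv (f + g) = idealUnitOfDiv f * idealUnitOfDiv g := by
  apply Units.ext
  simp [idealUnitOfDiv, idealOfDiv_add]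

lemma count_idealUnitOfDiv (v : HeightOneSpectrum (𝓞 K)) (f : HeightOneSpectrum (𝓞 K) →₀ ℤ) :
    FractionalIdeal.count K v ((idealUnitOfDiv f : (FractionalIdeal (𝓞 K)⁰ K)ˣ) :
      FractionalIdeal (𝓞 K)⁰ K) = f v :=
  FT.count_idealOfDiv v f

/-- the class map `W_S → Cl_S`, `x ↦ [∏_{v ∉ S} v^(ord_v x / p)]` -/
noncomputable def sClassHom (p : ℕ) (S : Finset (HeightOneSpectrum (𝓞 K))) :
    divOff p S →* ClS S :=
  MonoidHom.mk' (fun x => QuotientGroup.mk (ClassGroup.mk K (idealUnitOfDiv (offDiv p S (x : Kˣ)))))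
    (by
      intro x y
      rw [Subgroup.coe_mul, offDiv_mul x.2, idealUnitOfDiv_add, map_mul, QuotientGroup.mk_mul])

lemma sClassHom_apply (p : ℕ) (S : Finset (HeightOneSpectrum (𝓞 K))) (x : divOff p S) :
    sClassHom p S x =
      QuotientGroup.mk (ClassGroup.mk K (idealUnitOfDiv (offDiv p S (x : Kˣ)))) := rfl


/-- kernel of the class map: `Kˣᵖ · U_S` -/
theorem sClassHom_eq_one_iff {p : ℕ} (hp : p ≠ 0) (S : Finset (HeightOneSpectrum (𝓞 K)))
    (x : divOff p S) :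
    sClassHom p S x = 1 ↔
      (x : Kˣ) ∈ (powMonoidHom p : Kˣ →* Kˣ).range ⊔ (S : Set (HeightOneSpectrum (𝓞 K))).unit K := by
  have hp' : (p : ℤ) ≠ 0 := by exact_mod_cast hp
  rw [sClassHom_apply, QuotientGroup.eq_one_iff, mk_mem_sClasses_iff]
  constructor
  · rintro ⟨y, hy⟩
    rw [Subgroup.mem_sup]
    refine ⟨y ^ p, ⟨y, rfl⟩, (x : Kˣ) / y ^ p, ?_, mul_div_cancel _ _⟩
    rw [mem_unit_iff_toAdd]
    intro v hv
    have hv' : v ∉ S := by simpa using hv
    have h1 := hy v hv'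
    rw [count_idealUnitOfDiv, offDiv_of_notMem _ hv'] at h1
    obtain ⟨k, hk⟩ := x.2 v hv'
    rw [hk, Int.mul_ediv_cancel_left _ hp'] at h1
    rw [map_div, map_pow, toAdd_div, toAdd_pow, h1, hk]
    simp
  · intro hx
    rw [Subgroup.mem_sup] at hx
    obtain ⟨_, ⟨z, rfl⟩, u, hu, hzu⟩ := hx
    refine ⟨z, fun v hv => ?_⟩
    have hu0 : Multiplicative.toAdd (Bridge.ord v u) = 0 :=
      (mem_unit_iff_toAdd _ u).1 hu v (by simpa using hv)
    rw [count_idealUnitOfDiv, offDiv_of_notMem _ hv, ← hzu, map_mul, toAdd_mul, hu0, add_zero,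
      powMonoidHom_apply, map_pow, toAdd_pow, nsmul_eq_mul, Int.mul_ediv_cancel_left _ hp']

/-- range of the class map: the `p`-torsion of `Cl_S` -/
theorem sClassHom_range {p : ℕ} (hp : p ≠ 0) (S : Finset (HeightOneSpectrum (𝓞 K))) :
    (sClassHom p S).range = (powMonoidHom p : ClS S →* ClS S).ker := by
  have hp' : (p : ℤ) ≠ 0 := by exact_mod_cast hp
  ext c
  rw [MonoidHom.mem_range, MonoidHom.mem_ker, powMonoidHom_apply]
  constructor
  · rintro ⟨x, rfl⟩
    rw [sClassHom_apply, ← QuotientGroup.mk_pow, ← map_pow, QuotientGroup.eq_one_iff,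
      mk_mem_sClasses_iff]
    refine ⟨x, fun v hv => ?_⟩
    obtain ⟨k, hk⟩ := x.2 v hv
    rw [Units.val_pow_eq_pow_val, FractionalIdeal.count_pow, count_idealUnitOfDiv,
      offDiv_of_notMem _ hv, hk, Int.mul_ediv_cancel_left _ hp']
  · intro hc
    obtain ⟨c', rfl⟩ := QuotientGroup.mk_surjective c
    obtain ⟨J, rfl⟩ := ClassGroup.mk0_surjective c'
    rw [← ClassGroup.mk_mk0 K J] at hc ⊢
    set I : (FractionalIdeal (𝓞 K)⁰ K)ˣ := FractionalIdeal.mk0 K J with hI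
    rw [← QuotientGroup.mk_pow, ← map_pow, QuotientGroup.eq_one_iff, mk_mem_sClasses_iff] at hc
    obtain ⟨y, hy⟩ := hc
    have hy' : ∀ v : HeightOneSpectrum (𝓞 K), v ∉ S → Multiplicative.toAdd (Bridge.ord v y) =
        (p : ℤ) * FractionalIdeal.count K v (I : FractionalIdeal (𝓞 K)⁰ K) := by
      intro v hv
      rw [hy v hv, Units.val_pow_eq_pow_val, FractionalIdeal.count_pow]
    have hyW : y ∈ divOff p S := fun v hv => ⟨_, hy' v hv⟩
    refine ⟨⟨y, hyW⟩, ?_⟩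
    rw [sClassHom_apply, QuotientGroup.eq, ← map_inv, ← map_mul, mk_mem_sClasses_iff]
    refine ⟨1, fun v hv => ?_⟩
    rw [map_one, toAdd_one, Units.val_mul, Units.val_inv_eq_inv_val,
      FractionalIdeal.count_mul K v (inv_ne_zero (Units.ne_zero _)) I.ne_zero,
      FractionalIdeal.count_inv, count_idealUnitOfDiv, offDiv_of_notMem _ hv, hy' v hv,
      Int.mul_ediv_cancel_left _ hp']
    ring

/-- (E1a) `[W_S : Kˣᵖ · U_S] = #Cl_S[p]`. -/
theorem relIndex_pow_sup_unit_divOff {p : ℕ} (hp : p ≠ 0)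
    (S : Finset (HeightOneSpectrum (𝓞 K))) :
    ((powMonoidHom p : Kˣ →* Kˣ).range ⊔ (S : Set (HeightOneSpectrum (𝓞 K))).unit K).relIndex
        (divOff p S) = Nat.card (powMonoidHom p : ClS S →* ClS S).ker := by
  have hker : ((powMonoidHom p : Kˣ →* Kˣ).range ⊔
      (S : Set (HeightOneSpectrum (𝓞 K))).unit K).subgroupOf (divOff p S) =
        (sClassHom p S).ker := by
    ext x
    rw [Subgroup.mem_subgroupOf, MonoidHom.mem_ker, sClassHom_eq_one_iff hp]
  rw [Subgroup.relIndex, hker, Subgroup.index_ker, sClassHom_range hp]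


/-- (E1b) `[W_S : Kˣᵖ] = p^(|S| + r₂) · #Cl_S[p]`  (`K ∋ μ_p`, `p` odd). -/
theorem relIndex_pow_divOff {p : ℕ} (hp : p.Prime) (hp2 : p ≠ 2) (ζ : K)
    (hζ : IsPrimitiveRoot ζ p) (S : Finset (HeightOneSpectrum (𝓞 K))) :
    (powMonoidHom p : Kˣ →* Kˣ).range.relIndex (divOff p S) =
      p ^ (S.card + InfinitePlace.nrComplexPlaces K) *
        Nat.card (powMonoidHom p : ClS S →* ClS S).ker := by
  set P : Subgroup Kˣ := (powMonoidHom p : Kˣ →* Kˣ).range with hP
  set U : Subgroup Kˣ := (S : Set (HeightOneSpectrum (𝓞 K))).unit K with hU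
  have hPW : P ≤ divOff p S := by
    rintro _ ⟨y, rfl⟩
    exact pow_mem_divOff p S y
  have h1 : P ≤ P ⊔ U := le_sup_left
  have h2 : P ⊔ U ≤ divOff p S := sup_le hPW (unit_le_divOff p S)
  have h3 := Subgroup.relIndex_mul_relIndex P (P ⊔ U) (divOff p S) h1 h2
  have h4 : P.relIndex (P ⊔ U) = p ^ (S.card + InfinitePlace.nrComplexPlaces K) := by
    rw [Subgroup.relIndex_sup_left]
    refine Asm.relIndex_of_key hp hp2 ζ hζ S P (fun y => ⟨y, rfl⟩) ?_
    rintro _ _ ⟨y, rfl⟩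
    exact ⟨y, rfl⟩
  rw [← h3, h4, relIndex_pow_sup_unit_divOff hp.ne_zero]

/-- `V_S`: the `p`-Selmer group of `K` relative to `S` (in `Kˣ`): divisor a `p`-th power away from
`S`, local `p`-th power at the places of `S`. -/
noncomputable def kummerSel (p : ℕ) (S : Finset (HeightOneSpectrum (𝓞 K))) : Subgroup Kˣ :=
  divOff p S ⊓ locPow p S

lemma pow_le_kummerSel (p : ℕ) (S : Finset (HeightOneSpectrum (𝓞 K))) :
    (powMonoidHom p : Kˣ →* Kˣ).range ≤ kummerSel p S := by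
  rintro _ ⟨y, rfl⟩
  exact ⟨pow_mem_divOff p S y, pow_mem_locPow p S y⟩

/-- for a finite abelian group, `#A[n] = #(A / Aⁿ)` -/
theorem card_ker_powMonoidHom_eq_index_range (A : Type*) [CommGroup A] [Finite A] (n : ℕ) :
    Nat.card (powMonoidHom n : A →* A).ker = (powMonoidHom n : A →* A).range.index := by
  have h1 := Subgroup.card_mul_index (powMonoidHom n : A →* A).ker
  have h2 := Subgroup.card_mul_index (powMonoidHom n : A →* A).range
  rw [Subgroup.index_ker] at h1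
  rw [← h2, mul_comm] at h1
  exact Nat.eq_of_mul_eq_mul_left Nat.card_pos h1

/-- (E3) COUNT + ISOTROPY.  `K ∋ μ_p`, `p` odd, `S ⊇ {v ∣ p}`.  Given a bimultiplicative pairing
`β` on `Kˣ` with values in a finite cyclic group (the weighted product over `v ∈ S` of the local
Hilbert pairings) such that for `a ∈ W_S`:
* `β a · = 1` on `𝒦_S = locPow p S` (local `p`-th powers pair trivially),
* `β a b = 1` for `b ∈ W_S` (product formula: ISOTROPY),
* `β a · = 1` implies `a ∈ 𝒦_S` (nondegeneracy of the local pairings + weak approximation),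
the Selmer group `V_S / Kˣᵖ` has at least `#Cl_S[p]` elements. -/
theorem card_clS_torsion_le_relIndex_kummerSel {p : ℕ} (hp : p.Prime) (hp2 : p ≠ 2) (ζ : K)
    (hζ : IsPrimitiveRoot ζ p) (S : Finset (HeightOneSpectrum (𝓞 K)))
    (hSp : ∀ v : HeightOneSpectrum (𝓞 K), (p : 𝓞 K) ∈ v.asIdeal → v ∈ S)
    {C : Type*} [CommGroup C] [Finite C] [IsCyclic C] (β : Kˣ →* Kˣ →* C)
    (hker : ∀ a ∈ divOff p S, (∀ b, β a b = 1) → a ∈ locPow p S)
    (hiso : ∀ a ∈ divOff p S, ∀ b ∈ divOff p S, β a b = 1)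
    (hloc : ∀ a ∈ divOff p S, ∀ b ∈ locPow p S, β a b = 1) :
    Nat.card (powMonoidHom p : ClS S →* ClS S).ker ≤
      (powMonoidHom p : Kˣ →* Kˣ).range.relIndex (kummerSel p S) := by
  set P : Subgroup Kˣ := (powMonoidHom p : Kˣ →* Kˣ).range with hP
  set m : ℕ := S.card + InfinitePlace.nrComplexPlaces K with hm
  have hidx : (locPow p S).index = p ^ (2 * m) := by
    rw [index_locPow hp hp2 ζ hζ S hSp, hm]; ring_nf
  have hL0 : (locPow p S).index ≠ 0 := by
    rw [hidx]; exact pow_ne_zero _ hp.ne_zero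
  have hsq := relIndex_sq_le_index_of_isotropic (locPow p S) (divOff p S) hL0 β hker hiso hloc
  have hle : (locPow p S).relIndex (divOff p S) ≤ p ^ m := by
    rw [hidx, pow_mul'] at hsq
    exact (Nat.pow_le_pow_iff_left two_ne_zero).1 hsq
  have h1 := Subgroup.relIndex_mul_relIndex P (kummerSel p S) (divOff p S)
    (pow_le_kummerSel p S) inf_le_left
  have h2 : (kummerSel p S).relIndex (divOff p S) = (locPow p S).relIndex (divOff p S) :=
    Subgroup.inf_relIndex_left _ _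
  rw [relIndex_pow_divOff hp hp2 ζ hζ S, h2] at h1
  have hpos : 0 < p ^ m := pow_pos hp.pos _
  have h3 : p ^ m * Nat.card (powMonoidHom p : ClS S →* ClS S).ker ≤
      p ^ m * P.relIndex (kummerSel p S) := by
    rw [← h1, mul_comm (p ^ m)]
    exact Nat.mul_le_mul_left _ hle
  exact Nat.le_of_mul_le_mul_left h3 hpos

end Fermat.Agent.GC.Kummer
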