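/-
GATE-C / C4 Kummer-index stream (helper51).  (XF-core): `H¹(Gal(N/K), U_{S_N}(N)) ↪ Cl_S(K)`.

`K ⊆ N` finite Galois number fields, `S` a finite set of primes of `K`, `N/K` unramified outside `S`
(`UnramOutside K N S`, implied by the Kummer engine's `hunr` verbatim: `unramOutside_of_hunr`),
`S_N := aboveSet N S`, `U_{S_N} := (aboveSet N S).unit N`.
* `invDivSub K S` (`𝒳`): `x ∈ Nˣ` with `σx/x ∈ U_{S_N}` for all `σ`; `descDiv S x` the descended
  divisor of `K` (off `S`); `descHom N S : 𝒳 →* ClS S`;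
  `descHom_eq_one_iff : descHom N S x = 1 ↔ x ∈ Kˣ · U_{S_N}`;
* `Z1S K N S`, `B1S K N S` : multiplicative 1-cocycles `Gal(N/K) → Nˣ` valued in `U_{S_N}`, and the
  coboundaries of elements of `U_{S_N}`; `cocClass hu : Z1S →* ClS S` with
  `cocClass_eq_one_iff : cocClass hu c = 1 ↔ c ∈ B1S` (Hilbert 90 + descent of invariant divisors);
* `relIndex_B1S_le_card_clS : [Z¹ : B¹] ≠ 0 ∧ [Z¹ : B¹] ≤ #Cl_S(K)`.
-/
import Fermat.Agent.GC.Kummer.Sel
import Fermat.Agent.S14.SI.FT.Ram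
import Fermat.Agent.S14.SI.FT.GalAct

set_option autoImplicit false
set_option linter.unusedSectionVars false

open NumberField IsDedekindDomain nonZeroDivisors

namespace Fermat.Agent.GC.Kummer

open Fermat.Agent.S14 Fermat.Agent.S14.SI

variable {K N : Type*} [Field K] [NumberField K] [Field N] [NumberField N] [Algebra K N]

/-- the primes of `N` above a set of primes of `K` -/
def aboveSet (N : Type*) [Field N] [NumberField N] [Algebra K N]
    (S : Finset (HeightOneSpectrum (𝓞 K))) : Set (HeightOneSpectrum (𝓞 N)) :=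
  {P | P.under (𝓞 K) ∈ S}

lemma mem_aboveSet {S : Finset (HeightOneSpectrum (𝓞 K))} {P : HeightOneSpectrum (𝓞 N)} :
    P ∈ aboveSet N S ↔ P.under (𝓞 K) ∈ S := Iff.rfl

/-- membership in the `S_N`-units via `FT.ordv` -/
lemma mem_unit_aboveSet_iff (S : Finset (HeightOneSpectrum (𝓞 K))) (x : Nˣ) :
    x ∈ (aboveSet N S).unit N ↔
      ∀ P : HeightOneSpectrum (𝓞 N), P.under (𝓞 K) ∉ S → FT.ordv P x = 0 := by
  rw [mem_unit_iff_toAdd]
  refine forall₂_congr (fun P _ => ?_)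
  rw [ordv_eq_toAdd_ord]

/-- the action of `τ` on `Nˣ` -/
noncomputable abbrev galU (τ : N ≃ₐ[K] N) : Nˣ →* Nˣ := Units.map ((τ : N →ₐ[K] N) : N →* N)

/-- `𝒳`: the elements of `Nˣ` whose divisor is Galois-invariant away from `S_N`. -/
def invDivSub (K : Type*) [Field K] [NumberField K] [Algebra K N]
    (S : Finset (HeightOneSpectrum (𝓞 K))) : Subgroup Nˣ where
  carrier := {x | ∀ τ : N ≃ₐ[K] N, galU τ x / x ∈ (aboveSet N S).unit N}
  one_mem' := by
    intro τ
    simp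
  mul_mem' := by
    intro x y hx hy τ
    have : galU τ (x * y) / (x * y) = (galU τ x / x) * (galU τ y / y) := by
      rw [map_mul, mul_div_mul_comm]
    rw [this]
    exact mul_mem (hx τ) (hy τ)
  inv_mem' := by
    intro x hx τ
    have : galU τ x⁻¹ / x⁻¹ = (galU τ x / x)⁻¹ := by
      rw [map_inv, inv_div_inv, inv_div]
    rw [this]
    exact inv_mem (hx τ)

/-- Invariance: for `x ∈ 𝒳`, the order of `x` at a prime `P` off `S_N` depends only on the prime of
`K` below `P`. -/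
lemma ordv_eq_of_under_eq [IsGalois K N] {S : Finset (HeightOneSpectrum (𝓞 K))} {x : Nˣ}
    (hx : x ∈ invDivSub K S) {P Q : HeightOneSpectrum (𝓞 N)}
    (hPQ : P.under (𝓞 K) = Q.under (𝓞 K)) (hQ : Q.under (𝓞 K) ∉ S) :
    FT.ordv P x = FT.ordv Q x := by
  obtain ⟨τ, rfl⟩ := FT.exists_smulH_eq (K := K) P Q hPQ
  have h1 := FT.ordv_smulH τ P x
  have h2 : FT.ordv (FT.smulH τ P) (galU τ x / x) = 0 :=
    (mem_unit_aboveSet_iff S _).1 (hx τ) _ hQ
  have h3 : galU τ x = (galU τ x / x) * x := by rw [div_mul_cancel]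
  have h4 : FT.ordv (FT.smulH τ P) (galU τ x) =
      FT.ordv (FT.smulH τ P) (galU τ x / x) + FT.ordv (FT.smulH τ P) x := by
    conv_lhs => rw [h3]
    exact FT.ordv_mul _ _ _
  rw [h2, zero_add] at h4
  rw [← h1]
  exact h4


/-- a chosen prime of `N` above `v` -/
noncomputable def primeAbove (N : Type*) [Field N] [NumberField N] [Algebra K N]
    (v : HeightOneSpectrum (𝓞 K)) : HeightOneSpectrum (𝓞 N) :=
  (FT.exists_under_eq (N := N) v).choose

lemma under_primeAbove (v : HeightOneSpectrum (𝓞 K)) : (primeAbove N v).under (𝓞 K) = v :=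
  (FT.exists_under_eq (N := N) v).choose_spec

/-- the descended divisor of `x ∈ 𝒳` (a divisor of `K` supported off `S`) -/
noncomputable def descDiv (S : Finset (HeightOneSpectrum (𝓞 K))) (x : Nˣ) :
    HeightOneSpectrum (𝓞 K) →₀ ℤ := by
  classical
  exact Finsupp.ofSupportFinite
    (fun v => if v ∈ S then 0 else FT.ordv (primeAbove N v) x)
    (by
      have hfin := (FT.finite_ordv_ne_zero x).image (fun P : HeightOneSpectrum (𝓞 N) => P.under (𝓞 K))
      refine hfin.subset ?_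
      intro v hv
      rw [Function.mem_support] at hv
      refine ⟨primeAbove N v, ?_, under_primeAbove v⟩
      by_cases hvS : v ∈ S
      · simp [hvS] at hv
      · simpa [hvS] using hv)

lemma descDiv_of_mem {S : Finset (HeightOneSpectrum (𝓞 K))} (x : Nˣ)
    {v : HeightOneSpectrum (𝓞 K)} (hv : v ∈ S) : descDiv S x v = 0 := by
  classical
  simp [descDiv, Finsupp.ofSupportFinite_coe, hv]

lemma descDiv_of_notMem {S : Finset (HeightOneSpectrum (𝓞 K))} (x : Nˣ)
    {v : HeightOneSpectrum (𝓞 K)} (hv : v ∉ S) :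
    descDiv S x v = FT.ordv (primeAbove N v) x := by
  classical
  simp [descDiv, Finsupp.ofSupportFinite_coe, hv]

/-- for `x ∈ 𝒳` the divisor of `x` off `S_N` is the pullback of `descDiv S x` -/
lemma ordv_eq_descDiv [IsGalois K N] {S : Finset (HeightOneSpectrum (𝓞 K))} {x : Nˣ}
    (hx : x ∈ invDivSub K S) (P : HeightOneSpectrum (𝓞 N)) (hP : P.under (𝓞 K) ∉ S) :
    FT.ordv P x = descDiv S x (P.under (𝓞 K)) := by
  rw [descDiv_of_notMem x hP]
  refine ordv_eq_of_under_eq hx ?_ ?_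
  · rw [under_primeAbove]
  · rwa [under_primeAbove]

lemma descDiv_mul (S : Finset (HeightOneSpectrum (𝓞 K))) (x y : Nˣ) :
    descDiv S (x * y) = descDiv S x + descDiv S y := by
  ext v
  rw [Finsupp.add_apply]
  by_cases hv : v ∈ S
  · rw [descDiv_of_mem _ hv, descDiv_of_mem _ hv, descDiv_of_mem _ hv, add_zero]
  · rw [descDiv_of_notMem _ hv, descDiv_of_notMem _ hv, descDiv_of_notMem _ hv, FT.ordv_mul]

/-- the class map `𝒳 → Cl_S(K)` -/
noncomputable def descHom (N : Type*) [Field N] [NumberField N] [Algebra K N]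
    (S : Finset (HeightOneSpectrum (𝓞 K))) : invDivSub (N := N) K S →* ClS S :=
  MonoidHom.mk' (fun x => QuotientGroup.mk (ClassGroup.mk K (idealUnitOfDiv (descDiv S (x : Nˣ)))))
    (by
      intro x y
      rw [Subgroup.coe_mul, descDiv_mul, idealUnitOfDiv_add, map_mul, QuotientGroup.mk_mul])

lemma descHom_apply (S : Finset (HeightOneSpectrum (𝓞 K))) (x : invDivSub (N := N) K S) :
    descHom N S x = QuotientGroup.mk (ClassGroup.mk K (idealUnitOfDiv (descDiv S (x : Nˣ)))) :=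
  rfl


/-- `N/K` is unramified outside `S` (T14 inertia form, stated on `HeightOneSpectrum`). -/
def UnramOutside (K N : Type*) [Field K] [NumberField K] [Field N] [NumberField N] [Algebra K N]
    (S : Finset (HeightOneSpectrum (𝓞 K))) : Prop :=
  ∀ P : HeightOneSpectrum (𝓞 N), P.under (𝓞 K) ∉ S → ∀ τ : N ≃ₐ[K] N,
    (∀ z : 𝓞 N, τ • z - z ∈ P.asIdeal) → τ = 1

/-- the engine's `hunr` (verbatim) gives `UnramOutside` -/
lemma unramOutside_of_hunr (S : Finset (HeightOneSpectrum (𝓞 K)))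
    (hunr : ∀ P : Ideal (𝓞 N), P.IsPrime → P ≠ ⊥ → (∀ v ∈ S, P.under (𝓞 K) ≠ v.asIdeal) →
      ∀ τ : N ≃ₐ[K] N, (∀ z : 𝓞 N, τ • z - z ∈ P) → τ = 1) : UnramOutside K N S := by
  intro P hP τ hτ
  refine hunr P.asIdeal P.isPrime P.ne_bot ?_ τ hτ
  intro v hv h
  apply hP
  have : P.under (𝓞 K) = v := HeightOneSpectrum.ext h
  rwa [this]

/-- the inclusion `Kˣ → Nˣ` -/
noncomputable abbrev inclU (K N : Type*) [Field K] [Field N] [Algebra K N] : Kˣ →* Nˣ :=
  Units.map (algebraMap K N : K →* N)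

lemma ordv_inclU_of_unram [IsGalois K N] {S : Finset (HeightOneSpectrum (𝓞 K))}
    (hu : UnramOutside K N S) (P : HeightOneSpectrum (𝓞 N)) (hP : P.under (𝓞 K) ∉ S) (a : Kˣ) :
    FT.ordv P (inclU K N a) = FT.ordv (P.under (𝓞 K)) a := by
  have h1 := FT.ordv_incl (K := K) P (Additive.ofMul a)
  have h2 : FT.eH K P = 1 := FT.eH_eq_one_of_unramified P (hu P hP)
  rw [h2] at h1
  have h3 : (FT.incl K N (Additive.ofMul a)).toMul = inclU K N a := rfl
  rw [h3] at h1
  simpa using h1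

lemma galU_inclU (τ : N ≃ₐ[K] N) (a : Kˣ) : galU τ (inclU K N a) = inclU K N a := by
  apply Units.ext
  simp [galU, inclU]

lemma inclU_mem_invDivSub (S : Finset (HeightOneSpectrum (𝓞 K))) (a : Kˣ) :
    inclU K N a ∈ invDivSub (N := N) K S := by
  intro τ
  rw [galU_inclU, div_self']
  exact one_mem _

lemma unit_le_invDivSub (S : Finset (HeightOneSpectrum (𝓞 K))) :
    (aboveSet N S).unit N ≤ invDivSub (N := N) K S := by
  intro u hu τ
  refine div_mem ?_ hu
  rw [mem_unit_aboveSet_iff] at hu ⊢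
  intro P hP
  have h1 := FT.ordv_smulH (K := K) τ (FT.smulH τ⁻¹ P) u
  rw [← FT.smulH_mul, mul_inv_cancel, FT.smulH_one] at h1
  rw [h1]
  refine hu _ ?_
  rwa [FT.under_smulH]

/-- the kernel of the class map: `Kˣ · U_{S_N}` -/
theorem descHom_eq_one_iff [IsGalois K N] {S : Finset (HeightOneSpectrum (𝓞 K))}
    (hu : UnramOutside K N S) (x : invDivSub (N := N) K S) :
    descHom N S x = 1 ↔ (x : Nˣ) ∈ (inclU K N).range ⊔ (aboveSet N S).unit N := by
  rw [descHom_apply, QuotientGroup.eq_one_iff, mk_mem_sClasses_iff]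
  constructor
  · rintro ⟨a, ha⟩
    rw [Subgroup.mem_sup]
    refine ⟨inclU K N a, ⟨a, rfl⟩, (x : Nˣ) / inclU K N a, ?_, mul_div_cancel _ _⟩
    rw [mem_unit_aboveSet_iff]
    intro P hP
    have h1 := ha _ hP
    rw [count_idealUnitOfDiv, ← ordv_eq_toAdd_ord, ← ordv_eq_descDiv x.2 P hP] at h1
    have h2 : FT.ordv P ((x : Nˣ) / inclU K N a) = FT.ordv P (x : Nˣ) - FT.ordv P (inclU K N a) := by
      rw [div_eq_mul_inv, FT.ordv_mul, FT.ordv_inv]; ring
    rw [h2, ordv_inclU_of_unram hu P hP, h1, sub_self]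
  · intro hx
    rw [Subgroup.mem_sup] at hx
    obtain ⟨_, ⟨a, rfl⟩, u, hu', hau⟩ := hx
    refine ⟨a, fun v hv => ?_⟩
    rw [count_idealUnitOfDiv, ← ordv_eq_toAdd_ord]
    have hP : (primeAbove N v).under (𝓞 K) ∉ S := by rwa [under_primeAbove]
    have h1 := ordv_eq_descDiv x.2 (primeAbove N v) hP
    rw [under_primeAbove] at h1
    rw [← h1, ← hau, FT.ordv_mul, (mem_unit_aboveSet_iff S u).1 hu' _ hP, add_zero,
      ordv_inclU_of_unram hu _ hP, under_primeAbove]


/-- Galois-fixed units come from `K` -/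
lemma exists_inclU_eq_of_fixed [IsGalois K N] (z : Nˣ) (hz : ∀ τ : N ≃ₐ[K] N, galU τ z = z) :
    ∃ a : Kˣ, inclU K N a = z := by
  have hmem : (z : N) ∈ (⊥ : IntermediateField K N) := by
    rw [← IsGalois.fixedField_top (F := K) (E := N), IntermediateField.mem_fixedField_iff]
    intro τ _
    have := congrArg (fun u : Nˣ => (u : N)) (hz τ)
    simpa [galU] using this
  obtain ⟨y, hy⟩ := IntermediateField.mem_bot.mp hmem
  have hy0 : y ≠ 0 := by
    rintro rfl
    rw [map_zero] at hy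
    exact z.ne_zero hy.symm
  refine ⟨Units.mk0 y hy0, ?_⟩
  apply Units.ext
  simpa [inclU] using hy

/-- the class of `x ∈ 𝒳` only depends on the coboundary `σ ↦ σx/x` -/
lemma descHom_eq_of_coboundary_eq [IsGalois K N] {S : Finset (HeightOneSpectrum (𝓞 K))}
    (hu : UnramOutside K N S) (x y : invDivSub (N := N) K S)
    (h : ∀ τ : N ≃ₐ[K] N, galU τ (x : Nˣ) / x = galU τ (y : Nˣ) / y) :
    descHom N S x = descHom N S y := by
  have hz : ∀ τ : N ≃ₐ[K] N, galU τ ((x : Nˣ) / (y : Nˣ)) = (x : Nˣ) / (y : Nˣ) := by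
    intro τ
    have h1 := h τ
    rw [map_div]
    rw [div_eq_div_iff_mul_eq_mul] at h1 ⊢
    rw [h1, mul_comm]
  obtain ⟨a, ha⟩ := exists_inclU_eq_of_fixed ((x : Nˣ) / (y : Nˣ)) hz
  have hxy : x = y * ⟨inclU K N a, inclU_mem_invDivSub S a⟩ := by
    apply Subtype.ext
    change (x : Nˣ) = (y : Nˣ) * inclU K N a
    rw [ha, mul_div_cancel]
  rw [hxy, map_mul]
  have h1 : descHom N S ⟨inclU K N a, inclU_mem_invDivSub S a⟩ = 1 := by
    rw [descHom_eq_one_iff hu]
    exact Subgroup.mem_sup_left ⟨a, rfl⟩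
  rw [h1, mul_one]

/-- `Z¹`: the multiplicative 1-cocycles `Gal(N/K) → Nˣ` with values in the `S_N`-units. -/
def Z1S (K N : Type*) [Field K] [NumberField K] [Field N] [NumberField N] [Algebra K N]
    (S : Finset (HeightOneSpectrum (𝓞 K))) : Subgroup ((N ≃ₐ[K] N) → Nˣ) where
  carrier := {c | (∀ σ τ : N ≃ₐ[K] N, c (σ * τ) = galU σ (c τ) * c σ) ∧
    ∀ σ, c σ ∈ (aboveSet N S).unit N}
  one_mem' := by
    refine ⟨fun σ τ => by simp, fun σ => one_mem _⟩
  mul_mem' := by
    rintro c c' ⟨h1, h2⟩ ⟨h1', h2'⟩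
    refine ⟨fun σ τ => ?_, fun σ => mul_mem (h2 σ) (h2' σ)⟩
    simp only [Pi.mul_apply, h1 σ τ, h1' σ τ, map_mul]
    exact mul_mul_mul_comm _ _ _ _
  inv_mem' := by
    rintro c ⟨h1, h2⟩
    refine ⟨fun σ τ => ?_, fun σ => inv_mem (h2 σ)⟩
    simp only [Pi.inv_apply, h1 σ τ, map_inv, mul_inv]

/-- `B¹`: the coboundaries of `S_N`-units. -/
def B1S (K N : Type*) [Field K] [NumberField K] [Field N] [NumberField N] [Algebra K N]
    (S : Finset (HeightOneSpectrum (𝓞 K))) : Subgroup ((N ≃ₐ[K] N) → Nˣ) where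
  carrier := {c | ∃ u ∈ (aboveSet N S).unit N, ∀ σ : N ≃ₐ[K] N, c σ = galU σ u / u}
  one_mem' := ⟨1, one_mem _, fun σ => by simp⟩
  mul_mem' := by
    rintro c c' ⟨u, hu, h⟩ ⟨u', hu', h'⟩
    refine ⟨u * u', mul_mem hu hu', fun σ => ?_⟩
    simp only [Pi.mul_apply, h σ, h' σ, map_mul]
    exact (mul_div_mul_comm _ _ _ _).symm
  inv_mem' := by
    rintro c ⟨u, hu, h⟩
    refine ⟨u⁻¹, inv_mem hu, fun σ => ?_⟩
    simp only [Pi.inv_apply, h σ, map_inv, inv_div_inv, inv_div]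

lemma galU_mul (σ τ : N ≃ₐ[K] N) (x : Nˣ) : galU (σ * τ) x = galU σ (galU τ x) := by
  apply Units.ext
  rfl

lemma B1S_le_Z1S (S : Finset (HeightOneSpectrum (𝓞 K))) : B1S K N S ≤ Z1S K N S := by
  rintro c ⟨u, hu, h⟩
  refine ⟨fun σ τ => ?_, fun σ => ?_⟩
  · rw [h, h, h, map_div, galU_mul, div_mul_div_cancel]
  · rw [h]
    exact unit_le_invDivSub S hu σ

/-- Hilbert 90 for a cocycle in `Z¹` -/
lemma exists_hilbert90 (S : Finset (HeightOneSpectrum (𝓞 K))) (c : Z1S K N S) :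
    ∃ x : Nˣ, ∀ σ : N ≃ₐ[K] N, galU σ x / x = (c : (N ≃ₐ[K] N) → Nˣ) σ := by
  have hc : groupCohomology.IsMulCocycle₁ (c : (N ≃ₐ[K] N) → Nˣ) := by
    intro σ τ
    rw [c.2.1 σ τ]
    rfl
  obtain ⟨x, hx⟩ := groupCohomology.isMulCoboundary₁_of_isMulCocycle₁_of_aut_to_units _ hc
  exact ⟨x, fun σ => hx σ⟩


/-- a chosen Hilbert-90 solution of a cocycle in `Z¹` -/
noncomputable def hilbSol (S : Finset (HeightOneSpectrum (𝓞 K))) (c : Z1S K N S) : Nˣ :=
  (exists_hilbert90 S c).choose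

lemma hilbSol_spec (S : Finset (HeightOneSpectrum (𝓞 K))) (c : Z1S K N S) (σ : N ≃ₐ[K] N) :
    galU σ (hilbSol S c) / hilbSol S c = (c : (N ≃ₐ[K] N) → Nˣ) σ :=
  (exists_hilbert90 S c).choose_spec σ

lemma hilbSol_mem (S : Finset (HeightOneSpectrum (𝓞 K))) (c : Z1S K N S) :
    hilbSol S c ∈ invDivSub (N := N) K S := by
  intro σ
  rw [hilbSol_spec]
  exact c.2.2 σ

/-- the class map on cocycles `Z¹(Gal(N/K), U_{S_N}) → Cl_S(K)` -/
noncomputable def cocClass [IsGalois K N] {S : Finset (HeightOneSpectrum (𝓞 K))}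
    (hu : UnramOutside K N S) : Z1S K N S →* ClS S :=
  MonoidHom.mk' (fun c => descHom N S ⟨hilbSol S c, hilbSol_mem S c⟩)
    (by
      intro c c'
      rw [← map_mul]
      apply descHom_eq_of_coboundary_eq hu
      intro τ
      change galU τ (hilbSol S (c * c')) / hilbSol S (c * c') =
        galU τ (hilbSol S c * hilbSol S c') / (hilbSol S c * hilbSol S c')
      rw [hilbSol_spec, map_mul, mul_div_mul_comm, hilbSol_spec, hilbSol_spec]
      rfl)

lemma cocClass_apply [IsGalois K N] {S : Finset (HeightOneSpectrum (𝓞 K))}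
    (hu : UnramOutside K N S) (c : Z1S K N S) :
    cocClass hu c = descHom N S ⟨hilbSol S c, hilbSol_mem S c⟩ := rfl

/-- the kernel of the class map on cocycles: the coboundaries of `S_N`-units -/
theorem cocClass_eq_one_iff [IsGalois K N] {S : Finset (HeightOneSpectrum (𝓞 K))}
    (hu : UnramOutside K N S) (c : Z1S K N S) :
    cocClass hu c = 1 ↔ (c : (N ≃ₐ[K] N) → Nˣ) ∈ B1S K N S := by
  rw [cocClass_apply]
  constructor
  · intro h
    rw [descHom_eq_one_iff hu, Subgroup.mem_sup] at h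
    obtain ⟨_, ⟨a, rfl⟩, u, hu', hau⟩ := h
    refine ⟨u, hu', fun σ => ?_⟩
    rw [← hilbSol_spec S c σ]
    have hau' : hilbSol S c = inclU K N a * u := hau.symm
    rw [hau', map_mul, galU_inclU, mul_div_mul_left_eq_div]
  · rintro ⟨u, hu', h⟩
    have huX : u ∈ invDivSub (N := N) K S := unit_le_invDivSub S hu'
    have h1 : descHom N S ⟨hilbSol S c, hilbSol_mem S c⟩ = descHom N S ⟨u, huX⟩ := by
      apply descHom_eq_of_coboundary_eq hu
      intro τ
      change galU τ (hilbSol S c) / hilbSol S c = galU τ u / u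
      rw [hilbSol_spec, h τ]
    rw [h1, descHom_eq_one_iff hu]
    exact Subgroup.mem_sup_right hu'

/-- **(XF-core)** `H¹(Gal(N/K), U_{S_N}(N)) = Z¹/B¹` injects into `Cl_S(K)`; in particular it has at
most `#Cl_S(K)` elements. -/
theorem relIndex_B1S_le_card_clS [IsGalois K N] {S : Finset (HeightOneSpectrum (𝓞 K))}
    (hu : UnramOutside K N S) :
    (B1S K N S).relIndex (Z1S K N S) ≠ 0 ∧
      (B1S K N S).relIndex (Z1S K N S) ≤ Nat.card (ClS S) := by
  have hker : (B1S K N S).subgroupOf (Z1S K N S) = (cocClass hu).ker := by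
    ext c
    rw [Subgroup.mem_subgroupOf, MonoidHom.mem_ker, cocClass_eq_one_iff hu]
  rw [Subgroup.relIndex, hker, Subgroup.index_ker]
  have : Finite (ClS S) := inferInstance
  exact ⟨Nat.card_pos.ne', Nat.card_le_card_of_injective _ Subtype.val_injective⟩

end Fermat.Agent.GC.Kummer
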