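/-
GATE-C / BASE-KUM (B), helper78.  The discrete `G_ℚ`-modules `Q_S^×` and `O_S^×` (`S`-units of the
maximal extension `Q_S` of `ℚ` unramified outside `S`), in the prelude language
(`IntermediateField.IsUnramifiedOutside`, valuation subrings of `ℚ̄`).
-/
import Mathlib
import Fermat.Agent.GC.C0.Level
import Fermat.Agent.GC.Capit.QbarUnram

set_option autoImplicit false

noncomputable section

namespace Fermat.Agent.GC.KumH

open Fermat.Agent.GC.Prof Fermat.Agent.GC.C0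
open scoped Pointwise

local notation "Qb" => AlgebraicClosure ℚ
local notation "GQ" => (AlgebraicClosure ℚ ≃ₐ[ℚ] AlgebraicClosure ℚ)

variable (S : Finset Nat.Primes)

/-! ### The field `Q_S` (as a predicate) -/

/-- `x ∈ Q_S`: `x` lies in a finite extension of `ℚ` unramified outside `S`. -/
def InQS (x : Qb) : Prop :=
  ∃ F : IntermediateField ℚ Qb, F.IsUnramifiedOutside S ∧ x ∈ F

variable {S}

lemma InQS.of_mem {F : IntermediateField ℚ Qb} (hF : F.IsUnramifiedOutside S) {x : Qb}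
    (hx : x ∈ F) : InQS S x := ⟨F, hF, hx⟩

lemma InQS.one : InQS S (1 : Qb) :=
  ⟨⊥, IntermediateField.isUnramifiedOutside_bot S, one_mem _⟩

lemma InQS.mul {x y : Qb} (hx : InQS S x) (hy : InQS S y) : InQS S (x * y) := by
  obtain ⟨F, hF, hxF⟩ := hx
  obtain ⟨F', hF', hyF'⟩ := hy
  exact ⟨F ⊔ F', hF.sup hF', mul_mem ((le_sup_left : F ≤ F ⊔ F') hxF)
    ((le_sup_right : F' ≤ F ⊔ F') hyF')⟩

lemma InQS.inv {x : Qb} (hx : InQS S x) : InQS S x⁻¹ := by
  obtain ⟨F, hF, hxF⟩ := hx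
  exact ⟨F, hF, inv_mem hxF⟩

lemma InQS.apply {x : Qb} (hx : InQS S x) (σ : GQ) : InQS S (σ x) := by
  obtain ⟨F, hF, hxF⟩ := hx
  exact ⟨F.map (σ : Qb →ₐ[ℚ] Qb), isUnramifiedOutside_map hF σ, ⟨x, hxF, rfl⟩⟩

/-- Inertia at a prime outside `S` acts trivially on `Q_S`. -/
lemma InQS.inertia_fix {x : Qb} (hx : InQS S x) {q : Nat.Primes} (hq : q ∉ S)
    {A : ValuationSubring Qb} (hA : A.LiesOverPrime (q : ℕ)) {σ : GQ}
    (hσ : σ ∈ A.inertiaSubgroupIn ℚ) : σ x = x := by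
  obtain ⟨F, hF, hxF⟩ := hx
  have := hF.2 q hq A hA hσ
  rw [IntermediateField.mem_fixingSubgroup_iff] at this
  exact this x hxF

variable (S)

/-! ### The groups `Q_S^×` and `O_S^×` -/

/-- The units of `Q_S`, as a subgroup of `ℚ̄ˣ`. -/
def unitsQS : Subgroup Qbˣ where
  carrier := {u | InQS S (u : Qb)}
  mul_mem' {a b} ha hb := by
    show InQS S ((a * b : Qbˣ) : Qb)
    rw [Units.val_mul]
    exact InQS.mul ha hb
  one_mem' := by
    show InQS S ((1 : Qbˣ) : Qb)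
    rw [Units.val_one]
    exact InQS.one
  inv_mem' {a} ha := by
    show InQS S ((a⁻¹ : Qbˣ) : Qb)
    rw [Units.val_inv_eq_inv_val]
    exact InQS.inv ha

/-- `u` is an `S`-unit: a unit at every valuation subring of `ℚ̄` above a prime outside `S`. -/
def IsSUnit (u : Qb) : Prop :=
  ∀ q : Nat.Primes, q ∉ S → ∀ A : ValuationSubring Qb, A.LiesOverPrime (q : ℕ) →
    A.valuation u = 1

/-- The `S`-units of `Q_S`, as a subgroup of `ℚ̄ˣ`. -/
def sUnitsQS : Subgroup Qbˣ where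
  carrier := {u | InQS S (u : Qb) ∧ IsSUnit S (u : Qb)}
  mul_mem' {a b} ha hb := by
    refine ⟨(unitsQS S).mul_mem ha.1 hb.1, fun q hq A hA => ?_⟩
    rw [Units.val_mul, map_mul, ha.2 q hq A hA, hb.2 q hq A hA, one_mul]
  one_mem' := ⟨(unitsQS S).one_mem, fun q hq A hA => by rw [Units.val_one, map_one]⟩
  inv_mem' {a} ha := by
    refine ⟨(unitsQS S).inv_mem ha.1, fun q hq A hA => ?_⟩
    rw [Units.val_inv_eq_inv_val, map_inv₀, ha.2 q hq A hA, inv_one]

lemma sUnitsQS_le : sUnitsQS S ≤ unitsQS S := fun _ h => h.1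

lemma mem_unitsQS_iff (u : Qbˣ) : u ∈ unitsQS S ↔ InQS S (u : Qb) := Iff.rfl

lemma mem_sUnitsQS_iff (u : Qbˣ) :
    u ∈ sUnitsQS S ↔ InQS S (u : Qb) ∧ IsSUnit S (u : Qb) := Iff.rfl

variable {S}

lemma smul_mem_unitsQS (σ : GQ) {u : Qbˣ} (hu : u ∈ unitsQS S) : σ • u ∈ unitsQS S :=
  InQS.apply hu σ

lemma IsSUnit.apply {u : Qb} (hu : IsSUnit S u) (σ : GQ) : IsSUnit S (σ u) := by
  intro q hq A hA
  -- transport to the conjugate valuation subring `σ⁻¹ • A`
  have h2 : (σ⁻¹ • A).LiesOverPrime (q : ℕ) := (liesOverPrime_smul_iff σ⁻¹ A q).2 hA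
  have h3 := hu q hq _ h2
  -- `u` is a unit of `σ⁻¹ • A` iff `σ u` is a unit of `A`
  have hmem : ∀ x : Qb, x ∈ σ⁻¹ • A ↔ σ x ∈ A := by
    intro x
    rw [mem_smul_valuationSubring_iff, inv_inv]
  have hu0 : u ≠ 0 := by
    rintro rfl
    rw [map_zero] at h3
    exact zero_ne_one h3
  have h4 : u ∈ σ⁻¹ • A := ((σ⁻¹ • A).valuation_le_one_iff u).1 h3.le
  have h5 : u⁻¹ ∈ σ⁻¹ • A := by
    rw [← (σ⁻¹ • A).valuation_le_one_iff, map_inv₀, h3, inv_one]
  have h6 : σ u ∈ A := (hmem u).1 h4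
  have h7 : (σ u)⁻¹ ∈ A := by
    rw [← map_inv₀]
    exact (hmem _).1 h5
  have h8 : A.valuation (σ u) ≤ 1 := (A.valuation_le_one_iff _).2 h6
  have h9 : A.valuation (σ u)⁻¹ ≤ 1 := (A.valuation_le_one_iff _).2 h7
  rw [map_inv₀] at h9
  have hne : A.valuation (σ u) ≠ 0 := by
    rw [ne_eq, map_eq_zero]
    exact fun h => hu0 (by simpa using h)
  exact le_antisymm h8 ((inv_le_one₀ (zero_lt_iff.2 hne)).1 h9)

lemma smul_mem_sUnitsQS (σ : GQ) {u : Qbˣ} (hu : u ∈ sUnitsQS S) : σ • u ∈ sUnitsQS S :=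
  ⟨InQS.apply hu.1 σ, IsSUnit.apply hu.2 σ⟩

variable (S)

/-! ### The representations -/

instance instMulDistribMulActionUnitsQS : MulDistribMulAction GQ (unitsQS S) where
  smul σ u := ⟨σ • (u : Qbˣ), smul_mem_unitsQS σ u.2⟩
  one_smul u := Subtype.ext (one_smul GQ (u : Qbˣ))
  mul_smul σ τ u := Subtype.ext (mul_smul σ τ (u : Qbˣ))
  smul_mul σ u v := Subtype.ext (smul_mul' σ (u : Qbˣ) (v : Qbˣ))
  smul_one σ := Subtype.ext (smul_one σ)

instance instMulDistribMulActionSUnitsQS : MulDistribMulAction GQ (sUnitsQS S) where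
  smul σ u := ⟨σ • (u : Qbˣ), smul_mem_sUnitsQS σ u.2⟩
  one_smul u := Subtype.ext (one_smul GQ (u : Qbˣ))
  mul_smul σ τ u := Subtype.ext (mul_smul σ τ (u : Qbˣ))
  smul_mul σ u v := Subtype.ext (smul_mul' σ (u : Qbˣ) (v : Qbˣ))
  smul_one σ := Subtype.ext (smul_one σ)

@[simp]
lemma coe_smul_unitsQS (σ : GQ) (u : unitsQS S) :
    (((σ • u : unitsQS S) : Qbˣ) : Qb) = σ ((u : Qbˣ) : Qb) := rfl

@[simp]
lemma coe_smul_sUnitsQS (σ : GQ) (u : sUnitsQS S) :
    (((σ • u : sUnitsQS S) : Qbˣ) : Qb) = σ ((u : Qbˣ) : Qb) := rfl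

/-- `Q_S^×` as a representation of `G_ℚ` over `ℤ` (written additively). -/
def unitsS : Rep ℤ GQ := Rep.ofMulDistribMulAction GQ (unitsQS S)

/-- `O_S^×` (the `S`-units of `Q_S`) as a representation of `G_ℚ` over `ℤ`. -/
def sUnitsS : Rep ℤ GQ := Rep.ofMulDistribMulAction GQ (sUnitsQS S)

lemma unitsS_ρ_apply (σ : GQ) (a : Additive (unitsQS S)) :
    (unitsS S).ρ σ a = Additive.ofMul (σ • a.toMul) := rfl

lemma sUnitsS_ρ_apply (σ : GQ) (a : Additive (sUnitsQS S)) :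
    (sUnitsS S).ρ σ a = Additive.ofMul (σ • a.toMul) := rfl

lemma unitsS_ρ_eq_self {σ : GQ} {a : unitsS S}
    (h : σ (((Additive.toMul (show Additive (unitsQS S) from a) : unitsQS S) : Qbˣ) : Qb) =
      (((Additive.toMul (show Additive (unitsQS S) from a) : unitsQS S) : Qbˣ) : Qb)) :
    (unitsS S).ρ σ a = a := by
  show Additive.ofMul (σ • (Additive.toMul (show Additive (unitsQS S) from a))) = a
  have : σ • (Additive.toMul (show Additive (unitsQS S) from a)) =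
      Additive.toMul (show Additive (unitsQS S) from a) :=
    Subtype.ext (Units.ext h)
  rw [this]
  rfl

lemma sUnitsS_ρ_eq_self {σ : GQ} {a : sUnitsS S}
    (h : σ (((Additive.toMul (show Additive (sUnitsQS S) from a) : sUnitsQS S) : Qbˣ) : Qb) =
      (((Additive.toMul (show Additive (sUnitsQS S) from a) : sUnitsQS S) : Qbˣ) : Qb)) :
    (sUnitsS S).ρ σ a = a := by
  show Additive.ofMul (σ • (Additive.toMul (show Additive (sUnitsQS S) from a))) = a
  have : σ • (Additive.toMul (show Additive (sUnitsQS S) from a)) =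
      Additive.toMul (show Additive (sUnitsQS S) from a) :=
    Subtype.ext (Units.ext h)
  rw [this]
  rfl

instance isDiscrete_unitsS : IsDiscrete (levelS S) (unitsS S) := by
  refine ⟨fun m => ?_⟩
  obtain ⟨F, hF, hmF⟩ := (Additive.toMul (show Additive (unitsQS S) from m) : unitsQS S).2
  refine ⟨F.fixingSubgroup, ⟨F, hF, rfl⟩, fun s hs => ?_⟩
  rw [IntermediateField.mem_fixingSubgroup_iff] at hs
  exact unitsS_ρ_eq_self S (hs _ hmF)

instance isDiscrete_sUnitsS : IsDiscrete (levelS S) (sUnitsS S) := by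
  refine ⟨fun m => ?_⟩
  obtain ⟨F, hF, hmF⟩ := (Additive.toMul (show Additive (sUnitsQS S) from m) : sUnitsQS S).2.1
  refine ⟨F.fixingSubgroup, ⟨F, hF, rfl⟩, fun s hs => ?_⟩
  rw [IntermediateField.mem_fixingSubgroup_iff] at hs
  exact sUnitsS_ρ_eq_self S (hs _ hmF)

/-! ### `p`-th roots of `S`-units stay in `Q_S` (when `p ∈ S`) -/

variable {S}

/-- The core: an inertia element at `A` (residue characteristic `q ≠ p`) which fixes `u`, a unit
at `A`, fixes every `p`-th root of `u`. -/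
theorem apply_root_eq_of_valuation_eq_one {p q : ℕ} (hp : p.Prime) (hq : q.Prime) (hpq : q ≠ p)
    (A : ValuationSubring Qb) (hA : A.LiesOverPrime q) (σ : GQ)
    (hσ : σ ∈ A.inertiaSubgroupIn ℚ) {u β : Qb} (hσu : σ u = u) (hvu : A.valuation u = 1)
    (hβ : β ^ p = u) : σ β = β := by
  have hu0 : u ≠ 0 := by
    rintro rfl
    rw [map_zero] at hvu
    exact zero_ne_one hvu
  have hβ0 : β ≠ 0 := by
    rintro rfl
    rw [zero_pow hp.ne_zero] at hβ
    exact hu0 hβ.symm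
  have hvβ : A.valuation β = 1 := by
    have h1 : A.valuation β ^ p = 1 := by rw [← map_pow, hβ, hvu]
    exact (pow_eq_one_iff_of_nonneg zero_le hp.ne_zero).mp h1
  have hxc : β / 1 ∈ A := by
    rw [div_one]
    exact (A.valuation_le_one_iff _).1 hvβ.le
  have hcx : 1 / β ∈ A := by
    rw [← A.valuation_le_one_iff, one_div, map_inv₀, hvβ, inv_one]
  have hη1 := Fermat.Agent.S05.apply_div_self_sub_one_mem_nonunits hσ (map_one σ) hxc hcx hβ0
    one_ne_zero
  have hηp : (σ β / β) ^ p = 1 := by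
    rw [div_pow, ← map_pow, hβ, hσu, div_self hu0]
  have := Fermat.Agent.GC.Capit.eq_one_of_pow_eq_one_of_sub_one_mem_nonunits A hp hq hpq hA _
    hηp hη1
  rwa [div_eq_one_iff_eq hβ0] at this

/-- If `p ∈ S`, every `p`-th root of an `S`-unit of `Q_S` lies in `Q_S`. -/
theorem InQS.root_of_isSUnit {p : ℕ} (hp : p.Prime) (hpS : (⟨p, hp⟩ : Nat.Primes) ∈ S)
    {u β : Qb} (hu : InQS S u) (hus : IsSUnit S u) (hβ : β ^ p = u) : InQS S β := by
  obtain ⟨F, hF, huF⟩ := hu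
  have hfd := hF.1
  have hβint : IsIntegral ℚ β := (Algebra.IsAlgebraic.isAlgebraic β).isIntegral
  have hfd2 : FiniteDimensional ℚ (IntermediateField.adjoin ℚ {β}) :=
    IntermediateField.adjoin.finiteDimensional hβint
  refine ⟨F ⊔ IntermediateField.adjoin ℚ {β}, ⟨IntermediateField.finiteDimensional_sup _ _,
    fun q hq A hA σ hσ => ?_⟩, (le_sup_right : _ ≤ F ⊔ IntermediateField.adjoin ℚ {β})
      (IntermediateField.mem_adjoin_simple_self ℚ β)⟩
  rw [IntermediateField.fixingSubgroup_sup]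
  have hσF : σ ∈ F.fixingSubgroup := hF.2 q hq A hA hσ
  refine ⟨hσF, ?_⟩
  have hqp : (q : ℕ) ≠ p := by
    intro h
    apply hq
    have : q = ⟨p, hp⟩ := Subtype.ext h
    rw [this]; exact hpS
  have hσu : σ u = u := by
    rw [IntermediateField.mem_fixingSubgroup_iff] at hσF
    exact hσF u huF
  have hσβ : σ β = β :=
    apply_root_eq_of_valuation_eq_one hp q.2 hqp A hA σ hσ hσu (hus q hq A hA) hβ
  have hle : IntermediateField.adjoin ℚ {β} ≤ IntermediateField.fixedField (Subgroup.zpowers σ) := by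
    rw [IntermediateField.adjoin_simple_le_iff, IntermediateField.mem_fixedField_iff]
    intro g hg
    have h1 : Subgroup.zpowers σ ≤ MulAction.stabilizer GQ β :=
      Subgroup.zpowers_le.2 (MulAction.mem_stabilizer_iff.2 hσβ)
    exact MulAction.mem_stabilizer_iff.1 (h1 hg)
  exact (IntermediateField.le_iff_le _ _).1 hle (Subgroup.mem_zpowers σ)

/-- A `p`-th root of an `S`-unit is an `S`-unit (no condition on `p`). -/
theorem IsSUnit.root {p : ℕ} (hp : p ≠ 0) {u β : Qb} (hus : IsSUnit S u) (hβ : β ^ p = u) :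
    IsSUnit S β := by
  intro q hq A hA
  have h1 : A.valuation β ^ p = 1 := by rw [← map_pow, hβ, hus q hq A hA]
  exact (pow_eq_one_iff_of_nonneg zero_le hp).mp h1

/-- **`O_S^×` is `p`-divisible when `p ∈ S`.** -/
theorem exists_pow_eq_of_mem_sUnitsQS {p : ℕ} (hp : p.Prime) (hpS : (⟨p, hp⟩ : Nat.Primes) ∈ S)
    (u : Qbˣ) (hu : u ∈ sUnitsQS S) : ∃ v : Qbˣ, v ∈ sUnitsQS S ∧ v ^ p = u := by
  obtain ⟨β, hβ⟩ := IsAlgClosed.exists_pow_nat_eq (u : Qb) hp.pos
  have hβ0 : β ≠ 0 := by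
    rintro rfl
    rw [zero_pow hp.ne_zero] at hβ
    exact u.ne_zero hβ.symm
  refine ⟨Units.mk0 β hβ0, ⟨?_, ?_⟩, ?_⟩
  · exact InQS.root_of_isSUnit hp hpS hu.1 hu.2 hβ
  · exact IsSUnit.root hp.ne_zero hu.2 hβ
  · apply Units.ext
    rw [Units.val_pow_eq_pow_val]
    exact hβ

variable (S)

end Fermat.Agent.GC.KumH
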