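/-
GATE-C / BASE-KUM (B2), helper78.  Hilbert 90 in the limit for `(G_K, levelK S K)` with coefficients
`Q_S^×`:  `Hlc¹(G_{K,S}, Q_S^×) = 0`, and the invariants `(Q_S^×)^{G_K} = K^×`.

`G_K = K.fixingSubgroup ≤ G_ℚ` with helper69's `levelK S K`; reduction to helper81's
`isMulCoboundary₁_of_levelConstant` through `IntermediateField.fixingSubgroupEquiv`.
-/
import Mathlib
import Fermat.Agent.GC.Kummer.HlcUnits
import Fermat.Agent.GC.Local.Abs.Hilbert90
import Fermat.Agent.GC.Places.Levels
import Fermat.Agent.GC.Prof.Low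

set_option autoImplicit false

noncomputable section

namespace Fermat.Agent.GC.KumH

open Fermat.Agent.GC.Prof Fermat.Agent.GC.C0 Fermat.Agent.GC.Places groupCohomology
open scoped Pointwise

local notation "Qb" => AlgebraicClosure ℚ
local notation "GQ" => (AlgebraicClosure ℚ ≃ₐ[ℚ] AlgebraicClosure ℚ)

local instance isAlgebraicQbar_kumH : Algebra.IsAlgebraic ℚ (AlgebraicClosure ℚ) :=
  AlgebraicClosure.isAlgebraic ℚ
local instance isAlgClosureQbar_kumH : IsAlgClosure ℚ (AlgebraicClosure ℚ) :=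
  ⟨inferInstance, inferInstance⟩
local instance normalQbar_kumH : Normal ℚ (AlgebraicClosure ℚ) :=
  IsAlgClosure.normal ℚ (AlgebraicClosure ℚ)
local instance isGaloisQbar_kumH : IsGalois ℚ (AlgebraicClosure ℚ) := ⟨⟩

/-! ### Plain form -/

/-- **Hilbert 90 in the limit for `G_K` (plain form).**  A multiplicative `1`-cocycle
`G_K → ℚ̄ˣ` which is right-invariant under `F.fixingSubgroup ∩ G_K` (`F/ℚ` finite) is the
coboundary of an element of `K ⊔ F`. -/
theorem exists_smul_div_eq_of_cocycle (K : IntermediateField ℚ Qb) [FiniteDimensional ℚ K]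
    (f : K.fixingSubgroup → Qbˣ)
    (hf : ∀ g h : K.fixingSubgroup, f (g * h) = (g : GQ) • f h * f g)
    (F : IntermediateField ℚ Qb) [FiniteDimensional ℚ F]
    (hlc : ∀ g s : K.fixingSubgroup, (s : GQ) ∈ F.fixingSubgroup → f (g * s) = f g) :
    ∃ b : Qbˣ, (b : Qb) ∈ K ⊔ F ∧ ∀ g : K.fixingSubgroup, (g : GQ) • b / b = f g := by
  classical
  let e := IntermediateField.fixingSubgroupEquiv K
  let f' : (Qb ≃ₐ[K] Qb) → Qbˣ := fun g => f (e.symm g)
  have hcoc : IsMulCocycle₁ f' := by
    intro g h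
    show f (e.symm (g * h)) = g • f (e.symm h) * f (e.symm g)
    rw [map_mul, hf]
    rfl
  let E : IntermediateField K Qb := IntermediateField.extendScalars (le_sup_left : K ≤ K ⊔ F)
  have hfd1 : FiniteDimensional ℚ (K ⊔ F : IntermediateField ℚ Qb) :=
    IntermediateField.finiteDimensional_sup K F
  have hfd : FiniteDimensional K E := by
    have h1 : Module.Finite ℚ E := hfd1
    exact Module.Finite.of_restrictScalars_finite ℚ K E
  have hE : ∀ g s : Qb ≃ₐ[K] Qb, s ∈ E.fixingSubgroup → f' (g * s) = f' g := by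
    intro g s hs
    show f (e.symm (g * s)) = f (e.symm g)
    rw [map_mul]
    apply hlc
    rw [IntermediateField.mem_fixingSubgroup_iff] at hs ⊢
    intro x hx
    exact hs x ((le_sup_right : F ≤ K ⊔ F) hx)
  obtain ⟨β, hβ⟩ := Fermat.Agent.GC.Local.Abs.isMulCoboundary₁_of_levelConstant f' hcoc E hE
  have hβ' : ∀ g : K.fixingSubgroup, (g : GQ) • β / β = f g := by
    intro g
    have := hβ (e g)
    have h2 : f' (e g) = f g := by
      show f (e.symm (e g)) = f g
      rw [MulEquiv.symm_apply_apply]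
    rw [← h2, ← this]
    rfl
  refine ⟨β, ?_, hβ'⟩
  have hf1 : f 1 = 1 := by
    have := hf 1 1
    simpa using this
  rw [← InfiniteGalois.fixedField_fixingSubgroup (K ⊔ F), IntermediateField.mem_fixedField_iff]
  intro s hs
  rw [IntermediateField.fixingSubgroup_sup] at hs
  have h1 := hβ' ⟨s, hs.1⟩
  have h2 : f ⟨s, hs.1⟩ = 1 := by
    have := hlc 1 ⟨s, hs.1⟩ hs.2
    rwa [one_mul, hf1] at this
  rw [h2, div_eq_one] at h1
  exact congrArg (fun u : Qbˣ => (u : Qb)) h1

/-! ### The `G_K`-modules `Q_S^×`, `O_S^×` -/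

variable (S : Finset Nat.Primes) (K : IntermediateField ℚ Qb)

/-- `Q_S^×` as a `G_K`-module. -/
abbrev unitsK : Rep ℤ K.fixingSubgroup := Rep.res K.fixingSubgroup.subtype (unitsS S)

/-- `O_S^×` as a `G_K`-module. -/
abbrev sUnitsK : Rep ℤ K.fixingSubgroup := Rep.res K.fixingSubgroup.subtype (sUnitsS S)

instance isDiscrete_unitsK : IsDiscrete (levelK S K) (unitsK S K) :=
  isDiscrete_res_levelK S K (unitsS S)

instance isDiscrete_sUnitsK : IsDiscrete (levelK S K) (sUnitsK S K) :=
  isDiscrete_res_levelK S K (sUnitsS S)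

/-- The element of `ℚ̄` underlying an element of `Q_S^×`. -/
def unitsS.val (a : unitsS S) : Qb :=
  (((Additive.toMul (show Additive (unitsQS S) from a) : unitsQS S) : Qbˣ) : Qb)

/-- The element of `ℚ̄ˣ` underlying an element of `Q_S^×`. -/
def unitsS.unit (a : unitsS S) : Qbˣ :=
  ((Additive.toMul (show Additive (unitsQS S) from a) : unitsQS S) : Qbˣ)

/-- The element of `Q_S^×` attached to a unit of `ℚ̄` lying in `Q_S`. -/
def unitsS.mk (b : Qbˣ) (hb : b ∈ unitsQS S) : unitsS S :=
  Additive.ofMul (⟨b, hb⟩ : unitsQS S)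

@[simp] lemma unitsS.unit_mk (b : Qbˣ) (hb : b ∈ unitsQS S) :
    unitsS.unit S (unitsS.mk S b hb) = b := rfl

lemma unitsS.unit_injective : Function.Injective (unitsS.unit S) := by
  intro a b h
  have : (Additive.toMul (show Additive (unitsQS S) from a) : unitsQS S) =
      Additive.toMul (show Additive (unitsQS S) from b) := Subtype.ext h
  exact Additive.toMul.injective this

@[simp] lemma unitsS.unit_add (a b : unitsS S) :
    unitsS.unit S (a + b) = unitsS.unit S a * unitsS.unit S b := rfl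

@[simp] lemma unitsS.unit_zero : unitsS.unit S (0 : unitsS S) = 1 := rfl

@[simp] lemma unitsS.unit_neg (a : unitsS S) :
    unitsS.unit S (-a) = (unitsS.unit S a)⁻¹ := rfl

@[simp] lemma unitsS.unit_sub (a b : unitsS S) :
    unitsS.unit S (a - b) = unitsS.unit S a / unitsS.unit S b := rfl

@[simp] lemma unitsS.unit_ρ (σ : GQ) (a : unitsS S) :
    unitsS.unit S ((unitsS S).ρ σ a) = σ • unitsS.unit S a := rfl

lemma unitsS.unit_mem (a : unitsS S) : unitsS.unit S a ∈ unitsQS S :=
  (Additive.toMul (show Additive (unitsQS S) from a) : unitsQS S).2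

/-! ### `Hlc¹(G_{K,S}, Q_S^×) = 0` -/

variable {S K}

/-- **Hilbert 90 for `G_{K,S}`**: `Hlc¹(G_K, Q_S^×) = 0` for `K ⊂ Q_S`. -/
theorem hlc_one_unitsK_eq_zero (hK : K.IsUnramifiedOutside S)
    (x : Hlc (levelK S K) (unitsK S K) 1) : x = 0 := by
  obtain ⟨z, rfl⟩ := Hlc1π_surjective (levelK S K) (unitsK S K) x
  rw [Hlc1π_eq_zero_iff]
  obtain ⟨hzc, U, hU, hUz⟩ := (mem_lcCocycles₁_iff _ _ _).1 z.2
  obtain ⟨V, ⟨F, hF, rfl⟩, rfl⟩ := hU
  rw [mem_cocycles₁_iff] at hzc
  have := hK.1
  have := hF.1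
  obtain ⟨b, hbKF, hb⟩ := exists_smul_div_eq_of_cocycle K
    (fun g => unitsS.unit S ((z : K.fixingSubgroup → unitsK S K) g))
    (fun g h => by
      show unitsS.unit S ((z : K.fixingSubgroup → unitsK S K) (g * h)) = _
      rw [hzc g h]
      rfl) F
    (fun g s hs => by
      show unitsS.unit S ((z : K.fixingSubgroup → unitsK S K) (g * s)) = _
      rw [hUz g s hs])
  have hbS : b ∈ unitsQS S := ⟨K ⊔ F, hK.sup hF, hbKF⟩
  refine ⟨unitsS.mk S b hbS, ?_⟩
  funext g
  apply unitsS.unit_injective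
  rw [← hb g]
  rfl

theorem subsingleton_hlc_one_unitsK (hK : K.IsUnramifiedOutside S) :
    Subsingleton (Hlc (levelK S K) (unitsK S K) 1) :=
  ⟨fun x y => (hlc_one_unitsK_eq_zero hK x).trans (hlc_one_unitsK_eq_zero hK y).symm⟩

/-! ### Invariants -/

/-- An element of `Q_S^×` is `G_K`-invariant iff it lies in `K`. -/
theorem mem_invariants_unitsK_iff (a : unitsK S K) :
    a ∈ (unitsK S K).ρ.invariants ↔ ((unitsS.unit S a : Qbˣ) : Qb) ∈ K := by
  rw [Representation.mem_invariants]
  constructor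
  · intro h
    rw [← InfiniteGalois.fixedField_fixingSubgroup K, IntermediateField.mem_fixedField_iff]
    intro s hs
    have := congrArg (fun m => ((unitsS.unit S m : Qbˣ) : Qb)) (h ⟨s, hs⟩)
    exact this
  · intro h g
    apply unitsS.unit_injective
    apply Units.ext
    have hg := g.2
    rw [IntermediateField.mem_fixingSubgroup_iff] at hg
    exact hg _ h

end Fermat.Agent.GC.KumH
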