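/-
GATE-C / BASE-KUM (B3), helper78.  The Kummer sequence `0 → ℤ/p → O_S^× -p→ O_S^× → 0` of
`G_K`-modules (`ζ_p ∈ K`, `p ∈ S`), as a `KummerSeq` for `(K.fixingSubgroup, levelK S K)`.
-/
import Mathlib
import Fermat.Agent.GC.Kummer.HlcKummer
import Fermat.Agent.GC.Kummer.HlcH90

set_option autoImplicit false

open CategoryTheory

noncomputable section

namespace Fermat.Agent.GC.KumH

open Fermat.Agent.GC.Prof Fermat.Agent.GC.C0 Fermat.Agent.GC.Places groupCohomology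
open scoped Pointwise

local notation "Qb" => AlgebraicClosure ℚ
local notation "GQ" => (AlgebraicClosure ℚ ≃ₐ[ℚ] AlgebraicClosure ℚ)

/-- Elementwise criterion for short exactness in `Rep k G` (`k` a commutative ring). -/
theorem shortExact_of_elementwise_ring {k G : Type} [CommRing k] [Group G]
    (X : ShortComplex (Rep.{0} k G))
    (hf : Function.Injective X.f.hom) (hg : Function.Surjective X.g.hom)
    (hex : ∀ y : X.X₂, X.g.hom y = 0 → ∃ x : X.X₁, X.f.hom x = y) : X.ShortExact := by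
  refine { exact := ?_, mono_f := (Rep.mono_iff_injective X.f).2 hf,
           epi_g := (Rep.epi_iff_surjective X.g).2 hg }
  rw [← ShortComplex.exact_map_iff_of_faithful X (forget₂ (Rep.{0} k G) (ModuleCat.{0} k)),
    ShortComplex.moduleCat_exact_iff]
  intro y hy
  exact hex y hy

variable {S : Finset Nat.Primes} {p : ℕ}

/-- `p`-th roots of unity are `S`-units of `Q_S` when `p ∈ S`. -/
theorem mem_sUnitsQS_of_pow_eq_one (hp : p.Prime) (hpS : (⟨p, hp⟩ : Nat.Primes) ∈ S)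
    (η : Qbˣ) (hη : η ^ p = 1) : η ∈ sUnitsQS S := by
  have h1 : ((η : Qbˣ) : Qb) ^ p = 1 := by
    rw [← Units.val_pow_eq_pow_val, hη, Units.val_one]
  have hs1 : IsSUnit S (1 : Qb) := fun q _ A _ => map_one _
  exact ⟨InQS.root_of_isSUnit hp hpS InQS.one hs1 h1, IsSUnit.root hp.ne_zero hs1 h1⟩

variable (S) (K : IntermediateField ℚ Qb)

/-- The element of `ℚ̄ˣ` underlying an element of `O_S^×`. -/
def sUnitsS.unit (a : sUnitsS S) : Qbˣ :=
  ((Additive.toMul (show Additive (sUnitsQS S) from a) : sUnitsQS S) : Qbˣ)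

/-- The element of `O_S^×` attached to an `S`-unit of `Q_S`. -/
def sUnitsS.mk (b : Qbˣ) (hb : b ∈ sUnitsQS S) : sUnitsS S :=
  Additive.ofMul (⟨b, hb⟩ : sUnitsQS S)

@[simp] lemma sUnitsS.unit_mk (b : Qbˣ) (hb : b ∈ sUnitsQS S) :
    sUnitsS.unit S (sUnitsS.mk S b hb) = b := rfl

lemma sUnitsS.unit_injective : Function.Injective (sUnitsS.unit S) := by
  intro a b h
  have : (Additive.toMul (show Additive (sUnitsQS S) from a) : sUnitsQS S) =
      Additive.toMul (show Additive (sUnitsQS S) from b) := Subtype.ext h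
  exact Additive.toMul.injective this

@[simp] lemma sUnitsS.unit_add (a b : sUnitsS S) :
    sUnitsS.unit S (a + b) = sUnitsS.unit S a * sUnitsS.unit S b := rfl

@[simp] lemma sUnitsS.unit_zero : sUnitsS.unit S (0 : sUnitsS S) = 1 := rfl

@[simp] lemma sUnitsS.unit_neg (a : sUnitsS S) :
    sUnitsS.unit S (-a) = (sUnitsS.unit S a)⁻¹ := rfl

@[simp] lemma sUnitsS.unit_sub (a b : sUnitsS S) :
    sUnitsS.unit S (a - b) = sUnitsS.unit S a / sUnitsS.unit S b := rfl

@[simp] lemma sUnitsS.unit_ρ (σ : GQ) (a : sUnitsS S) :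
    sUnitsS.unit S ((sUnitsS S).ρ σ a) = σ • sUnitsS.unit S a := rfl

lemma sUnitsS.unit_mem (a : sUnitsS S) : sUnitsS.unit S a ∈ sUnitsQS S :=
  (Additive.toMul (show Additive (sUnitsQS S) from a) : sUnitsQS S).2

lemma sUnitsS.unit_nsmul (n : ℕ) (a : sUnitsS S) :
    sUnitsS.unit S (n • a) = sUnitsS.unit S a ^ n := by
  induction n with
  | zero => simp
  | succ n ih => rw [succ_nsmul, pow_succ, sUnitsS.unit_add, ih]

lemma sUnitsS.unit_zsmul_natCast (n : ℕ) (a : sUnitsS S) :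
    sUnitsS.unit S ((n : ℤ) • a) = sUnitsS.unit S a ^ n := by
  rw [natCast_zsmul, sUnitsS.unit_nsmul]

variable {S}

section Mu

variable [NeZero p] {ζ : Qbˣ} (hζ : IsPrimitiveRoot ζ p) (hζS : ζ ∈ sUnitsQS S)

/-- `ℤ/p → O_S^×`, `a ↦ ζ^a`. -/
def muAdd : ZMod p →+ sUnitsS S :=
  ((Subgroup.inclusion (Subgroup.zpowers_le.2 hζS) :
      Subgroup.zpowers ζ →* sUnitsQS S).toAdditive).comp
    hζ.zmodEquivZPowers.toAddMonoidHom

omit [NeZero p] in
lemma muAdd_injective : Function.Injective (muAdd hζ hζS) := by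
  intro a b h
  apply hζ.zmodEquivZPowers.injective
  have h2 : Function.Injective (Subgroup.inclusion (Subgroup.zpowers_le.2 hζS) :
      Subgroup.zpowers ζ →* sUnitsQS S) := Subgroup.inclusion_injective _
  exact h2 h

omit [NeZero p] in
lemma unit_muAdd_natCast (i : ℕ) : sUnitsS.unit S (muAdd hζ hζS (i : ZMod p)) = ζ ^ i := by
  show (((Subgroup.inclusion (Subgroup.zpowers_le.2 hζS))
    (Additive.toMul (hζ.zmodEquivZPowers (i : ZMod p))) : sUnitsQS S) : Qbˣ) = ζ ^ i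
  rw [hζ.zmodEquivZPowers_apply_coe_nat]
  rfl

lemma exists_muAdd_eq (y : sUnitsS S) (hy : sUnitsS.unit S y ^ p = 1) :
    ∃ a : ZMod p, muAdd hζ hζS a = y := by
  have h1 : sUnitsS.unit S y ∈ Subgroup.zpowers ζ := by
    rw [hζ.zpowers_eq, mem_rootsOfUnity]
    exact hy
  refine ⟨hζ.zmodEquivZPowers.symm (Additive.ofMul ⟨sUnitsS.unit S y, h1⟩), ?_⟩
  apply sUnitsS.unit_injective
  show (((Subgroup.inclusion (Subgroup.zpowers_le.2 hζS))
    (Additive.toMul (hζ.zmodEquivZPowers (hζ.zmodEquivZPowers.symm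
      (Additive.ofMul ⟨sUnitsS.unit S y, h1⟩)))) : sUnitsQS S) : Qbˣ) = _
  rw [AddEquiv.apply_symm_apply]
  rfl

variable (hζK : ((ζ : Qbˣ) : Qb) ∈ K)

include hζK in
lemma smul_muAdd (g : K.fixingSubgroup) (a : ZMod p) :
    (sUnitsS S).ρ (g : GQ) (muAdd hζ hζS a) = muAdd hζ hζS a := by
  obtain ⟨i, rfl⟩ : ∃ i : ℕ, (i : ZMod p) = a := ⟨a.val, ZMod.natCast_zmod_val a⟩
  apply sUnitsS.unit_injective
  rw [sUnitsS.unit_ρ, unit_muAdd_natCast, smul_pow']
  congr 1
  apply Units.ext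
  have hg := g.2
  rw [IntermediateField.mem_fixingSubgroup_iff] at hg
  exact hg _ hζK

/-- The inclusion `ℤ/p → O_S^×` of `G_K`-modules (`ζ ∈ K`). -/
def muι : Rep.trivial ℤ K.fixingSubgroup (ZMod p) ⟶ sUnitsK S K :=
  Rep.ofHom
    { toLinearMap := (muAdd hζ hζS).toIntLinearMap
      isIntertwining' := fun g => by
        apply LinearMap.ext
        intro a
        exact (smul_muAdd K hζ hζS hζK g a).symm }

lemma muι_hom_apply (a : ZMod p) : (muι K hζ hζS hζK).hom a = muAdd hζ hζS a := rfl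

omit [NeZero p] in
lemma p_smul_muAdd (a : ZMod p) : (p : ℤ) • muAdd hζ hζS a = 0 := by
  rw [← map_zsmul, natCast_zsmul]
  have : p • a = 0 := by
    rw [nsmul_eq_mul, ZMod.natCast_self, zero_mul]
  rw [this, map_zero]

/-- **The Kummer sequence `0 → ℤ/p → O_S^× -p→ O_S^× → 0` of `G_K`-modules** (`ζ_p ∈ K`,
`p ∈ S`). -/
def kummerSeq (hp : p.Prime) (hpS : (⟨p, hp⟩ : Nat.Primes) ∈ S) :
    KummerSeq (Rep.trivial ℤ K.fixingSubgroup (ZMod p)) (sUnitsK S K) (p : ℤ) where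
  ι := muι K hζ hζS hζK
  zero := by
    apply Rep.hom_ext
    apply Representation.IntertwiningMap.ext
    apply LinearMap.ext
    intro a
    exact p_smul_muAdd hζ hζS a
  shortExact := by
    apply shortExact_of_elementwise_ring
    · exact muAdd_injective hζ hζS
    · intro y
      obtain ⟨v, hv, hvp⟩ := exists_pow_eq_of_mem_sUnitsQS hp hpS (sUnitsS.unit S y)
        (sUnitsS.unit_mem S y)
      refine ⟨sUnitsS.mk S v hv, ?_⟩
      apply sUnitsS.unit_injective
      show sUnitsS.unit S ((p : ℤ) • sUnitsS.mk S v hv) = _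
      rw [sUnitsS.unit_zsmul_natCast, sUnitsS.unit_mk, hvp]
    · intro y hy
      have hy' : (p : ℤ) • y = 0 := hy
      have h1 : sUnitsS.unit S y ^ p = 1 := by
        rw [← sUnitsS.unit_zsmul_natCast, hy']
        rfl
      exact exists_muAdd_eq hζ hζS y h1

include hζ hζS hζK in
/-- `(b0)`-form for `G_{K,S}`: if `Hlc^i(G_{K,S}, O_S^×)` is `p`-divisible and
`Hlc^(i+1)(G_{K,S}, O_S^×)` has no `p`-torsion, then `Hlc^(i+1)(G_{K,S}, ℤ/p) = 0`. -/
theorem hlc_zmod_eq_zero_of_sUnitsK (hp : p.Prime) (hpS : (⟨p, hp⟩ : Nat.Primes) ∈ S) (i : ℕ)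
    (hdiv : ∀ x : Hlc (levelK S K) (sUnitsK S K) i,
      ∃ x' : Hlc (levelK S K) (sUnitsK S K) i, (p : ℤ) • x' = x)
    (htf : ∀ z : Hlc (levelK S K) (sUnitsK S K) (i + 1), (p : ℤ) • z = 0 → z = 0)
    (y : Hlc (levelK S K) (Rep.trivial ℤ K.fixingSubgroup (ZMod p)) (i + 1)) : y = 0 := by
  refine (kummerSeq K hζ hζS hζK hp hpS).eq_zero_of_divisible_of_torsionFree i ?_ ?_ y
  · intro x
    obtain ⟨x', hx'⟩ := hdiv x
    refine ⟨x', ?_⟩
    rw [← hx']
    exact int_smul_eq_zsmul _ _ _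
  · intro z hz
    apply htf z
    rw [← hz]
    exact (int_smul_eq_zsmul _ _ _).symm

end Mu

end Fermat.Agent.GC.KumH
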