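/-
GATE-C / C4 Kummer-index stream (helper51).  Dictionary between helper78's `IsSUnit S` (units at all
valuation subrings of `ℚ̄` above the primes outside `S`) and the `S_L`-units of a number field
`L ⊂ ℚ̄` in the `HeightOneSpectrum` sense (`Set.unit`), `S_L = primesAbove L S` (helper14).
* (D-a) `mem_unit_primesAbove_of_isSUnit`, (D-b) `isSUnit_of_mem_unit_primesAbove`;
* `centerOn L A`, `centerPrime` : the center of a valuation subring of `ℚ̄` on `𝓞 L`.
-/
import Mathlib
import Fermat.Agent.GC.Kummer.HlcUnits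
import Fermat.Agent.GC.Global.Adapter.GoodT
import Fermat.Agent.S14.Reduction.Above

set_option autoImplicit false
set_option linter.unusedSectionVars false

open NumberField IsDedekindDomain

namespace Fermat.Agent.GC.KumXF

open Fermat.Agent.GC.KumH

open Fermat.Agent.GC.Global.Adapter

local notation "Qb" => AlgebraicClosure ℚ

variable (L : IntermediateField ℚ Qb) [FiniteDimensional ℚ L]

/-- integers of `L` lie in every valuation subring of `ℚ̄` -/
lemma coe_int_mem_valuationSubring (A : ValuationSubring Qb) (y : 𝓞 L) : ((y : L) : Qb) ∈ A := by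
  apply Fermat.Agent.Common_helper32.isIntegral_mem_valuationSubring
  exact (isIntegral_algebraMap_iff (algebraMap L Qb).injective).mpr y.2

lemma valuation_coe_int_le_one (A : ValuationSubring Qb) (y : 𝓞 L) :
    A.valuation ((y : L) : Qb) ≤ 1 :=
  (A.valuation_le_one_iff _).2 (coe_int_mem_valuationSubring L A y)

variable {L}

/-- if `A` is above `P`, then for `y ∈ 𝓞 L`: `y ∉ P ↔ A.valuation y = 1` -/
lemma valuation_coe_int_eq_one_iff {A : ValuationSubring Qb} {P : Ideal (𝓞 L)}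
    (hAP : ∀ x : 𝓞 L, x ∈ P ↔ ((x : L) : Qb) ∈ A.nonunits) (y : 𝓞 L) :
    A.valuation ((y : L) : Qb) = 1 ↔ y ∉ P := by
  rw [hAP, A.mem_nonunits_iff]
  constructor
  · intro h; rw [h]; exact lt_irrefl _
  · intro h
    exact le_antisymm (valuation_coe_int_le_one L A y) (not_lt.1 h)

/-- core: `A` above `P`, `A.valuation x = 1`, `P.valuation x ≤ 1` ⟹ `P.valuation x = 1` -/
lemma adic_valuation_eq_one_of_le {A : ValuationSubring Qb} (P : HeightOneSpectrum (𝓞 L))
    (hAP : ∀ x : 𝓞 L, x ∈ P.asIdeal ↔ ((x : L) : Qb) ∈ A.nonunits) (x : L)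
    (hA : A.valuation (x : Qb) = 1) (hle : P.valuation L x ≤ 1) : P.valuation L x = 1 := by
  obtain ⟨n, d, hnd⟩ := P.exists_primeCompl_mul_eq_of_integer x hle
  have hd : (d : 𝓞 L) ∉ P.asIdeal := d.2
  have hdA : A.valuation (((d : 𝓞 L) : L) : Qb) = 1 := (valuation_coe_int_eq_one_iff hAP _).2 hd
  have hnA : A.valuation ((n : L) : Qb) = 1 := by
    have h1 : ((n : L) : Qb) = (x : Qb) * (((d : 𝓞 L) : L) : Qb) := by
      have := congrArg (fun y : L => (y : Qb)) hnd
      simpa using this.symm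
    rw [h1, map_mul, hA, hdA, one_mul]
  have hn : n ∉ P.asIdeal := (valuation_coe_int_eq_one_iff hAP _).1 hnA
  have h2 : P.valuation L x * P.valuation L (algebraMap (𝓞 L) L d) =
      P.valuation L (algebraMap (𝓞 L) L n) := by rw [← map_mul, hnd]
  rw [HeightOneSpectrum.valuation_of_algebraMap, HeightOneSpectrum.valuation_of_algebraMap,
    (P.intValuation_eq_one_iff_mem_primeCompl d).2 hd,
    (P.intValuation_eq_one_iff_mem_primeCompl n).2 hn, mul_one] at h2
  exact h2

/-- `A` above `P`, `A.valuation x = 1` ⟹ `P.valuation x = 1` -/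
lemma adic_valuation_eq_one {A : ValuationSubring Qb} (P : HeightOneSpectrum (𝓞 L))
    (hAP : ∀ x : 𝓞 L, x ∈ P.asIdeal ↔ ((x : L) : Qb) ∈ A.nonunits) (x : L)
    (hA : A.valuation (x : Qb) = 1) : P.valuation L x = 1 := by
  have hx0 : x ≠ 0 := by
    rintro rfl
    simp at hA
  rcases le_total (P.valuation L x) 1 with h | h
  · exact adic_valuation_eq_one_of_le P hAP x hA h
  · have hinv : A.valuation ((x⁻¹ : L) : Qb) = 1 := by
      push_cast
      rw [map_inv₀, hA, inv_one]
    have hle : P.valuation L x⁻¹ ≤ 1 := by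
      rw [map_inv₀]
      exact inv_le_one_of_one_le₀ h
    have := adic_valuation_eq_one_of_le P hAP x⁻¹ hinv hle
    rw [map_inv₀, inv_eq_one] at this
    exact this

/-- Every nonzero prime of `𝓞 L` contains a rational prime. -/
lemma exists_natPrime_mem (P : HeightOneSpectrum (𝓞 L)) :
    ∃ ℓ : ℕ, ℓ.Prime ∧ (ℓ : 𝓞 L) ∈ P.asIdeal := by
  have : Finite (𝓞 L ⧸ P.asIdeal) := Ideal.finiteQuotientOfFreeOfNeBot P.asIdeal P.ne_bot
  have : IsDomain (𝓞 L ⧸ P.asIdeal) := Ideal.Quotient.isDomain P.asIdeal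
  obtain ⟨ℓ, hℓ⟩ := CharP.exists (𝓞 L ⧸ P.asIdeal)
  refine ⟨ℓ, ?_, ?_⟩
  · exact (CharP.char_is_prime_or_zero (𝓞 L ⧸ P.asIdeal) ℓ).resolve_right
      (CharP.char_ne_zero_of_finite (𝓞 L ⧸ P.asIdeal) ℓ)
  · rw [← Ideal.Quotient.eq_zero_iff_mem, map_natCast]
    exact CharP.cast_eq_zero _ ℓ

lemma liesOverPrime_of_natCast_mem {A : ValuationSubring Qb} {P : Ideal (𝓞 L)}
    (hAP : ∀ x : 𝓞 L, x ∈ P ↔ ((x : L) : Qb) ∈ A.nonunits) {ℓ : ℕ} (hℓ : (ℓ : 𝓞 L) ∈ P) :
    A.LiesOverPrime ℓ := by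
  have := (hAP _).mp hℓ
  simpa [ValuationSubring.LiesOverPrime] using this

/-- **(D-a)** an `S`-unit (valuation-subring sense) lying in `L` is a unit of `L` away from the
primes above `S`. -/
theorem mem_unit_primesAbove_of_isSUnit (T : Finset Nat.Primes) (u : Lˣ)
    (hu : IsSUnit T (((u : L) : Qb))) :
    u ∈ ((primesAbove L T : Finset (HeightOneSpectrum (𝓞 L))) :
      Set (HeightOneSpectrum (𝓞 L))).unit L := by
  intro P hP
  have hP' : P ∉ primesAbove L T := by simpa using hP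
  have := P.isPrime
  obtain ⟨ℓ, hℓ, hℓP⟩ := exists_natPrime_mem P
  have hℓT : (⟨ℓ, hℓ⟩ : Nat.Primes) ∉ T := by
    intro h
    exact hP' (mem_primesAbove.2 ⟨⟨ℓ, hℓ⟩, h, hℓP⟩)
  obtain ⟨A, hAP⟩ := Fermat.Agent.S14.Reduction.exists_valuationSubring_above L P.asIdeal P.ne_bot
  have hAℓ : A.LiesOverPrime ℓ := liesOverPrime_of_natCast_mem hAP hℓP
  exact adic_valuation_eq_one P hAP (u : L) (hu ⟨ℓ, hℓ⟩ hℓT A hAℓ)


variable (L)

/-- `𝓞 L → A` for a valuation subring `A` of `ℚ̄` -/
noncomputable def toValOn (A : ValuationSubring Qb) : 𝓞 L →+* A where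
  toFun y := ⟨((y : L) : Qb), coe_int_mem_valuationSubring L A y⟩
  map_one' := by
    apply Subtype.ext
    simp
  map_mul' x y := by
    apply Subtype.ext
    simp
  map_zero' := by
    apply Subtype.ext
    simp
  map_add' x y := by
    apply Subtype.ext
    simp

/-- the center of a valuation subring of `ℚ̄` on `𝓞 L` -/
noncomputable def centerOn (A : ValuationSubring Qb) : Ideal (𝓞 L) :=
  (IsLocalRing.maximalIdeal A).comap (toValOn L A)

lemma mem_centerOn (A : ValuationSubring Qb) (y : 𝓞 L) :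
    y ∈ centerOn L A ↔ ((y : L) : Qb) ∈ A.nonunits := by
  unfold centerOn
  rw [Ideal.mem_comap, A.valuation_lt_one_iff, A.mem_nonunits_iff]
  rfl

instance centerOn_isPrime (A : ValuationSubring Qb) : (centerOn L A).IsPrime :=
  Ideal.comap_isPrime _ _

lemma natCast_mem_centerOn {A : ValuationSubring Qb} {q : ℕ} (hA : A.LiesOverPrime q) :
    ((q : ℕ) : 𝓞 L) ∈ centerOn L A := by
  rw [mem_centerOn]
  have : (((q : 𝓞 L) : L) : Qb) = (q : Qb) := by simp
  rw [this]
  exact hA

lemma centerOn_ne_bot {A : ValuationSubring Qb} {q : ℕ} (hq : q ≠ 0) (hA : A.LiesOverPrime q) :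
    centerOn L A ≠ ⊥ := by
  intro h
  have h1 := natCast_mem_centerOn L hA
  rw [h, Ideal.mem_bot] at h1
  exact hq (by exact_mod_cast h1)

/-- the center as a height one prime -/
noncomputable def centerPrime {A : ValuationSubring Qb} {q : ℕ} (hq : q ≠ 0)
    (hA : A.LiesOverPrime q) : HeightOneSpectrum (𝓞 L) :=
  ⟨centerOn L A, inferInstance, centerOn_ne_bot L hq hA⟩

variable {L}

/-- **(D-b)** a unit of `L` away from the primes above `S` is an `S`-unit in the valuation-subring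
sense. -/
theorem isSUnit_of_mem_unit_primesAbove (T : Finset Nat.Primes) (u : Lˣ)
    (hu : u ∈ ((primesAbove L T : Finset (HeightOneSpectrum (𝓞 L))) :
      Set (HeightOneSpectrum (𝓞 L))).unit L) : IsSUnit T (((u : L) : Qb)) := by
  intro q hq A hA
  set P : HeightOneSpectrum (𝓞 L) := centerPrime L q.2.ne_zero hA with hPdef
  have hAP : ∀ x : 𝓞 L, x ∈ P.asIdeal ↔ ((x : L) : Qb) ∈ A.nonunits := fun x => mem_centerOn L A x
  have hqP : ((q : ℕ) : 𝓞 L) ∈ P.asIdeal := natCast_mem_centerOn L hA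
  have hPT : P ∉ primesAbove L T := by
    intro h
    obtain ⟨q', hq'T, hq'P⟩ := mem_primesAbove.1 h
    have hne : (q' : ℕ) ≠ (q : ℕ) := by
      intro he
      apply hq
      have : q' = q := Subtype.ext he
      rwa [← this]
    have hcop : IsCoprime ((q' : ℕ) : ℤ) ((q : ℕ) : ℤ) := by
      rw [Nat.isCoprime_iff_coprime]
      exact (Nat.coprime_primes q'.2 q.2).2 hne
    obtain ⟨a, b, hab⟩ := hcop
    have h1 : (1 : 𝓞 L) ∈ P.asIdeal := by
      have h2 : ((a : ℤ) : 𝓞 L) * ((q' : ℕ) : 𝓞 L) + ((b : ℤ) : 𝓞 L) * ((q : ℕ) : 𝓞 L) = 1 := by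
        have := congrArg (fun z : ℤ => (z : 𝓞 L)) hab
        simpa using this
      rw [← h2]
      exact P.asIdeal.add_mem (P.asIdeal.mul_mem_left _ hq'P) (P.asIdeal.mul_mem_left _ hqP)
    exact P.isPrime.ne_top ((Ideal.eq_top_iff_one _).2 h1)
  have hPu : P.valuation L (u : L) = 1 := hu P (by simpa using hPT)
  obtain ⟨n, d, hnd⟩ := P.exists_primeCompl_mul_eq_of_integer (u : L) hPu.le
  have hd : (d : 𝓞 L) ∉ P.asIdeal := d.2
  have hn : n ∉ P.asIdeal := by
    have h2 : P.valuation L (u : L) * P.valuation L (algebraMap (𝓞 L) L d) =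
        P.valuation L (algebraMap (𝓞 L) L n) := by rw [← map_mul, hnd]
    rw [hPu, one_mul, HeightOneSpectrum.valuation_of_algebraMap,
      HeightOneSpectrum.valuation_of_algebraMap,
      (P.intValuation_eq_one_iff_mem_primeCompl d).2 hd] at h2
    exact (P.intValuation_eq_one_iff_mem_primeCompl n).1 h2.symm
  have hdA : A.valuation (((d : 𝓞 L) : L) : Qb) = 1 := (valuation_coe_int_eq_one_iff hAP _).2 hd
  have hnA : A.valuation ((n : L) : Qb) = 1 := (valuation_coe_int_eq_one_iff hAP _).2 hn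
  have h1 : ((n : L) : Qb) = ((u : L) : Qb) * (((d : 𝓞 L) : L) : Qb) := by
    have := congrArg (fun y : L => (y : Qb)) hnd
    simpa using this.symm
  rw [h1, map_mul, hdA, mul_one] at hnA
  exact hnA

end Fermat.Agent.GC.KumXF
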