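/-
GATE-C / C4 Kummer-index stream (helper51).  **X-FINITE**: for `K ⊂ Q_S` finite over `ℚ`,
`Hlc¹(G_{K,S}, O_S^×)` (helper78's `sUnitsK S K` over helper69's `levelK S K`) is FINITE, of order at
most `#Cl_S(K)` (`ClS (primesAbove K S)`).  Input of (N-d) EULER (C5 RULING 1813 (5)).

Route: (A) Hilbert 90 in the limit: every class is `g ↦ g b / b`, `b ∈ Q_S^×`; two such classes agree
as soon as `b = b' · a · u`, `a ∈ Kˣ`, `u ∈ O_S^×`.  (B) finitely many `b`'s lie in a common finite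
Galois `L ⊂ Q_S` over `K`.  (C) in the T14 binders for `L/K`: `b ∈ invDivSub`, (XF-core, `H1Fin.lean`)
`descHom b ∈ Cl_S(K)` with kernel `Kˣ · U_{S_L}`, and the dictionary `SUnitDict.lean`.  (D) pigeonhole:
a finite subset of `Hlc¹` injects into `Cl_S(K)`; no compatibility between levels is needed.
-/
import Mathlib
import Fermat.Agent.GC.Kummer.HlcMu
import Fermat.Agent.GC.Kummer.HlcH90
import Fermat.Agent.GC.Kummer.SUnitDict
import Fermat.Agent.GC.Kummer.H1Fin
import Fermat.Agent.GC.Global.Adapter.UnramBridge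

set_option autoImplicit false
set_option linter.unusedSectionVars false
set_option linter.style.haveILetI false

open NumberField IsDedekindDomain

noncomputable section

namespace Fermat.Agent.GC.KumXF

open Fermat.Agent.GC.KumH

open Fermat.Agent.GC.Prof Fermat.Agent.GC.C0 Fermat.Agent.GC.Places groupCohomology
open Fermat.Agent.GC.Global.Adapter
open scoped Pointwise

local notation "Qb" => AlgebraicClosure ℚ
local notation "GQ" => (AlgebraicClosure ℚ ≃ₐ[ℚ] AlgebraicClosure ℚ)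

local instance isAlgebraicQbar_h1lim : Algebra.IsAlgebraic ℚ (AlgebraicClosure ℚ) :=
  AlgebraicClosure.isAlgebraic ℚ
local instance isAlgClosureQbar_h1lim : IsAlgClosure ℚ (AlgebraicClosure ℚ) :=
  ⟨inferInstance, inferInstance⟩
local instance normalQbar_h1lim : Normal ℚ (AlgebraicClosure ℚ) :=
  IsAlgClosure.normal ℚ (AlgebraicClosure ℚ)
local instance isGaloisQbar_h1lim : IsGalois ℚ (AlgebraicClosure ℚ) := ⟨⟩

variable {S : Finset Nat.Primes} {K : IntermediateField ℚ Qb} [FiniteDimensional ℚ K]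

/-- **Step A1.** Every class in `Hlc¹(G_{K,S}, O_S^×)` is represented by a cocycle `g ↦ g b / b` with
`b ∈ Q_S^×` (Hilbert 90 in the limit). -/
theorem exists_unit_rep (hK : K.IsUnramifiedOutside S)
    (x : Hlc (levelK S K) (sUnitsK S K) 1) :
    ∃ (z : lcCocycles₁ (levelK S K) (sUnitsK S K)) (b : Qbˣ),
      Hlc1π (levelK S K) (sUnitsK S K) z = x ∧ b ∈ unitsQS S ∧
        ∀ g : K.fixingSubgroup, (g : GQ) • b / b =
          sUnitsS.unit S ((z : K.fixingSubgroup → sUnitsK S K) g) := by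
  obtain ⟨z, rfl⟩ := Hlc1π_surjective (levelK S K) (sUnitsK S K) x
  obtain ⟨hzc, U, hU, hUz⟩ := (mem_lcCocycles₁_iff _ _ _).1 z.2
  obtain ⟨V, ⟨F, hF, rfl⟩, rfl⟩ := hU
  rw [mem_cocycles₁_iff] at hzc
  have := hK.1
  have := hF.1
  obtain ⟨b, hbKF, hb⟩ := exists_smul_div_eq_of_cocycle K
    (fun g => sUnitsS.unit S ((z : K.fixingSubgroup → sUnitsK S K) g))
    (fun g h => by
      show sUnitsS.unit S ((z : K.fixingSubgroup → sUnitsK S K) (g * h)) = _
      rw [hzc g h]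
      rfl) F
    (fun g s hs => by
      show sUnitsS.unit S ((z : K.fixingSubgroup → sUnitsK S K) (g * s)) = _
      rw [hUz g s hs])
  exact ⟨z, b, rfl, ⟨K ⊔ F, hK.sup hF, hbKF⟩, hb⟩

/-- **Step A2.** Two classes with Hilbert-90 representatives `b`, `b'` such that
`b = b' * a * u`, `a` fixed by `G_K`, `u ∈ O_S^×`, are equal. -/
theorem hlc1π_eq_of_units (z z' : lcCocycles₁ (levelK S K) (sUnitsK S K)) (b b' : Qbˣ)
    (hb : ∀ g : K.fixingSubgroup, (g : GQ) • b / b =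
      sUnitsS.unit S ((z : K.fixingSubgroup → sUnitsK S K) g))
    (hb' : ∀ g : K.fixingSubgroup, (g : GQ) • b' / b' =
      sUnitsS.unit S ((z' : K.fixingSubgroup → sUnitsK S K) g))
    (a : Qbˣ) (ha : ∀ g : K.fixingSubgroup, (g : GQ) • a = a)
    (u : Qbˣ) (hu : u ∈ sUnitsQS S) (h : b = b' * a * u) :
    Hlc1π (levelK S K) (sUnitsK S K) z = Hlc1π (levelK S K) (sUnitsK S K) z' := by
  rw [← sub_eq_zero, ← map_sub, Hlc1π_eq_zero_iff]
  refine ⟨sUnitsS.mk S u hu, ?_⟩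
  funext g
  apply sUnitsS.unit_injective
  have h1 : sUnitsS.unit S (((z - z' : lcCocycles₁ (levelK S K) (sUnitsK S K)) :
      K.fixingSubgroup → sUnitsK S K) g) =
      sUnitsS.unit S ((z : K.fixingSubgroup → sUnitsK S K) g) /
        sUnitsS.unit S ((z' : K.fixingSubgroup → sUnitsK S K) g) := rfl
  rw [h1, ← hb g, ← hb' g, h, smul_mul', smul_mul', ha g]
  have h2 : sUnitsS.unit S ((d₀₁ (sUnitsK S K)).hom (sUnitsS.mk S u hu) g) = (g : GQ) • u / u := rfl
  rw [h2, mul_div_mul_comm, mul_div_mul_comm, div_self', mul_one, mul_div_cancel_left]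


/-- **Step B.** Finitely many elements of `Q_S^×` lie in a common finite Galois extension `L/ℚ`
unramified outside `S` and containing `K`. -/
theorem exists_common_galois (hK : K.IsUnramifiedOutside S) (s : Finset Qbˣ)
    (hs : ∀ b ∈ s, b ∈ unitsQS S) :
    ∃ L : IntermediateField ℚ Qb, L.IsUnramifiedOutside S ∧ IsGalois ℚ L ∧ K ≤ L ∧
      ∀ b ∈ s, ((b : Qbˣ) : Qb) ∈ L := by
  classical
  choose! F hF hbF using hs
  let F0 : IntermediateField ℚ Qb := K ⊔ ⨆ b : s, F b.1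
  have hF0 : F0.IsUnramifiedOutside S :=
    hK.sup (isUnramifiedOutside_iSup (fun b : s => F b.1) (fun b => hF b.1 b.2))
  have := hF0.1
  refine ⟨IntermediateField.normalClosure ℚ F0 Qb, isUnramifiedOutside_normalClosure hF0, ?_, ?_, ?_⟩
  · have hn : Normal ℚ (IntermediateField.normalClosure ℚ F0 Qb) :=
      normalClosure.normal ℚ F0 Qb
    exact ⟨⟩
  · exact (le_sup_left : K ≤ F0).trans (IntermediateField.le_normalClosure F0)
  · intro b hb
    apply IntermediateField.le_normalClosure F0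
    apply (le_sup_right : (⨆ b : s, F b.1) ≤ F0)
    exact (le_iSup (fun b : s => F b.1) ⟨b, hb⟩) (hbF b hb)


/-! ### Step C: a finite Galois level `L ⊇ K` in the T14 binders -/

section StepC

open Fermat.Agent.GC.Kummer

/-- generic: the primes of `N` above the primes of `K` above `T` are the primes of `N` above `T` -/
lemma aboveSet_primesAbove {K' N' : Type*} [Field K'] [NumberField K'] [Field N'] [NumberField N']
    [Algebra K' N'] (T : Finset Nat.Primes) :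
    aboveSet N' (primesAbove K' T) =
      ((primesAbove N' T : Finset (HeightOneSpectrum (𝓞 N'))) : Set (HeightOneSpectrum (𝓞 N'))) := by
  ext P
  rw [mem_aboveSet, Finset.mem_coe, mem_primesAbove, mem_primesAbove]
  refine exists_congr fun q => and_congr_right fun _ => ?_
  rw [HeightOneSpectrum.under_asIdeal, Ideal.under_def, Ideal.mem_comap, map_natCast]

variable (S) (K) (L : IntermediateField ℚ Qb) [FiniteDimensional ℚ L] [IsGalois ℚ L]
  [Algebra ↥K ↥L] (halg : ∀ x : K, ((algebraMap ↥K ↥L x : L) : Qb) = (x : Qb))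

include halg in
/-- every `τ ∈ Gal(L/K)` is the restriction of some `g ∈ G_K` -/
lemma exists_lift_gal (τ : ↥L ≃ₐ[↥K] ↥L) :
    ∃ g : K.fixingSubgroup, ∀ x : L, (g : GQ) (x : Qb) = ((τ x : L) : Qb) := by
  let τQ : ↥L ≃ₐ[ℚ] ↥L := AlgEquiv.ofRingEquiv (f := (τ : ↥L ≃+* ↥L)) (fun r => by simp)
  let σ : GQ := τQ.liftNormal Qb
  have hσ : ∀ x : L, σ (x : Qb) = ((τ x : L) : Qb) := fun x => τQ.liftNormal_commutes Qb x
  refine ⟨⟨σ, ?_⟩, hσ⟩
  rw [IntermediateField.mem_fixingSubgroup_iff]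
  intro x hx
  have h1 := hσ (algebraMap ↥K ↥L ⟨x, hx⟩)
  rw [τ.commutes, halg] at h1
  exact h1


/-- an element of `ℚ̄ˣ` lying in `L`, as a unit of `L` -/
def toLUnit (b : Qbˣ) (hb : ((b : Qbˣ) : Qb) ∈ L) : (↥L)ˣ :=
  Units.mk0 ⟨(b : Qb), hb⟩ (by
    intro h
    exact b.ne_zero (congrArg (fun x : L => (x : Qb)) h))

@[simp] lemma coe_toLUnit (b : Qbˣ) (hb : ((b : Qbˣ) : Qb) ∈ L) :
    (((toLUnit L b hb : (↥L)ˣ) : L) : Qb) = (b : Qb) := rfl

/-- a unit of `L` as an element of `ℚ̄ˣ` -/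
def ofLUnit (u : (↥L)ˣ) : Qbˣ := Units.map (algebraMap ↥L Qb : ↥L →* Qb) u

@[simp] lemma coe_ofLUnit (u : (↥L)ˣ) : ((ofLUnit L u : Qbˣ) : Qb) = ((u : L) : Qb) := rfl

lemma ofLUnit_mem_sUnitsQS (hL : L.IsUnramifiedOutside S) (u : (↥L)ˣ)
    (hu : u ∈ ((primesAbove ↥L S : Finset (HeightOneSpectrum (𝓞 ↥L))) :
      Set (HeightOneSpectrum (𝓞 ↥L))).unit ↥L) : ofLUnit L u ∈ sUnitsQS S :=
  ⟨⟨L, hL, (u : L).2⟩, isSUnit_of_mem_unit_primesAbove S u hu⟩

include halg in
/-- **(C2)** if `g b / b ∈ O_S^×` for all `g ∈ G_K`, then `b ∈ 𝒳(L/K)` -/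
lemma toLUnit_mem_invDivSub (b : Qbˣ) (hbL : ((b : Qbˣ) : Qb) ∈ L)
    (hb : ∀ g : K.fixingSubgroup, (g : GQ) • b / b ∈ sUnitsQS S) :
    toLUnit L b hbL ∈ invDivSub (N := ↥L) ↥K (primesAbove ↥K S) := by
  intro τ
  rw [aboveSet_primesAbove]
  apply mem_unit_primesAbove_of_isSUnit
  obtain ⟨g, hg⟩ := exists_lift_gal K L halg τ
  have h1 : (((galU τ (toLUnit L b hbL) / toLUnit L b hbL : (↥L)ˣ) : L) : Qb) =
      (((g : GQ) • b / b : Qbˣ) : Qb) := by
    have h2 := hg ((toLUnit L b hbL : (↥L)ˣ) : L)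
    rw [coe_toLUnit] at h2
    rw [Units.val_div_eq_div_val, Units.val_div_eq_div_val]
    push_cast
    rw [coe_toLUnit]
    congr 1
    exact h2.symm
  rw [h1]
  exact (hb g).2

include halg in
/-- **(C3)** if `b/b' ∈ Kˣ · U_{S_L}` in `L`, then `b = b' * a * u` with `a` fixed by `G_K` and
`u ∈ O_S^×` -/
lemma exists_fixed_mul_sUnit (hL : L.IsUnramifiedOutside S) (b b' : Qbˣ)
    (hbL : ((b : Qbˣ) : Qb) ∈ L) (hbL' : ((b' : Qbˣ) : Qb) ∈ L)
    (h : toLUnit L b hbL / toLUnit L b' hbL' ∈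
      (inclU ↥K ↥L).range ⊔ (aboveSet ↥L (primesAbove ↥K S)).unit ↥L) :
    ∃ (a u : Qbˣ), (∀ g : K.fixingSubgroup, (g : GQ) • a = a) ∧ u ∈ sUnitsQS S ∧
      b = b' * a * u := by
  rw [Subgroup.mem_sup] at h
  obtain ⟨_, ⟨a₀, rfl⟩, u₀, hu₀, hau⟩ := h
  rw [aboveSet_primesAbove] at hu₀
  refine ⟨ofLUnit L (inclU ↥K ↥L a₀), ofLUnit L u₀, ?_, ofLUnit_mem_sUnitsQS S L hL u₀ hu₀, ?_⟩
  · intro g
    apply Units.ext
    have hg := g.2
    rw [IntermediateField.mem_fixingSubgroup_iff] at hg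
    have h1 : ((ofLUnit L (inclU ↥K ↥L a₀) : Qbˣ) : Qb) = ((a₀ : ↥K) : Qb) := by
      rw [coe_ofLUnit]
      exact halg (a₀ : ↥K)
    show (g : GQ) ((ofLUnit L (inclU ↥K ↥L a₀) : Qbˣ) : Qb) = _
    rw [h1]
    exact hg _ (a₀ : ↥K).2
  · apply Units.ext
    have h2 := congrArg (fun w : (↥L)ˣ => ((w : L) : Qb)) hau
    simp only [Units.val_mul, Units.val_div_eq_div_val] at h2
    push_cast at h2
    rw [coe_toLUnit, coe_toLUnit] at h2
    rw [Units.val_mul, Units.val_mul, coe_ofLUnit, coe_ofLUnit, mul_assoc, h2,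
      mul_div_cancel₀ _ b'.ne_zero]

end StepC


section StepD

open Fermat.Agent.GC.Kummer

lemma finite_and_card_le_of_finset {α : Type*} {n : ℕ} (H : ∀ s : Finset α, s.card ≤ n) :
    Finite α ∧ Nat.card α ≤ n := by
  have h1 : Cardinal.mk α ≤ n := Cardinal.card_le_of H
  have hfin : Finite α :=
    Cardinal.lt_aleph0_iff_finite.1 (h1.trans_lt (Cardinal.natCast_lt_aleph0))
  refine ⟨hfin, ?_⟩
  have := Cardinal.toNat_le_toNat h1 (Cardinal.natCast_lt_aleph0)
  simpa [Nat.card] using this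

/-- **X-FINITE.**  For `K ⊂ Q_S` finite over `ℚ`, `H¹(G_{K,S}, O_S^×)` is finite, of order at most
`#Cl_S(K)`. -/
theorem finite_hlc_one_sUnitsK (hK : K.IsUnramifiedOutside S) :
    Finite (Hlc (levelK S K) (sUnitsK S K) 1) ∧
      Nat.card (Hlc (levelK S K) (sUnitsK S K) 1) ≤ Nat.card (ClS (primesAbove ↥K S)) := by
  classical
  apply finite_and_card_le_of_finset
  intro s
  choose z b hzx hbQ hb using fun x => exists_unit_rep hK x
  obtain ⟨L, hL, hLgal, hKL, hbL⟩ := exists_common_galois hK (s.image b) (by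
    intro c hc
    obtain ⟨x, -, rfl⟩ := Finset.mem_image.1 hc
    exact hbQ x)
  have := hL.1
  letI algKL : Algebra ↥K ↥L := (IntermediateField.inclusion hKL).toRingHom.toAlgebra
  have halg : ∀ x : K, ((algebraMap ↥K ↥L x : L) : Qb) = (x : Qb) := fun x => rfl
  have : IsScalarTower ℚ ↥K ↥L := IsScalarTower.of_algebraMap_eq (fun x => rfl)
  have : IsGalois ↥K ↥L := IsGalois.tower_top_of_isGalois ℚ ↥K ↥L
  have hu : UnramOutside ↥K ↥L (primesAbove ↥K S) :=
    unramOutside_of_hunr _ (UnramBridge.hunr_engine L S ↥L ↥K hL (primesAbove ↥K S)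
      (fun q hq v hv => mem_primesAbove.2 ⟨q, hq, hv⟩))
  have hbs : ∀ x ∈ s, (((b x : Qbˣ) : Qb)) ∈ L := fun x hx => hbL _ (Finset.mem_image_of_mem b hx)
  have hbU : ∀ x, ∀ g : K.fixingSubgroup, (g : GQ) • b x / b x ∈ sUnitsQS S := by
    intro x g
    rw [hb x g]
    exact sUnitsS.unit_mem S _
  let φ : (↥s) → ClS (primesAbove ↥K S) := fun x =>
    descHom ↥L (primesAbove ↥K S) ⟨toLUnit L (b x.1) (hbs x.1 x.2),
      toLUnit_mem_invDivSub S K L halg (b x.1) (hbs x.1 x.2) (hbU x.1)⟩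
  have hφ : Function.Injective φ := by
    intro x y hxy
    have h1 : descHom ↥L (primesAbove ↥K S) (⟨toLUnit L (b x.1) (hbs x.1 x.2),
        toLUnit_mem_invDivSub S K L halg (b x.1) (hbs x.1 x.2) (hbU x.1)⟩ /
        ⟨toLUnit L (b y.1) (hbs y.1 y.2),
        toLUnit_mem_invDivSub S K L halg (b y.1) (hbs y.1 y.2) (hbU y.1)⟩) = 1 := by
      rw [map_div]
      exact div_eq_one.2 hxy
    rw [descHom_eq_one_iff hu] at h1
    obtain ⟨a, u, ha, hu', habu⟩ := exists_fixed_mul_sUnit S K L halg hL (b x.1) (b y.1)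
      (hbs x.1 x.2) (hbs y.1 y.2) h1
    have h2 := hlc1π_eq_of_units (z x.1) (z y.1) (b x.1) (b y.1) (hb x.1) (hb y.1) a ha u hu' habu
    rw [hzx, hzx] at h2
    exact Subtype.ext h2
  have : Fintype (ClS (primesAbove ↥K S)) := Fintype.ofFinite _
  have h3 := Fintype.card_le_of_injective φ hφ
  rw [Fintype.card_coe] at h3
  rwa [Nat.card_eq_fintype_card]

end StepD

end Fermat.Agent.GC.KumXF
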