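/-
GATE-C / BASE-KUM (B6), helper78.  Localisation of the Kummer sequence: for a place `ι ∘ s` of `K`
(`s : G_ℚ`, `ι = padicEmbedding q`), the map `u ↦ ι (s u)` is a morphism from the global Kummer
sequence `0 → ℤ/p → O_S^× → O_S^× → 0` of `G_K`-modules (restricted along
`locHomAlg q K s : Gal(ℚ̄_q / K_w) → G_K`) to the local Kummer sequence `0 → μ_p → Ω^× → Ω^× → 0`
(`Ω = PadicAlgCl q`, helper81's `Abs.muKummer`), and the induced maps on `Hlc` commute with the
Kummer connecting maps and with the inclusions of `μ_p`.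
-/
import Mathlib
import Fermat.Agent.GC.Kummer.HlcMu
import Fermat.Agent.GC.Local.Abs.Kummer

set_option autoImplicit false

open CategoryTheory

noncomputable section

namespace Fermat.Agent.GC.KumH

open Fermat.Agent.GC.Prof Fermat.Agent.GC.C0 Fermat.Agent.GC.Places Fermat.Agent.GC.Local.Abs
  Fermat.Agent.GC.Local.KR groupCohomology

local notation "Qb" => AlgebraicClosure ℚ
local notation "GQ" => (AlgebraicClosure ℚ ≃ₐ[ℚ] AlgebraicClosure ℚ)

/-! ### Lifting a morphism killed by `c` to the `c`-torsion -/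

section Generic

universe u

variable {k G : Type u} [CommRing k] [Group G] {B A : Rep.{u} k G} (c : k)

/-- A morphism `f : B ⟶ A` with `c • f = 0` factors through the `c`-torsion of `A`. -/
def torsLift (f : B ⟶ A) (hf : ∀ b : B, c • f.hom b = 0) : B ⟶ torsRep A c :=
  Rep.ofHom (ρ := B.ρ) (σ := A.ρ.subrepresentation (torsSub A c) (torsSub_le_comap A c))
    { toLinearMap := LinearMap.codRestrict (torsSub A c) f.hom.toLinearMap
        (fun b => (mem_torsSub_iff A c _).2 (hf b))
      isIntertwining' := fun g => by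
        apply LinearMap.ext
        intro b
        apply Subtype.ext
        exact Rep.hom_comm_apply f g b }

lemma torsι_torsLift (f : B ⟶ A) (hf : ∀ b : B, c • f.hom b = 0) (b : B) :
    (torsι A c).hom ((torsLift c f hf).hom b) = f.hom b := rfl

lemma torsLift_comp_torsι (f : B ⟶ A) (hf : ∀ b : B, c • f.hom b = 0) :
    torsLift c f hf ≫ torsι A c = f := by
  apply Rep.hom_ext
  apply Representation.IntertwiningMap.ext
  apply LinearMap.ext
  intro b
  rfl

end Generic

variable (S : Finset Nat.Primes) (q : ℕ) [Fact q.Prime] (K : IntermediateField ℚ Qb) (s : GQ)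

/-! ### The localisation map on coefficients -/

/-- `u ↦ ι (s u)` on units. -/
def locEmbU : Qbˣ →* (PadicAlgCl q)ˣ :=
  Units.map ((((padicEmbedding q : Qb →ₐ[ℚ] PadicAlgCl q) : Qb →+* PadicAlgCl q).comp
    ((s : Qb →ₐ[ℚ] Qb) : Qb →+* Qb) : Qb →+* PadicAlgCl q) : Qb →* PadicAlgCl q)

@[simp] lemma coe_locEmbU (u : Qbˣ) :
    ((locEmbU q s u : (PadicAlgCl q)ˣ) : PadicAlgCl q) = padicEmbedding q (s (u : Qb)) := rfl

lemma locEmbU_injective : Function.Injective (locEmbU q s) := by
  intro u v h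
  have h1 := congrArg (fun w : (PadicAlgCl q)ˣ => (w : PadicAlgCl q)) h
  simp only [coe_locEmbU] at h1
  exact Units.ext (s.injective ((padicEmbedding q).injective h1))

/-- Equivariance of `u ↦ ι (s u)` along `locHomAlg`. -/
lemma locEmbU_smul (σ : PadicAlgCl q ≃ₐ[locField q K s] PadicAlgCl q) (u : Qbˣ) :
    locEmbU q s (((locHomAlg q K s σ : K.fixingSubgroup) : GQ) • u) =
      Units.map (σ : PadicAlgCl q →* PadicAlgCl q) (locEmbU q s u) := by
  apply Units.ext
  show padicEmbedding q (s ((((locHomAlg q K s σ : K.fixingSubgroup) : GQ)) (u : Qb))) =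
    σ (padicEmbedding q (s (u : Qb)))
  rw [locHomAlg_apply, coe_locHom]
  show padicEmbedding q (s (s⁻¹ (localGaloisToGlobal q
    (((locGroupEquiv q K s).symm σ : locGroup q K s) : Gq q) (s (u : Qb))))) = _
  have h1 : s (s⁻¹ (localGaloisToGlobal q
      (((locGroupEquiv q K s).symm σ : locGroup q K s) : Gq q) (s (u : Qb)))) =
      localGaloisToGlobal q (((locGroupEquiv q K s).symm σ : locGroup q K s) : Gq q)
        (s (u : Qb)) := s.apply_symm_apply _
  rw [h1, padicEmbedding_localGaloisToGlobal]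
  rfl

/-- The localisation map `O_S^× → Ω^×`, `u ↦ ι (s u)`, as an additive map. -/
def locSUnitsAdd : sUnitsS S →+ unitsRep (locField q K s) (PadicAlgCl q) :=
  ((locEmbU q s).comp (sUnitsQS S).subtype).toAdditive

lemma toU_locSUnitsAdd (a : sUnitsS S) :
    toU (locField q K s) (PadicAlgCl q) (locSUnitsAdd S q K s a) =
      locEmbU q s (sUnitsS.unit S a) := rfl

lemma locSUnitsAdd_injective : Function.Injective (locSUnitsAdd S q K s) := by
  intro a b h
  apply sUnitsS.unit_injective
  apply locEmbU_injective q s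
  exact congrArg (toU (locField q K s) (PadicAlgCl q)) h

/-- **The localisation morphism** `Res_{locHomAlg} O_S^× ⟶ Ω^×` of `Gal(Ω/K_w)`-modules. -/
def locSUnitsHom : Rep.res (locHomAlg q K s) (sUnitsK S K) ⟶
    unitsRep (locField q K s) (PadicAlgCl q) :=
  Rep.ofHom
    { toLinearMap := (locSUnitsAdd S q K s).toIntLinearMap
      isIntertwining' := fun σ => by
        apply LinearMap.ext
        intro a
        apply toU_injective (locField q K s) (PadicAlgCl q)
        exact locEmbU_smul q K s σ (sUnitsS.unit S a) }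

lemma locSUnitsHom_hom_apply (a : sUnitsS S) :
    (locSUnitsHom S q K s).hom a = locSUnitsAdd S q K s a := rfl

lemma locSUnitsHom_injective : Function.Injective (locSUnitsHom S q K s).hom :=
  locSUnitsAdd_injective S q K s

/-! ### The morphism of Kummer sequences -/

section Mu

variable {S} {p : ℕ} [NeZero p] {ζ : Qbˣ} (hζ : IsPrimitiveRoot ζ p) (hζS : ζ ∈ sUnitsQS S)
  (hζK : ((ζ : Qbˣ) : Qb) ∈ K)

/-- The localisation `ℤ/p → μ_p(Ω)`, `a ↦ ι (s ζ)^a`, as a morphism of `Gal(Ω/K_w)`-modules. -/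
def locMuHom : Rep.res (locHomAlg q K s) (Rep.trivial ℤ K.fixingSubgroup (ZMod p)) ⟶
    muRep (locField q K s) (PadicAlgCl q) p :=
  torsLift (p : ℤ)
    ((Rep.resFunctor (locHomAlg q K s)).map (muι K hζ hζS hζK) ≫ locSUnitsHom S q K s)
    (fun b => by
      show (p : ℤ) • locSUnitsAdd S q K s (muAdd hζ hζS b) = 0
      rw [← map_zsmul, p_smul_muAdd, map_zero])

lemma locMuHom_comp_muι :
    locMuHom q K s hζ hζS hζK ≫ Local.Abs.muι (locField q K s) (PadicAlgCl q) p =
      (Rep.resFunctor (locHomAlg q K s)).map (muι K hζ hζS hζK) ≫ locSUnitsHom S q K s :=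
  torsLift_comp_torsι _ _ _

lemma muι_locMuHom (a : ZMod p) :
    (Local.Abs.muι (locField q K s) (PadicAlgCl q) p).hom ((locMuHom q K s hζ hζS hζK).hom a) =
      locSUnitsAdd S q K s (muAdd hζ hζS a) := rfl

lemma locMuHom_injective : Function.Injective (locMuHom q K s hζ hζS hζK).hom := by
  intro a b h
  apply muAdd_injective hζ hζS
  apply locSUnitsAdd_injective S q K s
  have h1 := congrArg (Local.Abs.muι (locField q K s) (PadicAlgCl q) p).hom h
  exact h1

lemma locMuHom_surjective : Function.Surjective (locMuHom q K s hζ hζS hζK).hom := by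
  intro y
  -- `y` is a `p`-th root of unity of `Ω`; those are the powers of `ι (s ζ)`
  have hy := toU_muι_pow (locField q K s) (PadicAlgCl q) p y
  have hprim : IsPrimitiveRoot (locEmbU q s ζ) p := by
    have h1 : IsPrimitiveRoot ((locEmbU q s ζ : (PadicAlgCl q)ˣ) : PadicAlgCl q) p := by
      rw [coe_locEmbU]
      have h2 : IsPrimitiveRoot ((ζ : Qbˣ) : Qb) p := hζ.map_of_injective Units.coeHom_injective
      have h3 : IsPrimitiveRoot (s ((ζ : Qbˣ) : Qb)) p :=
        h2.map_of_injective (f := (s : Qb →ₐ[ℚ] Qb)) s.injective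
      exact h3.map_of_injective (f := padicEmbedding q) (padicEmbedding q).injective
    exact IsPrimitiveRoot.coe_units_iff.1 h1
  have hmem : toU (locField q K s) (PadicAlgCl q)
      ((Local.Abs.muι (locField q K s) (PadicAlgCl q) p).hom y) ∈ Subgroup.zpowers (locEmbU q s ζ) := by
    rw [hprim.zpowers_eq, mem_rootsOfUnity]
    exact hy
  obtain ⟨n, hn⟩ := Subgroup.mem_zpowers_iff.1 hmem
  refine ⟨(n : ZMod p), ?_⟩
  apply torsι_injective
  apply toU_injective (locField q K s) (PadicAlgCl q)
  rw [← hn]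
  show locEmbU q s (sUnitsS.unit S (muAdd hζ hζS ((n : ℤ) : ZMod p))) = _
  have h4 : sUnitsS.unit S (muAdd hζ hζS ((n : ℤ) : ZMod p)) = ζ ^ n := by
    show (((Subgroup.inclusion (Subgroup.zpowers_le.2 hζS))
      (Additive.toMul (hζ.zmodEquivZPowers ((n : ℤ) : ZMod p))) : sUnitsQS S) : Qbˣ) = ζ ^ n
    rw [hζ.zmodEquivZPowers_apply_coe_int]
    rfl
  rw [h4, map_zpow]

variable [FiniteDimensional ℚ K]

/-- **Localisation commutes with the Kummer connecting maps**: the square
`Hlc^i(G_{K,S}, O_S^×) → Hlc^(i+1)(G_{K,S}, ℤ/p)` (global `δ`) versus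
`Hlc^i(G_w, Ω^×) → Hlc^(i+1)(G_w, μ_p)` (local `δ`, helper81's `muKummer`) commutes. -/
theorem kummerδ_comp_HlcPull_loc (hp : p.Prime) (hpS : (⟨p, hp⟩ : Nat.Primes) ∈ S)
    (h : HasRoots (PadicAlgCl q) p) (i : ℕ) :
    (KumH.kummerSeq K hζ hζS hζK hp hpS).δ (levelK S K) i ≫
        HlcPull (isContHom_locHomAlg S q K s) (locMuHom q K s hζ hζS hζK) (i + 1) =
      HlcPull (isContHom_locHomAlg S q K s) (locSUnitsHom S q K s) i ≫
        (muKummer (locField q K s) h).δ (galLevels (locField q K s) (PadicAlgCl q)) i := by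
  refine Hlcδ_comp_HlcPull (isContHom_locHomAlg S q K s)
    (X := (KumH.kummerSeq K hζ hζS hζK hp hpS).X) (Y := (muKummer (locField q K s) h).X)
    (KumH.kummerSeq K hζ hζS hζK hp hpS).shortExact (muKummer (locField q K s) h).shortExact
    (locMuHom q K s hζ hζS hζK) (locSUnitsHom S q K s) (locSUnitsHom S q K s) ?_ ?_ i (i + 1) rfl
  · exact locMuHom_comp_muι q K s hζ hζS hζK
  · apply Rep.hom_ext
    apply Representation.IntertwiningMap.ext
    apply LinearMap.ext
    intro a
    show (p : ℤ) • locSUnitsAdd S q K s a = locSUnitsAdd S q K s ((p : ℤ) • a)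
    rw [map_zsmul]

/-- **Localisation commutes with the inclusions of `μ_p`.** -/
theorem HlcMap_muι_comp_HlcPull_loc (n : ℕ) :
    HlcMap (levelK S K) (muι K hζ hζS hζK) n ≫
        HlcPull (isContHom_locHomAlg S q K s) (locSUnitsHom S q K s) n =
      HlcPull (isContHom_locHomAlg S q K s) (locMuHom q K s hζ hζS hζK) n ≫
        HlcMap (galLevels (locField q K s) (PadicAlgCl q))
          (Local.Abs.muι (locField q K s) (PadicAlgCl q) p) n := by
  rw [HlcMap_comp_HlcPull, HlcPull_comp_HlcMap, locMuHom_comp_muι]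

end Mu

end Fermat.Agent.GC.KumH
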