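/-
GATE-C / BASE-KUM (B7), helper78.  `Ш²(ℤ/p) ⊆ δ(Hlc¹(G_{K,S}, O_S^×))` from the Hasse principle for
the `p`-torsion of `Hlc²(G_{K,S}, O_S^×)`:  a class of `Hlc²(G_{K,S}, ℤ/p)` which dies in every
`Hlc²(G_w, μ_p)` (for a family of places `ι ∘ s_i`, `q_i`) comes from `Hlc¹(G_{K,S}, O_S^×)` through
the Kummer connecting map.  Hence `#Ш²(ℤ/p) ≤ #(X/pX)`, `X = Hlc¹(G_{K,S}, O_S^×)`.
-/
import Mathlib
import Fermat.Agent.GC.Kummer.HlcLocKum

set_option autoImplicit false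

open CategoryTheory

noncomputable section

namespace Fermat.Agent.GC.KumH

open Fermat.Agent.GC.Prof Fermat.Agent.GC.C0 Fermat.Agent.GC.Places Fermat.Agent.GC.Local.Abs
  Fermat.Agent.GC.Local.KR groupCohomology

local notation "Qb" => AlgebraicClosure ℚ
local notation "GQ" => (AlgebraicClosure ℚ ≃ₐ[ℚ] AlgebraicClosure ℚ)

/-- Counting: if `ker δ = pX` and `T ⊆ im δ` then `#T ≤ #X[p]` (`X` finite). -/
theorem card_le_card_torsion_of_ker_eq_range {X Y : Type*} [AddCommGroup X] [AddCommGroup Y]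
    [Finite X] (p : ℕ) (δ : X →+ Y) (hδ : ∀ x, δ x = 0 ↔ ∃ x', p • x' = x)
    (T : AddSubgroup Y) (hT : ∀ y ∈ T, ∃ x, δ x = y) :
    Nat.card T ≤ Nat.card {x : X // p • x = 0} := by
  classical
  let m : X →+ X := nsmulAddMonoidHom p
  have hker : δ.ker = m.range := by
    ext x
    rw [AddMonoidHom.mem_ker, hδ, AddMonoidHom.mem_range]
    rfl
  have h1 : Nat.card δ.range = m.range.index := by
    rw [← hker, AddSubgroup.index_ker]
  have h2 : Nat.card m.range * m.range.index = Nat.card X := AddSubgroup.card_mul_index _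
  have h3 : Nat.card m.ker * m.ker.index = Nat.card X := AddSubgroup.card_mul_index _
  have h4 : m.ker.index = Nat.card m.range := AddSubgroup.index_ker m
  have hpos : 0 < Nat.card m.range := Nat.card_pos
  have h5 : Nat.card m.ker = m.range.index := by
    rw [h4, ← h2, mul_comm] at h3
    exact Nat.eq_of_mul_eq_mul_left hpos h3
  have h6 : Nat.card {x : X // p • x = 0} = Nat.card m.ker := by
    apply Nat.card_congr
    exact Equiv.subtypeEquivRight (fun x => by rw [AddMonoidHom.mem_ker]; rfl)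
  rw [h6, h5, ← h1]
  have hle : T ≤ δ.range := fun y hy => by
    obtain ⟨x, hx⟩ := hT y hy
    exact ⟨x, hx⟩
  have hfin : Finite δ.range := by
    have : Finite (Set.range δ) := Set.finite_range δ
    exact this
  exact AddSubgroup.card_le_of_le hle

variable {S : Finset Nat.Primes} (K : IntermediateField ℚ Qb) [FiniteDimensional ℚ K]
  {p : ℕ} [NeZero p] {ζ : Qbˣ} (hζ : IsPrimitiveRoot ζ p) (hζS : ζ ∈ sUnitsQS S)
  (hζK : ((ζ : Qbˣ) : Qb) ∈ K)

/-- **`Ш²(ℤ/p) ⊆ im δ`.**  Let `(q_i, s_i)_{i}` be any family of places of `K`.  Assume the Hasse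
principle for the `p`-torsion of `Hlc²(G_{K,S}, O_S^×)` with respect to this family.  Then a class
`y ∈ Hlc²(G_{K,S}, ℤ/p)` whose localisations in all `Hlc²(G_{w_i}, μ_p)` vanish is the Kummer
boundary of a class of `Hlc¹(G_{K,S}, O_S^×)`. -/
theorem exists_δ_eq_of_loc_eq_zero (hp : p.Prime) (hpS : (⟨p, hp⟩ : Nat.Primes) ∈ S)
    {ι : Type*} (qs : ι → ℕ) [hq : ∀ i, Fact (qs i).Prime] (ss : ι → GQ)
    (hHasse : ∀ z : Hlc (levelK S K) (sUnitsK S K) 2, (p : ℤ) • z = 0 →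
      (∀ i, HlcPull (isContHom_locHomAlg S (qs i) K (ss i))
        (locSUnitsHom S (qs i) K (ss i)) 2 z = 0) → z = 0)
    (y : Hlc (levelK S K) (Rep.trivial ℤ K.fixingSubgroup (ZMod p)) 2)
    (hy : ∀ i, HlcPull (isContHom_locHomAlg S (qs i) K (ss i))
      (locMuHom (qs i) K (ss i) hζ hζS hζK) 2 y = 0) :
    ∃ x : Hlc (levelK S K) (sUnitsK S K) 1,
      (KumH.kummerSeq K hζ hζS hζK hp hpS).δ (levelK S K) 1 x = y := by
  have hz : HlcMap (levelK S K) (muι K hζ hζS hζK) 2 y = 0 := by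
    apply hHasse
    · rw [← int_smul_eq_zsmul inferInstance (p : ℤ)]
      exact ((KumH.kummerSeq K hζ hζS hζK hp hpS).smul_eq_zero_iff 2 _).2 ⟨y, rfl⟩
    · intro i
      have h1 := congr($(HlcMap_muι_comp_HlcPull_loc (qs i) K (ss i) hζ hζS hζK 2) y)
      simp only [ModuleCat.hom_comp, LinearMap.comp_apply] at h1
      rw [h1, hy i, map_zero]
  exact ((KumH.kummerSeq K hζ hζS hζK hp hpS).ι_eq_zero_iff 1 y).1 hz

/-- `Ш²(ℤ/p)` with respect to a family of places: the classes of `Hlc²(G_{K,S}, ℤ/p)` which die in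
every `Hlc²(G_{w_i}, μ_p)`. -/
def sha2Mu {ι : Type*} (qs : ι → ℕ) [hq : ∀ i, Fact (qs i).Prime] (ss : ι → GQ) :
    AddSubgroup (Hlc (levelK S K) (Rep.trivial ℤ K.fixingSubgroup (ZMod p)) 2) :=
  ⨅ i, AddMonoidHom.ker (HlcPull (isContHom_locHomAlg S (qs i) K (ss i))
    (locMuHom (qs i) K (ss i) hζ hζS hζK) 2).hom.toAddMonoidHom

lemma mem_sha2Mu_iff {ι : Type*} (qs : ι → ℕ) [hq : ∀ i, Fact (qs i).Prime] (ss : ι → GQ)
    (y : Hlc (levelK S K) (Rep.trivial ℤ K.fixingSubgroup (ZMod p)) 2) :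
    y ∈ sha2Mu K hζ hζS hζK qs ss ↔
      ∀ i, HlcPull (isContHom_locHomAlg S (qs i) K (ss i))
        (locMuHom (qs i) K (ss i) hζ hζS hζK) 2 y = 0 := by
  rw [sha2Mu, AddSubgroup.mem_iInf]
  rfl

/-- **`#Ш²(ℤ/p) ≤ #X[p]`**, `X = Hlc¹(G_{K,S}, O_S^×)` finite, under the Hasse principle for the
`p`-torsion of `Hlc²(G_{K,S}, O_S^×)`. -/
theorem card_sha2Mu_le (hp : p.Prime) (hpS : (⟨p, hp⟩ : Nat.Primes) ∈ S)
    {ι : Type*} (qs : ι → ℕ) [hq : ∀ i, Fact (qs i).Prime] (ss : ι → GQ)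
    (hHasse : ∀ z : Hlc (levelK S K) (sUnitsK S K) 2, (p : ℤ) • z = 0 →
      (∀ i, HlcPull (isContHom_locHomAlg S (qs i) K (ss i))
        (locSUnitsHom S (qs i) K (ss i)) 2 z = 0) → z = 0)
    [Finite (Hlc (levelK S K) (sUnitsK S K) 1)] :
    Nat.card (sha2Mu K hζ hζS hζK qs ss) ≤
      Nat.card {x : Hlc (levelK S K) (sUnitsK S K) 1 // p • x = 0} := by
  refine card_le_card_torsion_of_ker_eq_range p
    ((KumH.kummerSeq K hζ hζS hζK hp hpS).δ (levelK S K) 1).hom.toAddMonoidHom ?_ _ ?_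
  · intro x
    refine ((KumH.kummerSeq K hζ hζS hζK hp hpS).δ_eq_zero_iff 1 x).trans ?_
    refine exists_congr fun x' => ?_
    rw [Nat.cast_smul_eq_nsmul ℤ p x']
  · intro y hy
    exact exists_δ_eq_of_loc_eq_zero K hζ hζS hζK hp hpS qs ss hHasse y
      ((mem_sha2Mu_iff K hζ hζS hζK qs ss y).1 hy)

end Fermat.Agent.GC.KumH
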