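/-
GATE-C / BASE-KUM (B4), helper78.  Dictionary: for a number field `F ⊂ ℚ̄`, an element `x ∈ Fˣ` is an
`S`-unit in the valuation-subring language of `HlcUnits.lean` (`IsSUnit S x`: unit at every
valuation subring of `ℚ̄` above a prime outside `S`) iff it is an `S_F`-unit in Mathlib's language
(`Set.unit`, `S_F` = the finite primes of `F` above `S`).
-/
import Mathlib
import Fermat.Agent.GC.Kummer.HlcUnits
import Fermat.Agent.S14.Reduction.Above
import Fermat.Agent.S14.SI.Bridge

set_option autoImplicit false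
set_option linter.unusedSectionVars false

open NumberField IsDedekindDomain

noncomputable section

namespace Fermat.Agent.GC.KumH

open Fermat.Agent.GC.Capit Fermat.Agent.S14.SI

local notation "Qb" => AlgebraicClosure ℚ
local notation "GQ" => (AlgebraicClosure ℚ ≃ₐ[ℚ] AlgebraicClosure ℚ)

/-- A prime ideal containing a nonzero natural number contains a prime number. -/
theorem exists_prime_natCast_mem {R : Type*} [CommRing R] (P : Ideal R) [P.IsPrime] :
    ∀ n : ℕ, n ≠ 0 → (n : R) ∈ P → ∃ q : ℕ, q.Prime ∧ (q : R) ∈ P := by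
  intro n
  induction n using Nat.recOnMul with
  | zero => intro h; exact absurd rfl h
  | one =>
    intro _ h
    rw [Nat.cast_one] at h
    exact absurd ((Ideal.eq_top_iff_one P).2 h) (Ideal.IsPrime.ne_top ‹_›)
  | prime q hq => intro _ h; exact ⟨q, hq, h⟩
  | mul a b iha ihb =>
    intro hab h
    rw [Nat.cast_mul] at h
    rcases (Ideal.IsPrime.mem_or_mem ‹_› h) with h | h
    · exact iha (left_ne_zero_of_mul hab) h
    · exact ihb (right_ne_zero_of_mul hab) h

variable (S : Finset Nat.Primes) (F : IntermediateField ℚ Qb) [NumberField F]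

/-- The finite primes of `F` above `S`. -/
def sPlaces : Set (HeightOneSpectrum (𝓞 F)) := {v | ∃ q ∈ S, (((q : ℕ) : ℕ) : 𝓞 F) ∈ v.asIdeal}

theorem mem_sPlaces_iff (v : HeightOneSpectrum (𝓞 F)) :
    v ∈ sPlaces S F ↔ v.asIdeal ∈ primesOver F S := Iff.rfl

/-- `sPlaces S F` is the set of primes dividing `∏ S`. -/
theorem mem_sPlaces_iff_prod_mem (v : HeightOneSpectrum (𝓞 F)) :
    v ∈ sPlaces S F ↔ (((∏ q ∈ S, (q : ℕ) : ℕ) : ℕ) : 𝓞 F) ∈ v.asIdeal := by
  rw [Nat.cast_prod, Ideal.IsPrime.prod_mem_iff]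
  rfl

variable {S F}

/-- Valuation comparison: an element of `F` which is `v`-integral is integral at any valuation
subring of `ℚ̄` with center `v`. -/
theorem valuation_le_one_of_center {v : HeightOneSpectrum (𝓞 F)} {A : ValuationSubring Qb}
    (hA : ∀ x : 𝓞 F, x ∈ v.asIdeal ↔ ((x : F) : Qb) ∈ A.nonunits) {y : F}
    (hy : v.valuation F y ≤ 1) : A.valuation (y : Qb) ≤ 1 := by
  obtain ⟨a, ⟨b, hb⟩, hab⟩ := v.exists_primeCompl_mul_eq_of_integer (K := F) y hy
  have hb' : b ∉ v.asIdeal := hb
  have hvb : A.valuation (((b : F)) : Qb) = 1 := by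
    have h1 : A.valuation (((b : F)) : Qb) ≤ 1 :=
      (A.valuation_le_one_iff _).2 (coe_mem_valuationSubring F A b)
    have h2 : ¬ A.valuation (((b : F)) : Qb) < 1 := by
      rw [← A.mem_nonunits_iff, ← hA]
      exact hb'
    exact le_antisymm h1 (not_lt.1 h2)
  have hva : A.valuation (((a : F)) : Qb) ≤ 1 :=
    (A.valuation_le_one_iff _).2 (coe_mem_valuationSubring F A a)
  have h3 : (y : Qb) * (((b : F)) : Qb) = (((a : F)) : Qb) := by
    have := congrArg (fun z : F => (z : Qb)) hab
    simpa using this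
  have h4 := congrArg A.valuation h3
  rw [map_mul, hvb, mul_one] at h4
  rw [h4]
  exact hva

/-- Valuation comparison, strict form. -/
theorem valuation_lt_one_of_center {v : HeightOneSpectrum (𝓞 F)} {A : ValuationSubring Qb}
    (hA : ∀ x : 𝓞 F, x ∈ v.asIdeal ↔ ((x : F) : Qb) ∈ A.nonunits) {y : F}
    (hy : v.valuation F y < 1) : A.valuation (y : Qb) < 1 := by
  obtain ⟨a, ⟨b, hb⟩, hab⟩ := v.exists_primeCompl_mul_eq_of_integer (K := F) y hy.le
  have hb' : b ∉ v.asIdeal := hb
  have hvb' : v.valuation F (algebraMap (𝓞 F) F b) = 1 :=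
    (v.valuation_eq_one_iff_notMem (K := F)).2 hb'
  have hva' : v.valuation F (algebraMap (𝓞 F) F a) < 1 := by
    rw [← hab, map_mul, hvb', mul_one]
    exact hy
  have ha : a ∈ v.asIdeal := (v.valuation_lt_one_iff_mem (K := F) a).1 hva'
  have hvb : A.valuation (((b : F)) : Qb) = 1 := by
    have h1 : A.valuation (((b : F)) : Qb) ≤ 1 :=
      (A.valuation_le_one_iff _).2 (coe_mem_valuationSubring F A b)
    have h2 : ¬ A.valuation (((b : F)) : Qb) < 1 := by
      rw [← A.mem_nonunits_iff, ← hA]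
      exact hb'
    exact le_antisymm h1 (not_lt.1 h2)
  have hva : A.valuation (((a : F)) : Qb) < 1 := by
    rw [← A.mem_nonunits_iff, ← hA]
    exact ha
  have h3 : (y : Qb) * (((b : F)) : Qb) = (((a : F)) : Qb) := by
    have := congrArg (fun z : F => (z : Qb)) hab
    simpa using this
  have h4 := congrArg A.valuation h3
  rw [map_mul, hvb, mul_one] at h4
  rw [h4]
  exact hva

/-- Valuation comparison: `v`-units are `A`-units and conversely. -/
theorem valuation_eq_one_iff_of_center {v : HeightOneSpectrum (𝓞 F)} {A : ValuationSubring Qb}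
    (hA : ∀ x : 𝓞 F, x ∈ v.asIdeal ↔ ((x : F) : Qb) ∈ A.nonunits) (x : Fˣ) :
    v.valuation F (x : F) = 1 ↔ A.valuation (((x : F)) : Qb) = 1 := by
  have hx0 : ((x : F) : Qb) ≠ 0 := by
    have := x.ne_zero
    exact_mod_cast this
  constructor
  · intro h
    have h1 : A.valuation (((x : F)) : Qb) ≤ 1 := valuation_le_one_of_center hA h.le
    have h2 : A.valuation ((((x⁻¹ : Fˣ) : F)) : Qb) ≤ 1 := by
      apply valuation_le_one_of_center hA
      rw [Units.val_inv_eq_inv_val, map_inv₀, h, inv_one]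
    have h3 : A.valuation (((x : F)) : Qb) * A.valuation ((((x⁻¹ : Fˣ) : F)) : Qb) = 1 := by
      rw [← map_mul]
      have : (((x : F)) : Qb) * ((((x⁻¹ : Fˣ) : F)) : Qb) = 1 := by
        rw [← IntermediateField.coe_mul, Units.mul_inv]
        rfl
      rw [this, map_one]
    exact eq_one_of_one_le_mul_left h1 h2 h3.ge
  · intro h
    by_contra hne
    rcases lt_or_gt_of_ne hne with hlt | hgt
    · exact absurd h (ne_of_lt (valuation_lt_one_of_center hA hlt))
    · have hinv : v.valuation F ((x⁻¹ : Fˣ) : F) < 1 := by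
        rw [Units.val_inv_eq_inv_val, map_inv₀]
        exact inv_lt_one_of_one_lt₀ hgt
      have h2 := valuation_lt_one_of_center hA hinv
      rw [Units.val_inv_eq_inv_val, IntermediateField.coe_inv, map_inv₀, h, inv_one] at h2
      exact lt_irrefl _ h2

/-- **Dictionary**: `x ∈ Fˣ` is an `S`-unit in the valuation-subring language iff it is an
`S_F`-unit in Mathlib's `Set.unit` language. -/
theorem isSUnit_iff_mem_unit (x : Fˣ) :
    IsSUnit S (((x : F)) : Qb) ↔ x ∈ (sPlaces S F).unit F := by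
  have : FiniteDimensional ℚ F := NumberField.to_finiteDimensional
  constructor
  · intro h v hv
    obtain ⟨A, hA⟩ := Fermat.Agent.S14.Reduction.exists_valuationSubring_above F v.asIdeal v.ne_bot
    -- the residue characteristic
    have hnorm : ((Ideal.absNorm v.asIdeal : ℕ) : 𝓞 F) ∈ v.asIdeal := Ideal.absNorm_mem _
    have hn0 : Ideal.absNorm v.asIdeal ≠ 0 := by
      rw [ne_eq, Ideal.absNorm_eq_zero_iff]
      exact v.ne_bot
    obtain ⟨q, hq, hqv⟩ := exists_prime_natCast_mem v.asIdeal _ hn0 hnorm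
    have hqS : (⟨q, hq⟩ : Nat.Primes) ∉ S := fun hmem => hv ⟨⟨q, hq⟩, hmem, hqv⟩
    have hAq : A.LiesOverPrime q := by
      have := (hA (q : 𝓞 F)).1 hqv
      show ((q : ℕ) : Qb) ∈ A.nonunits
      simpa using this
    exact (valuation_eq_one_iff_of_center hA x).2 (h ⟨q, hq⟩ hqS A hAq)
  · intro h q hq A hA
    have hv0 : centerAt F A ≠ ⊥ := centerAt_ne_bot F A q.2 hA
    let v : HeightOneSpectrum (𝓞 F) := ⟨centerAt F A, inferInstance, hv0⟩
    have hvS : v ∉ sPlaces S F := centerAt_notMem_primesOver F A S q hq hA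
    have hc : ∀ x : 𝓞 F, x ∈ v.asIdeal ↔ ((x : F) : Qb) ∈ A.nonunits := fun x => mem_centerAt F A x
    exact (valuation_eq_one_iff_of_center hc x).1 (h v hvS)

end Fermat.Agent.GC.KumH
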