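/-
GATE-C / BASE-KUM (B5), helper78.  `Hlc⁰(G_{K,S}, O_S^×) = O_{K,S}^×`: the `G_K`-invariants of the
`S`-units of `Q_S` are the `S_K`-units of `K` (Mathlib's `Set.unit`), for `K ⊂ Q_S` a number field.
-/
import Mathlib
import Fermat.Agent.GC.Kummer.HlcMu
import Fermat.Agent.GC.Kummer.SUnitsDict

set_option autoImplicit false

open NumberField IsDedekindDomain

noncomputable section

namespace Fermat.Agent.GC.KumH

open Fermat.Agent.GC.Prof Fermat.Agent.GC.C0 Fermat.Agent.GC.Places groupCohomology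

local notation "Qb" => AlgebraicClosure ℚ
local notation "GQ" => (AlgebraicClosure ℚ ≃ₐ[ℚ] AlgebraicClosure ℚ)

local instance isAlgebraicQbar_kumI : Algebra.IsAlgebraic ℚ (AlgebraicClosure ℚ) :=
  AlgebraicClosure.isAlgebraic ℚ
local instance isAlgClosureQbar_kumI : IsAlgClosure ℚ (AlgebraicClosure ℚ) :=
  ⟨inferInstance, inferInstance⟩
local instance normalQbar_kumI : Normal ℚ (AlgebraicClosure ℚ) :=
  IsAlgClosure.normal ℚ (AlgebraicClosure ℚ)
local instance isGaloisQbar_kumI : IsGalois ℚ (AlgebraicClosure ℚ) := ⟨⟩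

variable {S : Finset Nat.Primes} {K : IntermediateField ℚ Qb}

/-- An element of `O_S^×` is `G_K`-invariant iff it lies in `K`. -/
theorem mem_invariants_sUnitsK_iff (a : sUnitsK S K) :
    a ∈ (sUnitsK S K).ρ.invariants ↔ ((sUnitsS.unit S a : Qbˣ) : Qb) ∈ K := by
  rw [Representation.mem_invariants]
  constructor
  · intro h
    rw [← InfiniteGalois.fixedField_fixingSubgroup K, IntermediateField.mem_fixedField_iff]
    intro s hs
    have := congrArg (fun m => ((sUnitsS.unit S m : Qbˣ) : Qb)) (h ⟨s, hs⟩)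
    exact this
  · intro h g
    apply sUnitsS.unit_injective
    apply Units.ext
    have hg := g.2
    rw [IntermediateField.mem_fixingSubgroup_iff] at hg
    exact hg _ h

variable [NumberField K]

/-- The image of an `S_K`-unit of `K` in `ℚ̄ˣ` is an `S`-unit of `Q_S`. -/
theorem map_mem_sUnitsQS (hK : K.IsUnramifiedOutside S) (x : Kˣ) (hx : x ∈ (sPlaces S K).unit K) :
    Units.map (algebraMap K Qb : K →* Qb) x ∈ sUnitsQS S :=
  ⟨⟨K, hK, (x : K).2⟩, (isSUnit_iff_mem_unit x).2 hx⟩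

/-- `O_{K,S}^× → (O_S^×)^{G_K}`. -/
def sUnitsInv (hK : K.IsUnramifiedOutside S) :
    Additive ((sPlaces S K).unit K) →+ (sUnitsK S K).ρ.invariants where
  toFun a := ⟨sUnitsS.mk S (Units.map (algebraMap K Qb : K →* Qb) ((Additive.toMul a : _) : Kˣ))
      (map_mem_sUnitsQS hK _ (Additive.toMul a).2),
    (mem_invariants_sUnitsK_iff _).2 ((((Additive.toMul a : _) : Kˣ) : K)).2⟩
  map_zero' := by
    apply Subtype.ext
    apply sUnitsS.unit_injective
    show Units.map (algebraMap K Qb : K →* Qb) (1 : Kˣ) = 1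
    rw [map_one]
  map_add' a b := by
    apply Subtype.ext
    apply sUnitsS.unit_injective
    show Units.map (algebraMap K Qb : K →* Qb)
        (((Additive.toMul a : _) : Kˣ) * ((Additive.toMul b : _) : Kˣ)) = _
    rw [map_mul]
    rfl

lemma unit_sUnitsInv (hK : K.IsUnramifiedOutside S) (a : Additive ((sPlaces S K).unit K)) :
    sUnitsS.unit S (sUnitsInv hK a).1 =
      Units.map (algebraMap K Qb : K →* Qb) ((Additive.toMul a : _) : Kˣ) := rfl

lemma sUnitsInv_injective (hK : K.IsUnramifiedOutside S) :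
    Function.Injective (sUnitsInv hK) := by
  intro a b hab
  have h1 : algebraMap K Qb ((((Additive.toMul a : _) : Kˣ) : K)) =
      algebraMap K Qb ((((Additive.toMul b : _) : Kˣ) : K)) :=
    congrArg (fun x : (sUnitsK S K).ρ.invariants => ((sUnitsS.unit S x.1 : Qbˣ) : Qb)) hab
  apply Additive.toMul.injective
  apply Subtype.ext
  exact Units.ext ((algebraMap K Qb).injective h1)

lemma sUnitsInv_surjective (hK : K.IsUnramifiedOutside S) :
    Function.Surjective (sUnitsInv hK) := by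
  rintro ⟨x, hx⟩
  have hxK := (mem_invariants_sUnitsK_iff x).1 hx
  have h0 : (⟨_, hxK⟩ : K) ≠ 0 := by
    intro h
    exact (sUnitsS.unit S x).ne_zero (congrArg Subtype.val h)
  let y : Kˣ := Units.mk0 ⟨_, hxK⟩ h0
  have hy : y ∈ (sPlaces S K).unit K :=
    (isSUnit_iff_mem_unit y).1 (sUnitsS.unit_mem S x).2
  refine ⟨Additive.ofMul ⟨y, hy⟩, Subtype.ext ?_⟩
  apply sUnitsS.unit_injective
  apply Units.ext
  rfl

/-- **`Hlc⁰(G_{K,S}, O_S^×) = O_{K,S}^×`.** -/
def sUnitsH0 (hK : K.IsUnramifiedOutside S) :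
    Additive ((sPlaces S K).unit K) ≃+ Hlc (levelK S K) (sUnitsK S K) 0 :=
  (AddEquiv.ofBijective (sUnitsInv hK) ⟨sUnitsInv_injective hK, sUnitsInv_surjective hK⟩).trans
    (Hlc0Equiv (levelK S K) (sUnitsK S K)).symm.toAddEquiv

lemma sUnitsH0_apply (hK : K.IsUnramifiedOutside S) (a : Additive ((sPlaces S K).unit K)) :
    sUnitsH0 hK a = (Hlc0Equiv (levelK S K) (sUnitsK S K)).symm (sUnitsInv hK a) := rfl

end Fermat.Agent.GC.KumH
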