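/-
GATE-C / C4→C5 KUMMER-BRIDGE input (v) (helper51).  **Dirichlet count in `Hlc` language**:
for `K ⊂ Q_S` a number field containing `ζ_p`, `p` odd,

  `|Hlc⁰(G_{K,S}, O_S^×) / p| = p ^ (r₂(K) + #S_K)`

in the exact shape of the hypothesis `h0` of helper77's `KummerBridge.euler` (quotient by
`KummerBridge.divC (p:ℤ) _`).  Inputs: helper78's `sUnitsH0 : Additive (O_{K,S}^×) ≃+ Hlc⁰`,
`sPlaces S K = ↑(primesAbove K S)` (helper14's finset) and the T14 count
`S14.SI.card_sUnit_quotient_pow : |O_{K,S}^× / p-th powers| = p ^ (#S + r₂)`.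
-/
import Mathlib
import Fermat.Agent.GC.Kummer.HlcSUnitsInv
import Fermat.Agent.GC.Global.KummerBridge
import Fermat.Agent.GC.Global.Adapter.GoodT
import Fermat.Agent.S14.SI.SUnits

set_option autoImplicit false
set_option linter.unusedSectionVars false

open NumberField IsDedekindDomain

noncomputable section

namespace Fermat.Agent.GC.KumXF

open Fermat.Agent.GC.KumH

open Fermat.Agent.GC.Prof Fermat.Agent.GC.C0 Fermat.Agent.GC.Places groupCohomology
open Fermat.Agent.GC.Global.Adapter Fermat.Agent.GC.Global.KummerBridge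

local notation "Qb" => AlgebraicClosure ℚ
local notation "GQ" => (AlgebraicClosure ℚ ≃ₐ[ℚ] AlgebraicClosure ℚ)

/-! ### Generic transport: `|A / nA| = |U / U^n|` along `Additive U ≃+ A` -/

/-- For a commutative group `U` and an additive group `A ≃+ Additive U`, the quotient of `A` by
`n`-multiples has the cardinality of `U` modulo `n`-th powers. -/
theorem card_quot_divC_of_addEquiv {U A : Type*} [CommGroup U] [AddCommGroup A] [Module ℤ A]
    (e : Additive U ≃+ A) (n : ℕ) :
    Nat.card (A ⧸ divC ((n : ℤ)) A) =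
      Nat.card (U ⧸ (powMonoidHom n : U →* U).range) := by
  have h1 : Nat.card (A ⧸ divC ((n : ℤ)) A) = (divC ((n : ℤ)) A).toAddSubgroup.index := rfl
  have h2 : Nat.card (U ⧸ (powMonoidHom n : U →* U).range) =
      (powMonoidHom n : U →* U).range.index := rfl
  have h3 : (divC ((n : ℤ)) A).toAddSubgroup =
      (Subgroup.toAddSubgroup (powMonoidHom n : U →* U).range).map (e : Additive U →+ A) := by
    ext a
    rw [Submodule.mem_toAddSubgroup, mem_divC, AddSubgroup.mem_map]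
    constructor
    · rintro ⟨b, rfl⟩
      refine ⟨Additive.ofMul (Additive.toMul (e.symm b) ^ n), ⟨Additive.toMul (e.symm b), rfl⟩, ?_⟩
      rw [ofMul_pow, ofMul_toMul]
      show e (n • e.symm b) = _
      rw [map_nsmul, AddEquiv.apply_symm_apply, Nat.cast_smul_eq_nsmul]
    · rintro ⟨x, ⟨u, hu⟩, rfl⟩
      refine ⟨e (Additive.ofMul u), ?_⟩
      have h4 : x = n • Additive.ofMul u := by
        rw [← ofMul_pow]
        exact (congrArg Additive.ofMul hu).symm
      rw [Nat.cast_smul_eq_nsmul, h4]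
      show _ = e (n • Additive.ofMul u)
      rw [map_nsmul]
  rw [h1, h2, h3, AddSubgroup.index_map_equiv, Subgroup.index_toAddSubgroup]

variable {S : Finset Nat.Primes} {K : IntermediateField ℚ Qb} [NumberField K]

/-- helper78's `sPlaces S K` is (the coercion of) helper14's finset `primesAbove K S`. -/
theorem sPlaces_eq_primesAbove :
    sPlaces S K = (↑(primesAbove ↥K S) : Set (HeightOneSpectrum (𝓞 ↥K))) := by
  ext v
  rw [Finset.mem_coe, mem_primesAbove]
  rfl

/-- **Dirichlet count, `Set.unit` form over `sPlaces`**: `|O_{K,S}^× / p| = p^(#S_K + r₂)`. -/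
theorem card_sPlaces_unit_quot {p : ℕ} (hp : p.Prime) (hp2 : p ≠ 2) (ζ : ↥K)
    (hζ : IsPrimitiveRoot ζ p) :
    Nat.card ((sPlaces S K).unit ↥K ⧸
        (powMonoidHom p : (sPlaces S K).unit ↥K →* _).range) =
      p ^ ((primesAbove ↥K S).card + InfinitePlace.nrComplexPlaces ↥K) := by
  have h := Fermat.Agent.S14.SI.card_sUnit_quotient_pow hp hp2 ζ hζ (primesAbove ↥K S)
  rw [← sPlaces_eq_primesAbove] at h
  exact h

/-- **Input (v) `h0` of helper77's `KummerBridge.euler`**, `ζ : K` form: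
`|Hlc⁰(G_{K,S}, O_S^×) / p| = p ^ (r₂(K) + #S_K)`. -/
theorem card_hlc_zero_sUnitsK_quot' (hK : K.IsUnramifiedOutside S) {p : ℕ} (hp : p.Prime)
    (hp2 : p ≠ 2) (ζ : ↥K) (hζ : IsPrimitiveRoot ζ p) :
    Nat.card (Hlc (levelK S K) (sUnitsK S K) 0 ⧸
        divC ((p : ℤ)) (Hlc (levelK S K) (sUnitsK S K) 0)) =
      p ^ (InfinitePlace.nrComplexPlaces ↥K + (primesAbove ↥K S).card) := by
  rw [card_quot_divC_of_addEquiv (sUnitsH0 hK) p, card_sPlaces_unit_quot hp hp2 ζ hζ, add_comm]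

/-- **Input (v) `h0` of helper77's `KummerBridge.euler`**, in helper78's binders
(`ζ : ℚ̄ˣ` a primitive `p`-th root of unity lying in `K`). -/
theorem card_hlc_zero_sUnitsK_quot (hK : K.IsUnramifiedOutside S) {p : ℕ} (hp : p.Prime)
    (hp2 : p ≠ 2) {ζ : Qbˣ} (hζ : IsPrimitiveRoot ζ p) (hζK : ((ζ : Qbˣ) : Qb) ∈ K) :
    Nat.card (Hlc (levelK S K) (sUnitsK S K) 0 ⧸
        divC ((p : ℤ)) (Hlc (levelK S K) (sUnitsK S K) 0)) =
      p ^ (InfinitePlace.nrComplexPlaces ↥K + (primesAbove ↥K S).card) := by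
  have h1 : IsPrimitiveRoot ((ζ : Qbˣ) : Qb) p := IsPrimitiveRoot.coe_units_iff.2 hζ
  have h2 : IsPrimitiveRoot (⟨_, hζK⟩ : ↥K) p :=
    (IsPrimitiveRoot.coe_submonoidClass_iff (N := K) (ζ := ⟨_, hζK⟩)).1 h1
  exact card_hlc_zero_sUnitsK_quot' hK hp hp2 _ h2

end Fermat.Agent.GC.KumXF
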