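/-
GATE-C / KUMMER-BRIDGE bookkeeping (helper51): a number field `K ⊂ ℚ̄` containing `ζ_p`, `p` odd, is
totally complex, so `[K:ℚ] = 2·r₂(K)` — the identity that matches the LOCAL-NUM sum
`Σ_w h¹(K_w, μ_p) = 2·#S_K + [K:ℚ]` with twice the Dirichlet exponent `r₂ + #S_K` of
`H0Count.card_hlc_zero_sUnitsK_quot` / `H1Count.card_hlc_one_zmod` in `hC1`.
-/
import Mathlib

set_option autoImplicit false

open NumberField

namespace Fermat.Agent.GC.KumXF

local notation "Qb" => AlgebraicClosure ℚ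

/-- A number field containing a primitive `n`-th root of unity, `n ≥ 3`, has no real place. -/
theorem isTotallyComplex_of_primitiveRoot {K : Type*} [Field K] [NumberField K] {n : ℕ}
    (hn : 2 < n) {ζ : K} (hζ : IsPrimitiveRoot ζ n) : IsTotallyComplex K := by
  refine ⟨fun w => ?_⟩
  rw [← InfinitePlace.not_isReal_iff_isComplex]
  intro hw
  have hφ : ComplexEmbedding.IsReal w.embedding := InfinitePlace.isReal_iff.mp hw
  have h1 : IsPrimitiveRoot (hφ.embedding ζ) n := hζ.map_of_injective hφ.embedding.injective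
  have h2 : (hφ.embedding ζ) ^ 2 = 1 := by
    have h3 := h1.pow_eq_one
    have h4 : |hφ.embedding ζ| = 1 := by
      rw [← abs_pow_eq_one _ (by omega : n ≠ 0), h3, abs_one]
    rw [← sq_abs, h4, one_pow]
  have h5 := h1.dvd_of_pow_eq_one 2 h2
  have h6 := Nat.le_of_dvd (by norm_num) h5
  omega

/-- `[K:ℚ] = 2·r₂(K)` for a number field containing `ζ_p`, `p` odd (`ζ : K` form). -/
theorem finrank_eq_two_mul_nrComplexPlaces' {K : Type*} [Field K] [NumberField K] {p : ℕ}
    (hp : p.Prime) (hp2 : p ≠ 2) {ζ : K} (hζ : IsPrimitiveRoot ζ p) :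
    Module.finrank ℚ K = 2 * InfinitePlace.nrComplexPlaces K := by
  have h3 : 2 < p := lt_of_le_of_ne hp.two_le (Ne.symm hp2)
  have := isTotallyComplex_of_primitiveRoot h3 hζ
  exact IsTotallyComplex.finrank K

/-- `[K:ℚ] = 2·r₂(K)` in helper78's binders (`ζ : ℚ̄ˣ` primitive `p`-th root of unity lying in the
intermediate field `K`). -/
theorem finrank_eq_two_mul_nrComplexPlaces {K : IntermediateField ℚ Qb} [NumberField K] {p : ℕ}
    (hp : p.Prime) (hp2 : p ≠ 2) {ζ : Qbˣ} (hζ : IsPrimitiveRoot ζ p)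
    (hζK : ((ζ : Qbˣ) : Qb) ∈ K) :
    Module.finrank ℚ ↥K = 2 * InfinitePlace.nrComplexPlaces ↥K := by
  have h1 : IsPrimitiveRoot ((ζ : Qbˣ) : Qb) p := IsPrimitiveRoot.coe_units_iff.2 hζ
  have h2 : IsPrimitiveRoot (⟨_, hζK⟩ : ↥K) p :=
    (IsPrimitiveRoot.coe_submonoidClass_iff (N := K) (ζ := ⟨_, hζK⟩)).1 h1
  exact finrank_eq_two_mul_nrComplexPlaces' hp hp2 h2

end Fermat.Agent.GC.KumXF
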