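/-
GATE-C / C4 Kummer-index stream (helper51).  The MODEL-FREE ENGINE of the second inequality (G3).

`K ⊇ μ_p` number field, `N/K` Galois of degree `p`, unramified outside `S ⊇ {v ∣ p}`; `S` generates
`Cl(K)` and the primes `SN` of `N` above `S` generate `Cl(N)`.  For ANY model `(A, d, 𝒩)` of the
`S`-idele group of `K` with its subgroup of norms from `N`:

* `h1` : `p`-th powers lie in `𝒩`;                      * `h2` : `d (N_{N/K} z) ∈ 𝒩` for `z ∈ Nˣ`;
* `h3` : `A = d(Kˣ) · Aᵖ` (weak approximation);          * `h4` : `d (𝒦_S) ⊆ Aᵖ` (Hensel),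

the norm index `[A : 𝒩 · d(U_S)]` divides `p`.  The only non-elementary input is the T14 key lemma,
taken here as the hypothesis `hKL` (statement of `Fermat.Agent.S14.SI.key_lemma` for this `S`), so that
this file has no open goals; `EngineKL.lean` plugs the T14 theorem in.
-/
import Fermat.Agent.GC.Kummer.NormUnit
import Fermat.Agent.S14.SI.Asm.Small
import Fermat.Agent.S14.SI.TSelect

set_option autoImplicit false

open NumberField IsDedekindDomain nonZeroDivisors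

namespace Fermat.Agent.GC.Kummer

open Fermat.Agent.S14 Fermat.Agent.S14.SI

/-- pure group theory: if `d : G → A` is onto modulo `B` and `H ≤ d⁻¹ B`, then `[A : B]` divides
`[G : H]`. -/
theorem index_dvd_of_comap_le {G A : Type*} [CommGroup G] [CommGroup A] (d : G →* A)
    (B : Subgroup A) (H : Subgroup G) (hH : H ≤ B.comap d)
    (hsurj : ∀ y : A, ∃ x : G, ∃ b ∈ B, y = d x * b) :
    B.index ∣ H.index := by
  have h1 : (B.comap d).index ∣ H.index := Subgroup.index_dvd_of_le hH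
  have h2 : (B.comap d).index = B.index := by
    rw [Subgroup.index_comap]
    have htop : d.range ⊔ B = ⊤ := by
      rw [eq_top_iff]
      intro y _
      obtain ⟨x, b, hb, rfl⟩ := hsurj y
      exact Subgroup.mul_mem _ (Subgroup.mem_sup_left ⟨x, rfl⟩) (Subgroup.mem_sup_right hb)
    rw [← Subgroup.relIndex_sup_right, htop, Subgroup.relIndex_top_right]
  rwa [h2] at h1

variable {K : Type*} [Field K] [NumberField K]

/-- The counting core of the second inequality, with all arithmetic inputs as hypotheses: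
`T` as in T14 `exists_T`, the key property for `(S, T)`, a subgroup `R` of "global norms" with
`U_{S ∪ T} ≤ U_S · R`, and a model `(A, d, 𝒩)` of the `S`-ideles with its norm subgroup. -/
theorem index_dvd_of_model_aux {p : ℕ} (hp : p.Prime) (hp2 : p ≠ 2) (ζ : K)
    (hζ : IsPrimitiveRoot ζ p) (S T : Finset (HeightOneSpectrum (𝓞 K))) (hST : Disjoint T S)
    (hSp : ∀ v : HeightOneSpectrum (𝓞 K), (p : 𝓞 K) ∈ v.asIdeal → v ∈ S)
    (hcard : T.card + 1 = S.card + InfinitePlace.nrComplexPlaces K)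
    (hkey : ∀ x ∈ ((S : Set (HeightOneSpectrum (𝓞 K))) ∪
        (T : Set (HeightOneSpectrum (𝓞 K)))).unit K, x ∈ locPow p S → ∃ y : Kˣ, y ^ p = x)
    (R : Subgroup Kˣ)
    (hTR : ((S : Set (HeightOneSpectrum (𝓞 K))) ∪ (T : Set (HeightOneSpectrum (𝓞 K)))).unit K ≤
      (S : Set (HeightOneSpectrum (𝓞 K))).unit K ⊔ R)
    {A : Type*} [CommGroup A] (d : Kˣ →* A) (𝒩 : Subgroup A)
    (h1 : ∀ y : A, y ^ p ∈ 𝒩)
    (h2 : ∀ x ∈ R, d x ∈ 𝒩)
    (h3 : ∀ y : A, ∃ x : Kˣ, ∃ z : A, y = d x * z ^ p)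
    (h4 : ∀ x ∈ locPow p S, ∃ z : A, d x = z ^ p) :
    (𝒩 ⊔ ((S : Set (HeightOneSpectrum (𝓞 K))).unit K).map d).index ∣ p := by
  have hidx := index_locPow_sup_unit_union hp hp2 ζ hζ S T hST hSp hcard hkey
  rw [← hidx]
  apply index_dvd_of_comap_le d
  · rw [sup_le_iff]
    constructor
    · intro x hx
      obtain ⟨z, hz⟩ := h4 x hx
      rw [Subgroup.mem_comap, hz]
      exact Subgroup.mem_sup_left (h1 z)
    · intro x hx
      have hx' := hTR hx
      rw [Subgroup.mem_sup] at hx'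
      obtain ⟨u, hu, r, hr, rfl⟩ := hx'
      rw [Subgroup.mem_comap, map_mul, mul_comm]
      exact Subgroup.mul_mem _ (Subgroup.mem_sup_left (h2 r hr))
        (Subgroup.mem_sup_right (Subgroup.mem_map_of_mem d hu))
  · intro y
    obtain ⟨x, z, rfl⟩ := h3 y
    exact ⟨x, z ^ p, Subgroup.mem_sup_left (h1 z), rfl⟩

variable {N : Type*} [Field N] [NumberField N] [Algebra K N]

/-- If `S` generates the class group, any finitely supported family of orders away from `S` is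
realised by an element of `Kˣ`. -/
theorem exists_ord_eq_of_finsupp (S : Finset (HeightOneSpectrum (𝓞 K)))
    (hScl : Subgroup.closure (Set.range fun v : S =>
        ClassGroup.mk0 ⟨v.1.asIdeal, mem_nonZeroDivisors_of_ne_zero v.1.ne_bot⟩) = ⊤)
    (F : Finset (HeightOneSpectrum (𝓞 K))) (m : HeightOneSpectrum (𝓞 K) → ℤ)
    (hF : ∀ v, v ∉ F → m v = 0) :
    ∃ y : Kˣ, ∀ v : HeightOneSpectrum (𝓞 K), v ∉ S →
      Multiplicative.toAdd (Bridge.ord v y) = m v := by
  classical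
  induction F using Finset.induction_on generalizing m with
  | empty =>
    refine ⟨1, fun v _ => ?_⟩
    rw [map_one, hF v (Finset.notMem_empty v)]
    rfl
  | insert w F hwF ih =>
    obtain ⟨y', hy'⟩ := ih (Function.update m w 0) (fun v hv => by
      by_cases hvw : v = w
      · subst hvw; simp
      · rw [Function.update_of_ne hvw]
        exact hF v (by simp [hvw, hv]))
    obtain ⟨yw, hyw⟩ := exists_ord_eq_count S hScl w.asIdeal w.ne_bot
    refine ⟨y' * yw ^ (m w), fun v hv => ?_⟩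
    rw [map_mul, map_zpow, toAdd_mul, toAdd_zpow, hy' v hv, hyw v hv]
    by_cases hvw : v = w
    · subst hvw
      rw [Function.update_self, FractionalIdeal.count_self]
      simp
    · rw [Function.update_of_ne hvw, FractionalIdeal.count_maximal_coprime K v (Ne.symm hvw)]
      simp

/-- Kummer theory: a Galois extension of prime degree `p` of a field containing `μ_p` is `K(α^(1/p))`. -/
theorem exists_kummer_generator [IsGalois K N] {p : ℕ} (hp : p.Prime) (ζ : K)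
    (hζ : IsPrimitiveRoot ζ p) (hdeg : Module.finrank K N = p) :
    ∃ (α : Kˣ) (β : N), β ^ p = algebraMap K N α ∧ IntermediateField.adjoin K {β} = ⊤ := by
  have hcard : Nat.card (N ≃ₐ[K] N) = p := by rw [IsGalois.card_aut_eq_finrank, hdeg]
  haveI : Fact p.Prime := ⟨hp⟩
  haveI : IsCyclic (N ≃ₐ[K] N) := isCyclic_of_prime_card hcard
  have hK : (primitiveRoots (Module.finrank K N) K).Nonempty := by
    rw [hdeg]
    exact ⟨ζ, (mem_primitiveRoots hp.pos).2 hζ⟩
  obtain ⟨β, ⟨a, ha⟩, hβ⟩ := exists_root_adjoin_eq_top_of_isCyclic K N hK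
  rw [hdeg] at ha
  have hβ0 : β ≠ 0 := by
    rintro rfl
    have h1 : IntermediateField.adjoin K {(0 : N)} = ⊥ := by
      rw [IntermediateField.adjoin_simple_eq_bot_iff]
      exact zero_mem _
    rw [h1] at hβ
    have h2 : Module.finrank K N = 1 := by
      have := IntermediateField.finrank_bot (F := K) (E := N)
      rw [hβ, IntermediateField.finrank_top'] at this
      exact this
    rw [hdeg] at h2
    exact hp.one_lt.ne' h2
  have ha0 : a ≠ 0 := by
    rintro rfl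
    rw [map_zero] at ha
    exact hβ0 (pow_eq_zero_iff hp.ne_zero |>.1 ha.symm)
  exact ⟨Units.mk0 a ha0, β, ha.symm, hβ⟩

/-- a Kummer generator of an extension of prime degree is not a `p`-th power -/
theorem not_pow_of_adjoin_eq_top {p : ℕ} (hp : p.Prime) (ζ : K) (hζ : IsPrimitiveRoot ζ p)
    (hdeg : Module.finrank K N = p) (α : Kˣ) (β : N) (hβ : β ^ p = algebraMap K N α)
    (hN : IntermediateField.adjoin K {β} = ⊤) (y : Kˣ) : y ^ p ≠ α := by
  intro hy
  have hy0 : algebraMap K N (y : K) ≠ 0 := by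
    rw [Ne, map_eq_zero]; exact y.ne_zero
  have h1 : (β / algebraMap K N (y : K)) ^ p = 1 := by
    rw [div_pow, hβ, ← map_pow, ← Units.val_pow_eq_pow_val, hy, div_self]
    rw [Ne, map_eq_zero]; exact α.ne_zero
  have hζN : IsPrimitiveRoot (algebraMap K N ζ) p := hζ.map_of_injective (algebraMap K N).injective
  haveI : NeZero p := ⟨hp.ne_zero⟩
  obtain ⟨i, -, hi⟩ := hζN.eq_pow_of_pow_eq_one h1
  have hβK : β ∈ (⊥ : IntermediateField K N) := by
    rw [IntermediateField.mem_bot]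
    refine ⟨ζ ^ i * y, ?_⟩
    rw [map_mul, map_pow, hi, div_mul_cancel₀ _ hy0]
  have h2 : IntermediateField.adjoin K {β} = ⊥ := by
    rw [IntermediateField.adjoin_simple_eq_bot_iff]; exact hβK
  rw [h2] at hN
  have h3 : Module.finrank K N = 1 := by
    have := IntermediateField.finrank_bot (F := K) (E := N)
    rw [hN, IntermediateField.finrank_top'] at this
    exact this
  rw [hdeg] at h3
  exact hp.one_lt.ne' h3

/-- unramified outside `S ⊇ {v ∣ p}`: the Kummer generator has order divisible by `p` outside `S` -/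
theorem dvd_ord_of_unramified [IsGalois K N] {p : ℕ} (hp : p.Prime) (ζ : K)
    (hζ : IsPrimitiveRoot ζ p) (hdeg : Module.finrank K N = p)
    (S : Finset (HeightOneSpectrum (𝓞 K)))
    (hSp : ∀ v : HeightOneSpectrum (𝓞 K), (p : 𝓞 K) ∈ v.asIdeal → v ∈ S)
    (hunr : ∀ P : Ideal (𝓞 N), P.IsPrime → P ≠ ⊥ → (∀ v ∈ S, P.under (𝓞 K) ≠ v.asIdeal) →
      ∀ τ : N ≃ₐ[K] N, (∀ z : 𝓞 N, τ • z - z ∈ P) → τ = 1)
    (α : Kˣ) (β : N) (hβ : β ^ p = algebraMap K N α)
    (v : HeightOneSpectrum (𝓞 K)) (hv : v ∉ S) :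
    (p : ℤ) ∣ Multiplicative.toAdd (Bridge.ord v α) := by
  rw [← Bridge.exists_isUnitAt_div_pow_iff_dvd]
  by_contra hcon
  have hinj : Function.Injective (algebraMap (𝓞 K) (𝓞 N)) :=
    RingOfIntegers.algebraMap.injective K N
  obtain ⟨P, -, hPprime, hPv⟩ := Ideal.exists_ideal_over_prime_of_isIntegral v.asIdeal
    (⊥ : Ideal (𝓞 N)) (by rw [Ideal.comap_bot_of_injective _ hinj]; exact bot_le)
  have hP0 : P ≠ ⊥ := by
    rintro rfl
    rw [Ideal.comap_bot_of_injective _ hinj] at hPv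
    exact v.ne_bot hPv.symm
  have hPv' : P.under (𝓞 K) = v.asIdeal := hPv
  have hPp : (p : 𝓞 N) ∉ P := by
    intro hmem
    apply hv
    apply hSp v
    rw [← hPv', Ideal.under_def, Ideal.mem_comap, map_natCast]
    exact hmem
  have hcon' : ¬ ∃ y : Kˣ, IsUnitAt (P.under (𝓞 K)) (α / y ^ p) := by rwa [hPv']
  have htame := (tame_of_not_dvd_ord hp ζ hζ hdeg α β hβ P hP0 hPp hcon').1
  have hall : ∀ τ : N ≃ₐ[K] N, τ = 1 := fun τ =>
    hunr P hPprime hP0 (fun w hw h => hv (by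
      have : v = w := HeightOneSpectrum.ext (hPv'.symm.trans h)
      rwa [this])) τ (htame τ)
  have hcard : Nat.card (N ≃ₐ[K] N) = p := by rw [IsGalois.card_aut_eq_finrank, hdeg]
  have : Subsingleton (N ≃ₐ[K] N) := ⟨fun a b => (hall a).trans (hall b).symm⟩
  rw [Nat.card_unique] at hcard
  exact hp.one_lt.ne hcard

/-- If `N/K` (Galois of degree `p`, `K ⊇ μ_p`) is unramified outside `S ⊇ {v ∣ p}` and `S` generates
`Cl(K)`, then `N = K(α^(1/p))` with `α` an `S`-unit. -/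
theorem exists_kummer_generator_unit [IsGalois K N] {p : ℕ} (hp : p.Prime) (ζ : K)
    (hζ : IsPrimitiveRoot ζ p) (hdeg : Module.finrank K N = p)
    (S : Finset (HeightOneSpectrum (𝓞 K)))
    (hSp : ∀ v : HeightOneSpectrum (𝓞 K), (p : 𝓞 K) ∈ v.asIdeal → v ∈ S)
    (hScl : Subgroup.closure (Set.range fun v : S =>
        ClassGroup.mk0 ⟨v.1.asIdeal, mem_nonZeroDivisors_of_ne_zero v.1.ne_bot⟩) = ⊤)
    (hunr : ∀ P : Ideal (𝓞 N), P.IsPrime → P ≠ ⊥ → (∀ v ∈ S, P.under (𝓞 K) ≠ v.asIdeal) →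
      ∀ τ : N ≃ₐ[K] N, (∀ z : 𝓞 N, τ • z - z ∈ P) → τ = 1) :
    ∃ (α : Kˣ) (β : N), α ∈ (S : Set (HeightOneSpectrum (𝓞 K))).unit K ∧
      β ^ p = algebraMap K N α ∧ IntermediateField.adjoin K {β} = ⊤ := by
  classical
  obtain ⟨α₀, β₀, hβ₀, hN₀⟩ := exists_kummer_generator (N := N) hp ζ hζ hdeg
  have hdvd := dvd_ord_of_unramified hp ζ hζ hdeg S hSp hunr α₀ β₀ hβ₀
  obtain ⟨F, hF⟩ := Asm.exists_finset_mem_unit α₀
  rw [mem_unit_iff_toAdd] at hF
  obtain ⟨y, hy⟩ := exists_ord_eq_of_finsupp S hScl F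
    (fun v => Multiplicative.toAdd (Bridge.ord v α₀) / (p : ℤ)) (fun v hv => by
      rw [hF v (by simpa using hv)]; simp)
  have hy0 : algebraMap K N (y : K) ≠ 0 := by
    rw [Ne, map_eq_zero]; exact y.ne_zero
  refine ⟨α₀ / y ^ p, β₀ / algebraMap K N (y : K), ?_, ?_, ?_⟩
  · rw [mem_unit_iff_toAdd]
    intro v hv
    rw [map_div, map_pow, toAdd_div, toAdd_pow, hy v (by simpa using hv)]
    have := hdvd v (by simpa using hv)
    rw [nsmul_eq_mul, Int.mul_ediv_cancel' this, sub_self]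
  · rw [div_pow, hβ₀, ← map_pow, ← map_div₀]
    congr 1
    simp [Units.val_div_eq_div_val]
  · rw [eq_top_iff, ← hN₀, IntermediateField.adjoin_simple_le_iff]
    have h1 : β₀ = (β₀ / algebraMap K N (y : K)) * algebraMap K N (y : K) :=
      (div_mul_cancel₀ _ hy0).symm
    have h2 : (β₀ / algebraMap K N (y : K)) * algebraMap K N (y : K) ∈
        IntermediateField.adjoin K {β₀ / algebraMap K N (y : K)} :=
      mul_mem (IntermediateField.mem_adjoin_simple_self K _)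
        (IntermediateField.algebraMap_mem _ _)
    rwa [← h1] at h2

/-- **(G3) ENGINE**: the second inequality `[A : 𝒩 · d(U_S)] ∣ p` for any model of the `S`-ideles. -/
theorem index_dvd_of_model [IsGalois K N] {p : ℕ} (hp : p.Prime) (hp2 : p ≠ 2) (ζ : K)
    (hζ : IsPrimitiveRoot ζ p) (hdeg : Module.finrank K N = p)
    (S : Finset (HeightOneSpectrum (𝓞 K)))
    (hSp : ∀ v : HeightOneSpectrum (𝓞 K), (p : 𝓞 K) ∈ v.asIdeal → v ∈ S)
    (hScl : Subgroup.closure (Set.range fun v : S =>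
        ClassGroup.mk0 ⟨v.1.asIdeal, mem_nonZeroDivisors_of_ne_zero v.1.ne_bot⟩) = ⊤)
    (hunr : ∀ P : Ideal (𝓞 N), P.IsPrime → P ≠ ⊥ → (∀ v ∈ S, P.under (𝓞 K) ≠ v.asIdeal) →
      ∀ τ : N ≃ₐ[K] N, (∀ z : 𝓞 N, τ • z - z ∈ P) → τ = 1)
    (SN : Finset (HeightOneSpectrum (𝓞 N)))
    (hSN : ∀ Q ∈ SN, Bridge.below K Q ∈ S)
    (hSNcl : Subgroup.closure (Set.range fun Q : SN =>
        ClassGroup.mk0 ⟨Q.1.asIdeal, mem_nonZeroDivisors_of_ne_zero Q.1.ne_bot⟩) = ⊤)
    (hKL : ∀ T : Finset (HeightOneSpectrum (𝓞 K)), Disjoint T S →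
      (∀ z : HeightOneSpectrum (𝓞 K) → Kˣ, (∀ v ∈ T, IsUnitAt v.asIdeal (z v)) →
        ∃ u ∈ (S : Set (HeightOneSpectrum (𝓞 K))).unit K,
          ∀ v ∈ T, IsLocalPow p v.asIdeal 1 (u / z v)) →
      ∀ x ∈ ((S : Set (HeightOneSpectrum (𝓞 K))) ∪ (T : Set (HeightOneSpectrum (𝓞 K)))).unit K,
        (∀ v ∈ S, IsLocalPow p v.asIdeal (prec p v.asIdeal) x) → ∃ y : Kˣ, y ^ p = x)
    {A : Type*} [CommGroup A] (d : Kˣ →* A) (𝒩 : Subgroup A)
    (h1 : ∀ y : A, y ^ p ∈ 𝒩)
    (h2 : ∀ z : Nˣ, d (Units.map (Algebra.norm K : N →* K) z) ∈ 𝒩)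
    (h3 : ∀ y : A, ∃ x : Kˣ, ∃ z : A, y = d x * z ^ p)
    (h4 : ∀ x ∈ locPow p S, ∃ z : A, d x = z ^ p) :
    (𝒩 ⊔ ((S : Set (HeightOneSpectrum (𝓞 K))).unit K).map d).index ∣ p := by
  classical
  obtain ⟨α, β, hαS, hβ, hN⟩ := exists_kummer_generator_unit hp ζ hζ hdeg S hSp hScl hunr
  have hαnp := not_pow_of_adjoin_eq_top hp ζ hζ hdeg α β hβ hN
  obtain ⟨T, hST, hcard, hTα, -, hTsurj⟩ := exists_T hp hp2 ζ hζ S hSp α hαS hαnp
  -- the primes of `T` split in `N`
  have hsplit : ∀ v ∈ T, ∀ P : Ideal (𝓞 N), P.IsPrime → P ≠ ⊥ → P.under (𝓞 K) = v.asIdeal →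
      ∀ τ : N ≃ₐ[K] N, (∀ z : 𝓞 N, z ∈ P → τ • z ∈ P) → τ = 1 := by
    intro v hv P hPprime hP0 hPv τ hτ
    have hvS : v ∉ S := Finset.disjoint_left.1 hST hv
    have hvp : (p : 𝓞 K) ∉ v.asIdeal := fun h => hvS (hSp v h)
    have hprec : prec p v.asIdeal = 1 := Asm.prec_eq_one_of_notMem p v hvp
    have hloc : IsLocalPow p (P.under (𝓞 K)) (prec p (P.under (𝓞 K))) α := by
      rw [hPv, hprec]
      exact hTα v hv
    exact decomposition_trivial_of_isLocalPow hp hp2 ζ hζ α β hβ hN P hP0 hloc τ hτ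
  have hkey : ∀ x ∈ ((S : Set (HeightOneSpectrum (𝓞 K))) ∪
      (T : Set (HeightOneSpectrum (𝓞 K)))).unit K, x ∈ locPow p S → ∃ y : Kˣ, y ^ p = x :=
    fun x hx hx' => hKL T hST hTsurj x hx (mem_locPow.1 hx')
  have hTR := unit_union_le_sup_normRange (N := N) S SN hSN hSNcl T hsplit
  refine index_dvd_of_model_aux hp hp2 ζ hζ S T hST hSp hcard hkey (normRange K N) hTR d 𝒩 h1 ?_
    h3 h4
  rintro x ⟨z, rfl⟩
  exact h2 z

end Fermat.Agent.GC.Kummer
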