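/-
GATE-C / C4 (D)-INJ, concrete part (helper78).  For a place `ι_q ∘ s` of `K` (finite, unramified
outside `S`) the local group `locGroup q K s = Gal(Ω_q / K_w)` carries TWO level systems:
* the FINE one `levelLoc q K s` (all finite extensions of `K_w`), and
* the COARSE one `levelLocS S q K s := (levelK S K).comap (locHom q K s)` (the local traces of the
  finite extensions of `K` unramified outside `S`),
and the coefficient modules `locUnitsK = Ω_qˣ` (fine-discrete) and `locUnitsSK = ((ℚ_S)_q)ˣ`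
(helper71's `locUnitsS`, the coarse-discrete part).  Hilbert 90 for the local fields gives
**`Hlc²(coarse, ((ℚ_S)_q)ˣ) ↪ Hlc²(fine, Ω_qˣ)`** (`HlcPull_locUnitsSKι_two_injective`), through
the abstract `Prof/LevelInfl.lean`.
-/
import Mathlib
import Fermat.Agent.GC.Kummer.HlcLocKum
import Fermat.Agent.GC.Global.Limit.IdeleS
import Fermat.Agent.GC.Prof.LevelInfl
import Fermat.Agent.GC.Places.LocIso
import Fermat.Agent.GC.Local.Abs.BrauerInj

set_option autoImplicit false

open CategoryTheory IntermediateField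

noncomputable section

namespace Fermat.Agent.GC.KumH

open Fermat.Agent.GC.Prof Fermat.Agent.GC.C0 Fermat.Agent.GC.Places Fermat.Agent.GC.Local.Abs
  Fermat.Agent.GC.Local.KR Fermat.Agent.GC.LimJ groupCohomology

local notation "Qb" => AlgebraicClosure ℚ
local notation "GQ" => (AlgebraicClosure ℚ ≃ₐ[ℚ] AlgebraicClosure ℚ)

variable (S : Finset Nat.Primes) (q : ℕ) [Fact q.Prime] (K : IntermediateField ℚ Qb) (s : GQ)

/-! ### The two level systems and the two coefficient modules -/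

/-- The COARSE level system on the local group: the pull-back of `levelK S K` along `locHom`. -/
abbrev levelLocS : LevelSystem (locGroup q K s) := (levelK S K).comap (locHom q K s)

/-- The fine level system refines the coarse one. -/
theorem isContHom_id_levelLocS :
    IsContHom (levelLoc q K s) (levelLocS S q K s) (MonoidHom.id (locGroup q K s)) :=
  isContHom_iff_comap.1 (isContHom_locHom S q K s)

/-- `((ℚ_S)_q)ˣ` as a module over the local group. -/
abbrev locUnitsSK : Rep ℤ (locGroup q K s) :=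
  Rep.res (locGroup q K s).subtype (locUnitsS S q)

/-- `Ω_qˣ` as a module over the local group. -/
abbrev locUnitsK : Rep ℤ (locGroup q K s) :=
  Rep.res (locGroup q K s).subtype (unitsRep ℚ_[q] (PadicAlgCl q))

/-- The inclusion `((ℚ_S)_q)ˣ ⟶ Ω_qˣ` over the local group. -/
def locUnitsSKι : locUnitsSK S q K s ⟶ locUnitsK q K s :=
  (Rep.resFunctor (locGroup q K s).subtype).map (locUnitsSι S q)

lemma locUnitsSKι_injective : Function.Injective (locUnitsSKι S q K s).hom :=
  discPartι_injective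

instance isDiscrete_locUnitsK : IsDiscrete (levelLoc q K s) (locUnitsK q K s) :=
  IsDiscrete.res (isContHom_subtype_levelLoc q K s) (unitsRep ℚ_[q] (PadicAlgCl q))

/-- a member of the coarse level system, in terms of a field `F` unramified outside `S` -/
lemma mem_levelLocS_iff (U : Subgroup (locGroup q K s)) :
    U ∈ (levelLocS S q K s).sets ↔
      ∃ F : IntermediateField ℚ Qb, F.IsUnramifiedOutside S ∧
        ∀ τ : locGroup q K s, τ ∈ U ↔
          ((locHom q K s τ : K.fixingSubgroup) : GQ) ∈ F.fixingSubgroup := by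
  constructor
  · rintro ⟨_, ⟨_, ⟨F, hF, rfl⟩, rfl⟩, rfl⟩
    exact ⟨F, hF, fun τ => Iff.rfl⟩
  · rintro ⟨F, hF, h⟩
    refine ⟨F.fixingSubgroup.comap K.fixingSubgroup.subtype, ⟨_, ⟨F, hF, rfl⟩, rfl⟩, ?_⟩
    ext τ
    exact (h τ).symm

/-! ### The local fields cut out by the coarse level system -/

/-- The finite extension of `K_w` cut out by a global level `F`: `ℚ_q(ι (s (F K)))`. -/
def coarseField (F : IntermediateField ℚ Qb) : IntermediateField ℚ_[q] (PadicAlgCl q) :=
  localLevel q (conjField (F ⊔ K) s)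

lemma mem_fixingSubgroup_coarseField_iff (F : IntermediateField ℚ Qb) (τ : Gq q) :
    τ ∈ (coarseField q K s F).fixingSubgroup ↔
      ∃ h : τ ∈ locGroup q K s,
        ((locHom q K s ⟨τ, h⟩ : K.fixingSubgroup) : GQ) ∈ F.fixingSubgroup := by
  rw [coarseField, ← mem_fixingSubgroup_localLevel_iff, mem_fixingSubgroup_conjField_iff,
    IntermediateField.fixingSubgroup_sup, Subgroup.mem_inf]
  constructor
  · rintro ⟨h1, h2⟩
    exact ⟨(mem_locGroup_iff q K s τ).2 h2, h1⟩
  · rintro ⟨h, h1⟩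
    exact ⟨h1, (mem_locGroup_iff q K s τ).1 h⟩

/-! ### `hdisc`: the coarse-discrete part of `Ω_qˣ` is `((ℚ_S)_q)ˣ` -/

theorem exists_locUnitsSKι_eq_of_fixed (hK : K.IsUnramifiedOutside S) (a : locUnitsK q K s)
    (ha : ∃ U ∈ (levelLocS S q K s).sets, ∀ u ∈ U, (locUnitsK q K s).ρ u a = a) :
    ∃ b : locUnitsSK S q K s, (locUnitsSKι S q K s).hom b = a := by
  obtain ⟨U, hU, hfix⟩ := ha
  obtain ⟨F, hF, hUF⟩ := (mem_levelLocS_iff S q K s U).1 hU
  have hmem : (a : unitsRep ℚ_[q] (PadicAlgCl q)) ∈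
      discSub (levelSq S q) (unitsRep ℚ_[q] (PadicAlgCl q)) := by
    refine ⟨((conjField (F ⊔ K) s).fixingSubgroup).comap (localGaloisToGlobal q),
      ⟨_, ⟨conjField (F ⊔ K) s, isUnramifiedOutside_map (hF.sup hK) s, rfl⟩, rfl⟩, fun τ hτ => ?_⟩
    have h1 : τ ∈ (coarseField q K s F).fixingSubgroup :=
      (mem_fixingSubgroup_localLevel_iff q _ τ).1 hτ
    obtain ⟨h, h2⟩ := (mem_fixingSubgroup_coarseField_iff q K s F τ).1 h1
    exact hfix ⟨τ, h⟩ ((hUF _).2 h2)
  exact ⟨discPartMk a hmem, rfl⟩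

/-! ### `h90`: Hilbert 90 for the local fields cut out by the coarse level system -/

theorem h90_levelLocS (hK : K.IsUnramifiedOutside S)
    (U : Subgroup (locGroup q K s)) (hU : U ∈ (levelLocS S q K s).sets)
    (x : locGroup q K s → locUnitsK q K s) (hx : IsLC₁ (levelLoc q K s) x)
    (hcoc : ∀ σ ∈ U, ∀ τ ∈ U, x (σ * τ) = (locUnitsK q K s).ρ σ (x τ) + x σ) :
    ∃ a : locUnitsK q K s, ∀ σ ∈ U, x σ = (locUnitsK q K s).ρ σ a - a := by
  classical
  obtain ⟨F, hF, hUF⟩ := (mem_levelLocS_iff S q K s U).1 hU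
  have hfdFK : FiniteDimensional ℚ (F ⊔ K : IntermediateField ℚ Qb) := (hF.sup hK).1
  set N : IntermediateField ℚ_[q] (PadicAlgCl q) := coarseField q K s F with hN
  have hfdN : FiniteDimensional ℚ_[q] N := finiteDimensional_localLevel q _
  have hgalN : IsGalois N (PadicAlgCl q) :=
    IsGalois.tower_top_of_isGalois ℚ_[q] N (PadicAlgCl q)
  -- from `Gal(Ω/N)` to `U`
  have hmemN : ∀ σ : PadicAlgCl q ≃ₐ[N] PadicAlgCl q,
      σ.restrictScalars ℚ_[q] ∈ N.fixingSubgroup := by
    intro σ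
    rw [IntermediateField.mem_fixingSubgroup_iff]
    intro y hy
    exact σ.commutes ⟨y, hy⟩
  have hloc : ∀ σ : PadicAlgCl q ≃ₐ[N] PadicAlgCl q,
      σ.restrictScalars ℚ_[q] ∈ locGroup q K s := fun σ =>
    ((mem_fixingSubgroup_coarseField_iff q K s F _).1 (hmemN σ)).1
  let toLoc : (PadicAlgCl q ≃ₐ[N] PadicAlgCl q) → locGroup q K s :=
    fun σ => ⟨σ.restrictScalars ℚ_[q], hloc σ⟩
  have htoLocU : ∀ σ, toLoc σ ∈ U := fun σ =>
    (hUF _).2 ((mem_fixingSubgroup_coarseField_iff q K s F _).1 (hmemN σ)).2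
  have htoLoc_mul : ∀ σ σ', toLoc (σ * σ') = toLoc σ * toLoc σ' := fun σ σ' => rfl
  let f : (PadicAlgCl q ≃ₐ[N] PadicAlgCl q) → (PadicAlgCl q)ˣ :=
    fun σ => Additive.toMul (x (toLoc σ))
  have hf : IsMulCocycle₁ f := by
    intro σ σ'
    have := hcoc (toLoc σ) (htoLocU σ) (toLoc σ') (htoLocU σ')
    rw [← htoLoc_mul] at this
    exact congrArg Additive.toMul this
  -- level-constancy
  obtain ⟨_, ⟨_, ⟨E, hE, rfl⟩, rfl⟩, hxE⟩ := hx
  have : FiniteDimensional ℚ_[q] E := hE
  obtain ⟨a, rfl⟩ := exists_adjoin_simple_eq E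
  have ha : IsIntegral N a := (Algebra.IsIntegral.isIntegral (R := ℚ_[q]) a).tower_top
  have : FiniteDimensional N N⟮a⟯ := IntermediateField.adjoin.finiteDimensional ha
  have hlc : ∀ g t : PadicAlgCl q ≃ₐ[N] PadicAlgCl q, t ∈ (N⟮a⟯).fixingSubgroup →
      f (g * t) = f g := by
    intro g t ht
    show Additive.toMul (x (toLoc (g * t))) = Additive.toMul (x (toLoc g))
    rw [htoLoc_mul]
    congr 1
    refine hxE (toLoc g) (toLoc t) ?_
    show t.restrictScalars ℚ_[q] ∈ (ℚ_[q]⟮a⟯).fixingSubgroup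
    rw [IntermediateField.mem_fixingSubgroup_iff]
    intro y hy
    refine algEquiv_apply_eq_of_mem_adjoin (t.restrictScalars ℚ_[q]) {a} ?_ hy
    intro b hb
    rw [Set.mem_singleton_iff.1 hb]
    exact (IntermediateField.mem_fixingSubgroup_iff _ t).1 ht a
      (IntermediateField.mem_adjoin_simple_self N a)
  obtain ⟨β, hβ⟩ := isMulCoboundary₁_of_levelConstant f hf N⟮a⟯ hlc
  refine ⟨Additive.ofMul β, fun τ hτ => ?_⟩
  have hτN : (τ : Gq q) ∈ N.fixingSubgroup :=
    (mem_fixingSubgroup_coarseField_iff q K s F _).2 ⟨τ.2, (hUF τ).1 hτ⟩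
  set σ : PadicAlgCl q ≃ₐ[N] PadicAlgCl q :=
    IntermediateField.fixingSubgroupEquiv N ⟨(τ : Gq q), hτN⟩ with hσ
  have h1 : toLoc σ = τ := by
    apply Subtype.ext
    ext y
    rfl
  have h2 := hβ σ
  simp only [f, h1] at h2
  exact (congrArg Additive.ofMul h2).symm

/-! ### Discreteness of `((ℚ_S)_q)ˣ` for the coarse level system -/

instance isDiscrete_locUnitsSK : IsDiscrete (levelLocS S q K s) (locUnitsSK S q K s) where
  exists_fix a := by
    obtain ⟨F, hF, hfix⟩ := locUnitsS.exists_fix (S := S) (q := q) a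
    refine ⟨(((conjField F s⁻¹).fixingSubgroup).comap K.fixingSubgroup.subtype).comap
        (locHom q K s),
      (mem_levelLocS_iff S q K s _).2 ⟨conjField F s⁻¹, isUnramifiedOutside_map hF s⁻¹,
        fun τ => Iff.rfl⟩, fun τ hτ => ?_⟩
    have h1 : ((locHom q K s τ : K.fixingSubgroup) : GQ) ∈ (conjField F s⁻¹).fixingSubgroup := hτ
    rw [mem_fixingSubgroup_conjField_iff, coe_locHom] at h1
    have h2 : localGaloisToGlobal q (τ : Gq q) ∈ F.fixingSubgroup := by
      have : s⁻¹⁻¹ * (s⁻¹ * localGaloisToGlobal q (τ : Gq q) * s) * s⁻¹ =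
          localGaloisToGlobal q (τ : Gq q) := by group
      rwa [this] at h1
    apply locUnitsS.unit_injective
    apply Units.ext
    show ((locUnitsS.unit S q ((locUnitsS S q).ρ (τ : Gq q) a) : (PadicAlgCl q)ˣ) : PadicAlgCl q) = _
    rw [locUnitsS.unit_ρ]
    exact hfix (τ : Gq q) h2

/-! ### (D)-INJ at a place -/

/-- **(D)-INJ, degree 1**: `Hlc¹(coarse, ((ℚ_S)_q)ˣ) ↪ Hlc¹(fine, Ω_qˣ)`. -/
theorem HlcPull_locUnitsSKι_one_injective (hK : K.IsUnramifiedOutside S) :
    Function.Injective (HlcPull (isContHom_id_levelLocS S q K s) (A := locUnitsSK S q K s)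
      (B := locUnitsK q K s) (locUnitsSKι S q K s) 1) :=
  HlcPull_one_injective_of_discPart (locUnitsSKι S q K s) (isContHom_id_levelLocS S q K s)
    (locUnitsSKι_injective S q K s) (exists_locUnitsSKι_eq_of_fixed S q K s hK)

/-- **(D)-INJ, degree 2**: `Hlc²(coarse, ((ℚ_S)_q)ˣ) ↪ Hlc²(fine, Ω_qˣ)` (Hilbert 90 for the
finite extensions of `K_w` inside `(ℚ_S)_q K_w`). -/
theorem HlcPull_locUnitsSKι_two_injective (hK : K.IsUnramifiedOutside S) :
    Function.Injective (HlcPull (isContHom_id_levelLocS S q K s) (A := locUnitsSK S q K s)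
      (B := locUnitsK q K s) (locUnitsSKι S q K s) 2) :=
  HlcPull_two_injective_of_discPart (locUnitsSKι S q K s) (isContHom_id_levelLocS S q K s)
    (locUnitsSKι_injective S q K s) (exists_locUnitsSKι_eq_of_fixed S q K s hK)
    (fun U hU _ x hx hcoc => h90_levelLocS S q K s hK U hU x hx hcoc)

end Fermat.Agent.GC.KumH
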