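/-
GATE-C / C4, helper78.  **The Hasse principle for the `p`-torsion of `Hlc²(G_{K,S}, O_Sˣ)`**
(the hypothesis `hHasse` of `HlcSha2.lean` / KUMMER-BRIDGE) from the `S`-idele class sequence
`0 → O_Sˣ → J_S → D_S → 0` (helper71) and
* `[A]`  : `Hlc¹(G_{K,S}, D_S)` has no `p`-torsion (`atf`),
* `(LM-J)`: `Hlc¹(G_{K,S}, J_S) → Hlc¹(G_{K,S}, D_S)` is zero (`j1`).
Chain: `Hlc²(O_Sˣ)[p] ↪ Hlc²(J_S)` (helper77 `e2_inj`) `≅ ∏_w Hlc²(coarse, ((ℚ_S)_q)ˣ)` (helper71
`HlcJS`) `↪ ∏_w Hlc²(G_w, Ω_qˣ)` (`HlcCoarse.lean`, Hilbert 90), and the composite is the family of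
localisation maps `HlcPull locHomAlg locSUnitsHom` of `HlcLocKum.lean`.
-/
import Mathlib
import Fermat.Agent.GC.Kummer.HlcCoarse
import Fermat.Agent.GC.Global.Limit.IdeleSCoh
import Fermat.Agent.GC.Global.KummerBridgeZ

set_option autoImplicit false

open CategoryTheory IntermediateField

noncomputable section

namespace Fermat.Agent.GC.KumH

open Fermat.Agent.GC.Prof Fermat.Agent.GC.C0 Fermat.Agent.GC.Places Fermat.Agent.GC.Local.Abs
  Fermat.Agent.GC.Local.KR Fermat.Agent.GC.LimJ groupCohomology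

local notation "Qb" => AlgebraicClosure ℚ
local notation "GQ" => (AlgebraicClosure ℚ ≃ₐ[ℚ] AlgebraicClosure ℚ)

section Place

variable (S : Finset Nat.Primes) (q : ℕ) [Fact q.Prime] (K : IntermediateField ℚ Qb)
  [FiniteDimensional ℚ K] (s : GQ)

/-- `Ω_qˣ` over `locGroup q K s`, transported to `Gal(Ω_q/K_w)`, is helper81's `unitsRep`. -/
def locUnitsKAlg : toGalLoc q K s (locUnitsK q K s) ⟶ unitsRep (locField q K s) (PadicAlgCl q) :=
  Rep.ofHom
    { toLinearMap := LinearMap.id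
      isIntertwining' := fun _ => rfl }

/-- the inverse identification -/
def locUnitsKAlgInv :
    Rep.res (locGroupEquiv q K s).toMonoidHom (unitsRep (locField q K s) (PadicAlgCl q)) ⟶
      locUnitsK q K s :=
  Rep.ofHom
    { toLinearMap := LinearMap.id
      isIntertwining' := fun _ => rfl }

/-- Passing from the subgroup form `locGroup q K s` to the absolute form `Gal(Ω_q/K_w)` is
injective on `Hlc` (it is an isomorphism). -/
theorem HlcPull_locUnitsKAlg_injective (n : ℕ) :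
    Function.Injective (HlcPull (isContHom_locGroupEquiv_symm q K s) (A := locUnitsK q K s)
      (B := unitsRep (locField q K s) (PadicAlgCl q)) (locUnitsKAlg q K s) n) := by
  have h : HlcPull (isContHom_locGroupEquiv_symm q K s) (A := locUnitsK q K s)
        (B := unitsRep (locField q K s) (PadicAlgCl q)) (locUnitsKAlg q K s) n ≫
      HlcPull (isContHom_locGroupEquiv q K s)
        (A := unitsRep (locField q K s) (PadicAlgCl q)) (B := locUnitsK q K s)
        (locUnitsKAlgInv q K s) n = 𝟙 _ := by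
    rw [← HlcPull_comp, ← HlcPull_id (𝒰 := levelLoc q K s) (A := locUnitsK q K s) n]
    refine HlcPull_congr _ _ ?_ rfl n
    ext τ
    rfl
  intro x y hxy
  have hx := congr($h x)
  have hy := congr($h y)
  simp only [ModuleCat.hom_comp, LinearMap.comp_apply, ModuleCat.hom_id, LinearMap.id_apply] at hx hy
  rw [← hx, ← hy, hxy]

end Place

section Factor

variable (S : Finset Nat.Primes) (K : IntermediateField ℚ Qb) [FiniteDimensional ℚ K]
  (q : S) (s : GQ)

/-- **Factorisation of the localisation map of `HlcLocKum.lean`** through the coarse level: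
`Hlc(G_{K,S}, O_Sˣ) → Hlc(coarse, ((ℚ_S)_q)ˣ) → Hlc(fine, Ω_qˣ) ≅ Hlc(Gal(Ω_q/K_w), Ω_qˣ)`. -/
theorem HlcPull_locSUnitsHom_factor (n : ℕ) :
    HlcPull (isContHom_locHomAlg S ((q : Nat.Primes) : ℕ) K s)
        (locSUnitsHom S ((q : Nat.Primes) : ℕ) K s) n =
      HlcPull (isContHom_comap (locHom ((q : Nat.Primes) : ℕ) K s) (levelK S K))
          (locSUnitsSHom S K q s) n ≫
        HlcPull (isContHom_id_levelLocS S ((q : Nat.Primes) : ℕ) K s)
          (A := locUnitsSK S ((q : Nat.Primes) : ℕ) K s)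
          (B := locUnitsK ((q : Nat.Primes) : ℕ) K s)
          (locUnitsSKι S ((q : Nat.Primes) : ℕ) K s) n ≫
        HlcPull (isContHom_locGroupEquiv_symm ((q : Nat.Primes) : ℕ) K s)
          (A := locUnitsK ((q : Nat.Primes) : ℕ) K s)
          (B := unitsRep (locField ((q : Nat.Primes) : ℕ) K s) (PadicAlgCl ((q : Nat.Primes) : ℕ)))
          (locUnitsKAlg ((q : Nat.Primes) : ℕ) K s) n := by
  rw [← HlcPull_comp, ← HlcPull_comp]
  refine HlcPull_congr _ _ rfl ?_ n
  rfl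

end Factor

section Main

variable (S : Finset Nat.Primes) (K : IntermediateField ℚ Qb) [FiniteDimensional ℚ K]

/-- `D_S` restricted to `G_K`. -/
abbrev DSK : Rep ℤ K.fixingSubgroup := Rep.res K.fixingSubgroup.subtype (DS S)

instance isDiscrete_DSK : IsDiscrete (levelK S K) (DSK S K) :=
  isDiscrete_res_levelK S K (DS S)

/-- The `S`-idele class sequence `0 → O_Sˣ → J_S → D_S → 0` restricted to `G_K`. -/
def ideleSK : ShortComplex (Rep ℤ K.fixingSubgroup) :=
  (ideleSShortComplex S).map (Rep.resFunctor K.fixingSubgroup.subtype)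

omit [FiniteDimensional ℚ K] in
lemma ideleSK_shortExact (hS : S.Nonempty) : (ideleSK S K).ShortExact :=
  (Rep.shortExact_res K.fixingSubgroup.subtype).2 (ideleSShortComplex_shortExact S hS)

instance isDiscrete_ideleSK_X₁ : IsDiscrete (levelK S K) (ideleSK S K).X₁ :=
  inferInstanceAs (IsDiscrete (levelK S K) (sUnitsK S K))

instance isDiscrete_ideleSK_X₂ : IsDiscrete (levelK S K) (ideleSK S K).X₂ :=
  inferInstanceAs (IsDiscrete (levelK S K) (JSK S K))

instance isDiscrete_ideleSK_X₃ : IsDiscrete (levelK S K) (ideleSK S K).X₃ :=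
  inferInstanceAs (IsDiscrete (levelK S K) (DSK S K))

/-- A class of `Hlc²(G_{K,S}, O_Sˣ)` which dies in every `Hlc²(Gal(Ω_q/K_w), Ω_qˣ)`, `w | q ∈ S`,
dies in `Hlc²(G_{K,S}, J_S)`. -/
theorem HlcMap_EStoJS_eq_zero_of_loc (hK : K.IsUnramifiedOutside S)
    (z : Hlc (levelK S K) (sUnitsK S K) 2)
    (hloc : ∀ (q : S) (w : placeIdx ((q : Nat.Primes) : ℕ) K),
      HlcPull (isContHom_locHomAlg S ((q : Nat.Primes) : ℕ) K (placeRep ((q : Nat.Primes) : ℕ) K w))
        (locSUnitsHom S ((q : Nat.Primes) : ℕ) K (placeRep ((q : Nat.Primes) : ℕ) K w)) 2 z = 0) :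
    HlcMap (levelK S K) ((Rep.resFunctor K.fixingSubgroup.subtype).map (EStoJS S)) 2 z = 0 := by
  rw [eq_zero_iff_forall_HlcJSLoc S K hK]
  intro q w
  have h1 := congr($(HlcMap_EStoJS_comp_HlcJSLoc S K q (placeRep ((q : Nat.Primes) : ℕ) K w) 2) z)
  simp only [ModuleCat.hom_comp, LinearMap.comp_apply] at h1
  rw [h1]
  have h2 := congr($(HlcPull_locSUnitsHom_factor S K q (placeRep ((q : Nat.Primes) : ℕ) K w) 2) z)
  simp only [ModuleCat.hom_comp, LinearMap.comp_apply] at h2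
  rw [hloc q w] at h2
  apply HlcPull_locUnitsSKι_two_injective S ((q : Nat.Primes) : ℕ) K _ hK
  apply HlcPull_locUnitsKAlg_injective ((q : Nat.Primes) : ℕ) K _ 2
  rw [map_zero, map_zero]
  exact h2.symm

/-- **The Hasse principle for `Hlc²(G_{K,S}, O_Sˣ)[c]`** from `[A]` (`atf`: no `c`-torsion in
`Hlc¹(D_S)`) and `(LM-J)` (`j1`: `Hlc¹(J_S) → Hlc¹(D_S)` is zero); plain `ℤ`-scalar form. -/
theorem hasse_sUnitsK (hK : K.IsUnramifiedOutside S) (hS : S.Nonempty) (c : ℤ)
    (atf : ∀ d : Hlc (levelK S K) (DSK S K) 1, c • d = 0 → d = 0)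
    (j1 : ∀ x : Hlc (levelK S K) (JSK S K) 1,
      HlcMap (levelK S K) ((Rep.resFunctor K.fixingSubgroup.subtype).map (JStoDS S)) 1 x = 0)
    (z : Hlc (levelK S K) (sUnitsK S K) 2) (hz : c • z = 0)
    (hloc : ∀ (q : S) (w : placeIdx ((q : Nat.Primes) : ℕ) K),
      HlcPull (isContHom_locHomAlg S ((q : Nat.Primes) : ℕ) K (placeRep ((q : Nat.Primes) : ℕ) K w))
        (locSUnitsHom S ((q : Nat.Primes) : ℕ) K (placeRep ((q : Nat.Primes) : ℕ) K w)) 2 z = 0) :
    z = 0 :=
  Fermat.Agent.GC.Global.KummerBridge.e2_inj (levelK S K) (X := ideleSK S K)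
    (ideleSK_shortExact S K hS) c
    (fun d hd => atf d ((int_smul_eq_zsmul _ c d).symm.trans hd)) j1 z
    ((int_smul_eq_zsmul _ c z).trans hz) (HlcMap_EStoJS_eq_zero_of_loc S K hK z hloc)

/-- The same from helper77's `EJDHyp` for the restricted `S`-idele class sequence, in the exact
shape of the hypothesis `hHasse` of `HlcSha2.lean` for the family of all places above `S`. -/
theorem hasse_of_EJDHyp (hK : K.IsUnramifiedOutside S) (hS : S.Nonempty) {p : ℕ}
    (H : Fermat.Agent.GC.Global.KummerBridge.EJDHyp (levelK S K) p (ideleSK S K))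
    (z : Hlc (levelK S K) (sUnitsK S K) 2) (hz : (p : ℤ) • z = 0)
    (hloc : ∀ (q : S) (w : placeIdx ((q : Nat.Primes) : ℕ) K),
      HlcPull (isContHom_locHomAlg S ((q : Nat.Primes) : ℕ) K (placeRep ((q : Nat.Primes) : ℕ) K w))
        (locSUnitsHom S ((q : Nat.Primes) : ℕ) K (placeRep ((q : Nat.Primes) : ℕ) K w)) 2 z = 0) :
    z = 0 :=
  Fermat.Agent.GC.Global.KummerBridge.e2_inj (levelK S K) (X := ideleSK S K)
    (ideleSK_shortExact S K hS) (p : ℤ) H.atf H.j1 z
    ((int_smul_eq_zsmul _ (p : ℤ) z).trans hz) (HlcMap_EStoJS_eq_zero_of_loc S K hK z hloc)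

omit [FiniteDimensional ℚ K] in
/-- transport of a local vanishing statement along equalities of the prime and the place -/
lemma loc_eq_zero_of_eq [FiniteDimensional ℚ K] (q q' : ℕ) [Fact q.Prime] [Fact q'.Prime]
    (h : q = q') (s s' : GQ) (hs : s = s') (z : Hlc (levelK S K) (sUnitsK S K) 2)
    (hz : HlcPull (isContHom_locHomAlg S q K s) (locSUnitsHom S q K s) 2 z = 0) :
    HlcPull (isContHom_locHomAlg S q' K s') (locSUnitsHom S q' K s') 2 z = 0 := by
  subst h
  subst hs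
  exact hz

/-- **`hHasse` of `HlcSha2.lean` / KUMMER-BRIDGE** for ANY family of places `(q_i, s_i)` containing
the representatives `(q, placeRep q K w)`, `q ∈ S`, `w : placeIdx q K`, from helper77's `EJDHyp`
(only `atf` and `j1` are used). -/
theorem hHasse_of_EJDHyp (hK : K.IsUnramifiedOutside S) (hS : S.Nonempty) {p : ℕ}
    (H : Fermat.Agent.GC.Global.KummerBridge.EJDHyp (levelK S K) p (ideleSK S K))
    {ι : Type*} (qs : ι → ℕ) [hq : ∀ i, Fact (qs i).Prime] (ss : ι → GQ)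
    (hcover : ∀ (q : S) (w : placeIdx ((q : Nat.Primes) : ℕ) K),
      ∃ i, qs i = ((q : Nat.Primes) : ℕ) ∧ ss i = placeRep ((q : Nat.Primes) : ℕ) K w) :
    ∀ z : Hlc (levelK S K) (sUnitsK S K) 2, (p : ℤ) • z = 0 →
      (∀ i, HlcPull (isContHom_locHomAlg S (qs i) K (ss i))
        (locSUnitsHom S (qs i) K (ss i)) 2 z = 0) → z = 0 := by
  intro z hz hloc
  refine hasse_of_EJDHyp S K hK hS H z hz fun q w => ?_
  obtain ⟨i, hi, hsi⟩ := hcover q w
  exact loc_eq_zero_of_eq S K (qs i) ((q : Nat.Primes) : ℕ) hi (ss i) _ hsi z (hloc i)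

/-- The same from `atf` and `j1` in plain `ℤ`-scalar form. -/
theorem hHasse_of_atf_j1 (hK : K.IsUnramifiedOutside S) (hS : S.Nonempty) (c : ℤ)
    (atf : ∀ d : Hlc (levelK S K) (DSK S K) 1, c • d = 0 → d = 0)
    (j1 : ∀ x : Hlc (levelK S K) (JSK S K) 1,
      HlcMap (levelK S K) ((Rep.resFunctor K.fixingSubgroup.subtype).map (JStoDS S)) 1 x = 0)
    {ι : Type*} (qs : ι → ℕ) [hq : ∀ i, Fact (qs i).Prime] (ss : ι → GQ)
    (hcover : ∀ (q : S) (w : placeIdx ((q : Nat.Primes) : ℕ) K),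
      ∃ i, qs i = ((q : Nat.Primes) : ℕ) ∧ ss i = placeRep ((q : Nat.Primes) : ℕ) K w) :
    ∀ z : Hlc (levelK S K) (sUnitsK S K) 2, c • z = 0 →
      (∀ i, HlcPull (isContHom_locHomAlg S (qs i) K (ss i))
        (locSUnitsHom S (qs i) K (ss i)) 2 z = 0) → z = 0 := by
  intro z hz hloc
  refine hasse_sUnitsK S K hK hS c atf j1 z hz fun q w => ?_
  obtain ⟨i, hi, hsi⟩ := hcover q w
  exact loc_eq_zero_of_eq S K (qs i) ((q : Nat.Primes) : ℕ) hi (ss i) _ hsi z (hloc i)

end Main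

end Fermat.Agent.GC.KumH
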