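/-
GATE-C / C4, helper78.  **The Hasse principle for `Hlc²(G_{K,S}, O_Sˣ)[p]`, UNCONDITIONAL** (`p` odd
prime in `S`, `K ∋ ζ_p` finite unramified outside `S`):
* `hlc_one_JSK_eq_zero` : `Hlc¹(G_{K,S}, J_S) = 0` (Hilbert 90: helper71's decomposition `HlcJS`,
  `(D)-INJ` in degree 1 and helper81's `hlc_one_unitsRep_eq_zero`) — this is `j1` of `EJDHyp`;
* `hHasse_sUnitsK` : the hypothesis `hHasse` of `HlcSha2.lean` / KUMMER-BRIDGE, for ANY family of
  places containing the representatives `(q, placeRep q K w)`, from helper12's `[A]`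
  (`AFinal.A_noPTorsion`) and `j1`.
-/
import Mathlib
import Fermat.Agent.GC.Kummer.HlcHasse
import Fermat.Agent.GC.Global.Limit.AFinal
import Fermat.Agent.GC.Local.Abs.Hilbert90

set_option autoImplicit false

open CategoryTheory IntermediateField

noncomputable section

namespace Fermat.Agent.GC.KumH

open Fermat.Agent.GC.Prof Fermat.Agent.GC.C0 Fermat.Agent.GC.Places Fermat.Agent.GC.Local.Abs
  Fermat.Agent.GC.Local.KR Fermat.Agent.GC.LimJ groupCohomology

local notation "Qb" => AlgebraicClosure ℚ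
local notation "GQ" => (AlgebraicClosure ℚ ≃ₐ[ℚ] AlgebraicClosure ℚ)

section Local

variable (S : Finset Nat.Primes) (q : ℕ) [Fact q.Prime] (K : IntermediateField ℚ Qb)
  [FiniteDimensional ℚ K] (s : GQ)

/-- Hilbert 90 for `K_w` in the subgroup form: `Hlc¹(locGroup q K s, Ω_qˣ) = 0`. -/
theorem hlc_one_locGroup_unitsRep_eq_zero (x : Hlc (levelLoc q K s) (locUnitsK q K s) 1) : x = 0 := by
  apply HlcPull_locUnitsKAlg_injective q K s 1
  rw [map_zero]
  exact hlc_one_unitsRep_eq_zero _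

/-- Hilbert 90 for the coarse level system: `Hlc¹(coarse, ((ℚ_S)_q)ˣ) = 0`. -/
theorem hlc_one_locUnitsSK_eq_zero (hK : K.IsUnramifiedOutside S)
    (x : Hlc (levelLocS S q K s) (locUnitsSK S q K s) 1) : x = 0 := by
  apply HlcPull_locUnitsSKι_one_injective S q K s hK
  rw [map_zero]
  exact hlc_one_locGroup_unitsRep_eq_zero q K s _

end Local

section Global

variable (S : Finset Nat.Primes) (K : IntermediateField ℚ Qb) [FiniteDimensional ℚ K]

/-- **Hilbert 90 for the `S`-ideles**: `Hlc¹(G_{K,S}, J_S) = 0`. -/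
theorem hlc_one_JSK_eq_zero (hK : K.IsUnramifiedOutside S) (x : Hlc (levelK S K) (JSK S K) 1) :
    x = 0 :=
  (eq_zero_iff_forall_HlcJSLoc S K hK 1 x).2 fun q _ =>
    hlc_one_locUnitsSK_eq_zero S ((q : Nat.Primes) : ℕ) K _ hK _

/-- `j1` of helper77's `EJDHyp` for the restricted `S`-idele class sequence `ideleSK S K`. -/
theorem j1_ideleSK (hK : K.IsUnramifiedOutside S) (x : Hlc (levelK S K) (ideleSK S K).X₂ 1) :
    HlcMap (levelK S K) (ideleSK S K).g 1 x = 0 := by
  have hx : x = 0 := hlc_one_JSK_eq_zero S K hK x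
  rw [hx, map_zero]

/-- **`hHasse`, unconditional**: for `p` an odd prime in `S` and `K ∋ ζ_p` finite unramified outside
`S`, a `p`-torsion class of `Hlc²(G_{K,S}, O_Sˣ)` which dies in `Hlc²(Gal(Ω_q/K_w), Ω_qˣ)` for all
places `w | q ∈ S` is zero.  (The shape of the hypothesis `hHasse` of `HlcSha2.card_sha2Mu_le` and
of KUMMER-BRIDGE, for any family `(qs, ss)` containing all `(q, placeRep q K w)`.) -/
theorem hHasse_sUnitsK {p : ℕ} (hp : p.Prime) (hp2 : p ≠ 2) (hpS : (⟨p, hp⟩ : Nat.Primes) ∈ S)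
    (hK : K.IsUnramifiedOutside S) {ζ : Qb} (hζ : IsPrimitiveRoot ζ p) (hζK : ζ ∈ K)
    {ι : Type*} (qs : ι → ℕ) [hq : ∀ i, Fact (qs i).Prime] (ss : ι → GQ)
    (hcover : ∀ (q : S) (w : placeIdx ((q : Nat.Primes) : ℕ) K),
      ∃ i, qs i = ((q : Nat.Primes) : ℕ) ∧ ss i = placeRep ((q : Nat.Primes) : ℕ) K w) :
    ∀ z : Hlc (levelK S K) (sUnitsK S K) 2, (p : ℤ) • z = 0 →
      (∀ i, HlcPull (isContHom_locHomAlg S (qs i) K (ss i))
        (locSUnitsHom S (qs i) K (ss i)) 2 z = 0) → z = 0 := by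
  refine hHasse_of_atf_j1 S K hK ⟨_, hpS⟩ (p : ℤ) (fun d hd => ?_)
    (fun x => j1_ideleSK S K hK x) qs ss hcover
  refine Fermat.Agent.GC.Global.Limit.AFinal.A_noPTorsion hp hp2 hpS hK hζ hζK d 1 ?_
  rw [pow_one, ← natCast_zsmul]
  exact hd

end Global

end Fermat.Agent.GC.KumH
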