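/-
GATE-C / BASE-KUM (A2), helper78.  Counting in the Kummer long exact sequence on `Hlc`:
`#Hlc^(i+1)(T) = [Hlc^i(A) : c·Hlc^i(A)] · #Hlc^(i+1)(A)[c]` for a Kummer sequence
`0 → T → A -c→ A → 0` (no finiteness assumption: `Nat.card`/`index` conventions).
-/
import Fermat.Agent.GC.Kummer.HlcKummer

set_option autoImplicit false

open CategoryTheory

noncomputable section

namespace Fermat.Agent.GC.KumH

open Fermat.Agent.GC.Prof

universe u

variable {k G : Type u} [CommRing k] [Group G] {𝒰 : LevelSystem G}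

/-- Multiplication by `c` on a `k`-module, as an additive map. -/
def smulAdd {M : Type*} [AddCommGroup M] [Module k M] (c : k) : M →+ M :=
  (c • (LinearMap.id : M →ₗ[k] M)).toAddMonoidHom

@[simp] lemma smulAdd_apply {M : Type*} [AddCommGroup M] [Module k M] (c : k) (x : M) :
    smulAdd c x = c • x := rfl

/-- Pure group theory: in an exact sequence `X -f→ Y -g→ Z`,
`#Y = [X : ker f] · #(im g)`. -/
theorem card_eq_index_ker_mul_card_range {X Y Z : Type*} [AddCommGroup X] [AddCommGroup Y]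
    [AddCommGroup Z] (f : X →+ Y) (g : Y →+ Z) (hfg : g.ker = f.range) :
    Nat.card Y = f.ker.index * Nat.card g.range := by
  rw [← AddSubgroup.card_mul_index g.ker, AddSubgroup.index_ker g, hfg, AddSubgroup.index_ker f]

namespace KummerSeq

variable {T A : Rep.{u} k G} {c : k} [IsDiscrete 𝒰 T] [IsDiscrete 𝒰 A] (K : KummerSeq T A c)

include K in
/-- **Counting in the Kummer sequence**:
`#Hlc^(i+1)(T) = [Hlc^i(A) : c·Hlc^i(A)] · #Hlc^(i+1)(A)[c]`. -/
theorem card_succ (i : ℕ) :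
    Nat.card (Hlc 𝒰 T (i + 1)) =
      (smulAdd c : Hlc 𝒰 A i →+ Hlc 𝒰 A i).range.index *
        Nat.card (smulAdd c : Hlc 𝒰 A (i + 1) →+ Hlc 𝒰 A (i + 1)).ker := by
  have h1 : ((K.δ 𝒰 i).hom.toAddMonoidHom).ker =
      (smulAdd c : Hlc 𝒰 A i →+ Hlc 𝒰 A i).range := by
    ext x
    rw [AddMonoidHom.mem_ker, AddMonoidHom.mem_range]
    exact K.δ_eq_zero_iff i x
  have h2 : ((HlcMap 𝒰 K.ι (i + 1)).hom.toAddMonoidHom).ker =
      ((K.δ 𝒰 i).hom.toAddMonoidHom).range := by
    ext y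
    rw [AddMonoidHom.mem_ker, AddMonoidHom.mem_range]
    exact K.ι_eq_zero_iff i y
  have h3 : ((HlcMap 𝒰 K.ι (i + 1)).hom.toAddMonoidHom).range =
      (smulAdd c : Hlc 𝒰 A (i + 1) →+ Hlc 𝒰 A (i + 1)).ker := by
    ext z
    rw [AddMonoidHom.mem_ker, AddMonoidHom.mem_range]
    exact (K.smul_eq_zero_iff (i + 1) z).symm
  rw [card_eq_index_ker_mul_card_range _ _ h2, h1, h3]

end KummerSeq

end Fermat.Agent.GC.KumH
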