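/-
GATE-C / BASE-KUM (B8), helper78.  `#Hlc¹(G_{K,S}, ℤ/p) = [O_{K,S}^× : (O_{K,S}^×)^p] · #X[p]`,
`X = Hlc¹(G_{K,S}, O_S^×)`  (the "h¹ = dim(O_{K,S}^×/p) + x" of the counting inequality (C1)).
-/
import Mathlib
import Fermat.Agent.GC.Kummer.HlcKummerCard
import Fermat.Agent.GC.Kummer.HlcSUnitsInv

set_option autoImplicit false

open CategoryTheory NumberField IsDedekindDomain

noncomputable section

namespace Fermat.Agent.GC.KumH

open Fermat.Agent.GC.Prof Fermat.Agent.GC.C0 Fermat.Agent.GC.Places groupCohomology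

local notation "Qb" => AlgebraicClosure ℚ
local notation "GQ" => (AlgebraicClosure ℚ ≃ₐ[ℚ] AlgebraicClosure ℚ)

variable {S : Finset Nat.Primes} (K : IntermediateField ℚ Qb) [NumberField K]
  {p : ℕ} [NeZero p] {ζ : Qbˣ} (hζ : IsPrimitiveRoot ζ p) (hζS : ζ ∈ sUnitsQS S)
  (hζK : ((ζ : Qbˣ) : Qb) ∈ K)

omit [NeZero p] in
/-- The index of `p`-th powers in `Hlc⁰(G_{K,S}, O_S^×)` is the index of `p`-th powers in the
`S_K`-units of `K`. -/
theorem index_range_smulAdd_hlc_zero (hK : K.IsUnramifiedOutside S) :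
    (smulAdd (p : ℤ) : Hlc (levelK S K) (sUnitsK S K) 0 →+ _).range.index =
      (powMonoidHom p : (sPlaces S K).unit K →* (sPlaces S K).unit K).range.index := by
  set e := sUnitsH0 (K := K) hK with he
  have h1 : (smulAdd (p : ℤ) : Hlc (levelK S K) (sUnitsK S K) 0 →+ _).range =
      (Subgroup.toAddSubgroup
        (powMonoidHom p : (sPlaces S K).unit K →* (sPlaces S K).unit K).range).map
        (e : Additive ((sPlaces S K).unit K) →+ Hlc (levelK S K) (sUnitsK S K) 0) := by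
    ext x
    rw [AddMonoidHom.mem_range, AddSubgroup.mem_map]
    constructor
    · rintro ⟨y, rfl⟩
      refine ⟨Additive.ofMul ((Additive.toMul (e.symm y)) ^ p), ⟨Additive.toMul (e.symm y), rfl⟩, ?_⟩
      have h2 : (Additive.ofMul ((Additive.toMul (e.symm y)) ^ p) :
          Additive ((sPlaces S K).unit K)) = p • e.symm y := rfl
      rw [h2, smulAdd_apply, AddMonoidHom.coe_coe, map_nsmul, AddEquiv.apply_symm_apply,
        Nat.cast_smul_eq_nsmul ℤ p y]
    · rintro ⟨a, ⟨b, rfl⟩, rfl⟩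
      refine ⟨e (Additive.ofMul b), ?_⟩
      rw [smulAdd_apply, AddMonoidHom.coe_coe, Nat.cast_smul_eq_nsmul ℤ p, ← map_nsmul]
      rfl
  rw [h1, AddSubgroup.index_map_equiv, Subgroup.index_toAddSubgroup]

include hζ hζS hζK in
/-- **`#Hlc¹(G_{K,S}, ℤ/p) = [O_{K,S}^× : (O_{K,S}^×)^p] · #Hlc¹(G_{K,S}, O_S^×)[p]`.** -/
theorem card_hlc_one_zmod (hK : K.IsUnramifiedOutside S) (hp : p.Prime)
    (hpS : (⟨p, hp⟩ : Nat.Primes) ∈ S) :
    Nat.card (Hlc (levelK S K) (Rep.trivial ℤ K.fixingSubgroup (ZMod p)) 1) =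
      (powMonoidHom p : (sPlaces S K).unit K →* (sPlaces S K).unit K).range.index *
        Nat.card {x : Hlc (levelK S K) (sUnitsK S K) 1 // p • x = 0} := by
  have : FiniteDimensional ℚ K := NumberField.to_finiteDimensional
  rw [(KumH.kummerSeq K hζ hζS hζK hp hpS).card_succ (𝒰 := levelK S K) 0,
    index_range_smulAdd_hlc_zero K hK]
  congr 1
  apply Nat.card_congr
  refine Equiv.subtypeEquivRight fun x => ?_
  rw [AddMonoidHom.mem_ker, smulAdd_apply, Nat.cast_smul_eq_nsmul ℤ p x]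

end Fermat.Agent.GC.KumH
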