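/-
GATE-C / (MU-CHI), helper5.  The dictionary between `T = 𝔽_p(χ_cyc) = chiRep (cycloChar p)`
(the coefficient module of the S55 chain, a `Rep (ZMod p) G_ℚ` on which `G_ℚ` acts NON-trivially)
and the Galois module `μ_p`, globally (`μ_p ⊂ O_S^×`, `Rep ℤ G_ℚ`, helper78's `sUnitsS S`) and
locally (`μ_p(ℚ̄_q) ⊂ Ω^×`, `Ω = PadicAlgCl q`, helper81's `muRep ℚ_[q] Ω p ⊂ unitsRep ℚ_[q] Ω`),
as equivariant additive maps in the exact `hf`-shape of `GC/Prof/CoeffChange.lean`, hence on `Hlc`.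

* global: `smul_muAdd_cycloChar`, `muChiAdd : chiQ p →+ sUnitsS S` (`a ↦ ζ^a`),
  `muChiAdd_equivariant`, `muChiEquiv : chiQ p ≃+ torsRep (sUnitsS S) p`,
  `HlcMuChi`, `HlcMuChiEquiv`, `HlcMap_torsι_HlcMuChiEquiv`;
* local: `smul_muLocAdd`, `muChiLocAdd : chiQq q p →+ unitsRep ℚ_[q] Ω`, `muChiLocEquiv`,
  `HlcMuChiLoc`, `HlcMuChiLocEquiv`, `HlcMuChiLoc_two_injective` (`Hlc²(G_q, T) ↪ Br(ℚ_q)`),
  `exists_HlcMuChiLoc_eq_iff` (image = `p`-torsion);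
* compatibility with localisation: `locUQ`, `locUQHom : Res_r O_S^× ⟶ Ω^×`, `locUQ_muChiAdd`,
  `HlcMuChiLoc_HlcRes`;
* discreteness: `isDiscrete_chiQ`, `isDiscrete_chiQq`.
-/
import Fermat.Agent.GC.Kummer.HlcLocKum
import Fermat.Agent.GC.Prof.CoeffChangeCup
import Fermat.Agent.GC.C0.Dual
import Fermat.Agent.GC.Prof.CoindDualCup

set_option autoImplicit false

open CategoryTheory

noncomputable section

namespace Fermat.Agent.GC.KumH.MuChi

open Fermat.Agent.GC.Prof Fermat.Agent.GC.C0 Fermat.Agent.GC.Places Fermat.Agent.GC.Local.Abs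
  Fermat.Agent.GC.Local.KR Fermat.Agent.GC.KumH groupCohomology ExtCitation

local notation "Qb" => AlgebraicClosure ℚ
local notation "GQ" => (AlgebraicClosure ℚ ≃ₐ[ℚ] AlgebraicClosure ℚ)

/-! ### Generalities -/

section Generic

universe u

variable {k k' G : Type u} [CommRing k] [CommRing k'] [Group G]

/-- Discreteness transfers backwards along an injective equivariant additive map. -/
theorem isDiscrete_of_injective_addHom (𝒰 : LevelSystem G) {A : Rep.{u} k G} {M : Rep.{u} k' G}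
    [IsDiscrete 𝒰 M] (f : A →+ M) (hf : ∀ g a, f (A.ρ g a) = M.ρ g (f a))
    (hinj : Function.Injective f) : IsDiscrete 𝒰 A where
  exists_fix a := by
    obtain ⟨U, hU, h⟩ := IsDiscrete.exists_fix (𝒰 := 𝒰) (f a)
    exact ⟨U, hU, fun s hs => hinj (by rw [hf, h s hs])⟩

end Generic

variable {S : Finset Nat.Primes} {p : ℕ} [Fact p.Prime]

variable {ζ : Qbˣ} (hζ : IsPrimitiveRoot ζ p) (hζS : ζ ∈ sUnitsQS S)

include hζ in
/-- The Galois action on `ζ_p` through the mod `p` cyclotomic character. -/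
lemma smul_zeta (g : GQ) : g • ζ = ζ ^ ((cycloChar p g : (ZMod p)ˣ) : ZMod p).val := by
  apply Units.ext
  have h2 : IsPrimitiveRoot ((ζ : Qbˣ) : Qb) p := hζ.map_of_injective Units.coeHom_injective
  have := Fermat.Agent.GJ.CycChar.apply_eq_pow h2 g
  rw [Units.val_pow_eq_pow_val]
  exact this

/-- **`G_ℚ` acts on `μ_p ⊂ O_S^×` through the cyclotomic character.** -/
theorem smul_muAdd_cycloChar (g : GQ) (a : ZMod p) :
    (sUnitsS S).ρ g (muAdd hζ hζS a) =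
      muAdd hζ hζS (((cycloChar p g : (ZMod p)ˣ) : ZMod p) * a) := by
  obtain ⟨i, rfl⟩ : ∃ i : ℕ, (i : ZMod p) = a := ⟨a.val, ZMod.natCast_zmod_val a⟩
  apply sUnitsS.unit_injective
  have hc : (((cycloChar p g : (ZMod p)ˣ) : ZMod p)) * (i : ZMod p) =
      ((((cycloChar p g : (ZMod p)ˣ) : ZMod p).val * i : ℕ) : ZMod p) := by
    rw [Nat.cast_mul, ZMod.natCast_zmod_val]
  rw [sUnitsS.unit_ρ, unit_muAdd_natCast, hc, unit_muAdd_natCast, smul_pow', smul_zeta hζ g,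
    pow_mul]

/-! ### The global dictionary `k(χ_cyc) ≃ μ_p ⊂ O_S^×` over `G_ℚ` -/

/-- `T = 𝔽_p(χ_cyc)`, the `G_ℚ`-module `μ_p` in the language of `chiRep`. -/
abbrev chiQ (p : ℕ) [Fact p.Prime] : Rep.{0} (ZMod p) GQ := chiRep (cycloChar p)

/-- `𝔽_p(χ_cyc) → O_S^×`, `a ↦ ζ^a`. -/
def muChiAdd : chiQ p →+ sUnitsS S := muAdd hζ hζS

lemma muChiAdd_apply (a : ZMod p) : muChiAdd hζ hζS a = muAdd hζ hζS a := rfl

/-- `a ↦ ζ^a` is `G_ℚ`-equivariant (the `hf` of `HlcAdd`). -/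
theorem muChiAdd_equivariant (g : GQ) (a : chiQ p) :
    muChiAdd hζ hζS ((chiQ p).ρ g a) = (sUnitsS S).ρ g (muChiAdd hζ hζS a) :=
  (smul_muAdd_cycloChar hζ hζS g a).symm

lemma muChiAdd_injective : Function.Injective (muChiAdd hζ hζS) := muAdd_injective hζ hζS

lemma p_smul_muChiAdd (a : chiQ p) : (p : ℤ) • muChiAdd hζ hζS a = 0 := p_smul_muAdd hζ hζS a

/-- `𝔽_p(χ_cyc) → O_S^×[p]`. -/
def muChiTors : chiQ p →+ torsRep (sUnitsS S) (p : ℤ) where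
  toFun a := ⟨muChiAdd hζ hζS a, (mem_torsSub_iff _ _ _).2 (p_smul_muChiAdd hζ hζS a)⟩
  map_zero' := Subtype.ext (map_zero _)
  map_add' a b := Subtype.ext (map_add _ a b)

lemma torsι_muChiTors (a : chiQ p) :
    (torsι (sUnitsS S) (p : ℤ)).hom (muChiTors hζ hζS a) = muChiAdd hζ hζS a := rfl

theorem muChiTors_equivariant (g : GQ) (a : chiQ p) :
    muChiTors hζ hζS ((chiQ p).ρ g a) = (torsRep (sUnitsS S) (p : ℤ)).ρ g (muChiTors hζ hζS a) :=
  Subtype.ext (muChiAdd_equivariant hζ hζS g a)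

lemma muChiTors_bijective : Function.Bijective (muChiTors hζ hζS) := by
  constructor
  · intro a b h
    exact muChiAdd_injective hζ hζS (congrArg (torsι (sUnitsS S) (p : ℤ)).hom h)
  · intro y
    have hy : (p : ℤ) • (torsι (sUnitsS S) (p : ℤ)).hom y = 0 := smul_torsι _ _ y
    have h1 : sUnitsS.unit S ((torsι (sUnitsS S) (p : ℤ)).hom y) ^ p = 1 := by
      rw [← sUnitsS.unit_zsmul_natCast, hy]
      rfl
    obtain ⟨a, ha⟩ := exists_muAdd_eq hζ hζS _ h1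
    exact ⟨a, torsι_injective _ _ ha⟩

/-- **`𝔽_p(χ_cyc) ≃ O_S^×[p]` as `G_ℚ`-modules.** -/
def muChiEquiv : chiQ p ≃+ torsRep (sUnitsS S) (p : ℤ) :=
  AddEquiv.ofBijective (muChiTors hζ hζS) (muChiTors_bijective hζ hζS)

lemma muChiEquiv_apply (a : chiQ p) : muChiEquiv hζ hζS a = muChiTors hζ hζS a := rfl

theorem muChiEquiv_equivariant (g : GQ) (a : chiQ p) :
    muChiEquiv hζ hζS ((chiQ p).ρ g a) =
      (torsRep (sUnitsS S) (p : ℤ)).ρ g (muChiEquiv hζ hζS a) :=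
  muChiTors_equivariant hζ hζS g a


/-! ### The local dictionary `k(χ_cyc)|_{G_q} ≃ μ_p(ℚ̄_q)` over `G_{ℚ_q}` -/

section Local

variable (q : ℕ) [Fact q.Prime]

/-- The image of `ζ` in `ℚ̄_q`. -/
def zetaLoc (ζ : Qbˣ) : (PadicAlgCl q)ˣ := locEmbU q 1 ζ

lemma coe_zetaLoc (ζ : Qbˣ) :
    ((zetaLoc q ζ : (PadicAlgCl q)ˣ) : PadicAlgCl q) = padicEmbedding q (ζ : Qb) := rfl

omit [Fact p.Prime] in
include hζ in
lemma isPrimitiveRoot_zetaLoc : IsPrimitiveRoot (zetaLoc q ζ) p := by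
  have h1 : IsPrimitiveRoot ((zetaLoc q ζ : (PadicAlgCl q)ˣ) : PadicAlgCl q) p := by
    rw [coe_zetaLoc]
    have h2 : IsPrimitiveRoot ((ζ : Qbˣ) : Qb) p := hζ.map_of_injective Units.coeHom_injective
    exact h2.map_of_injective (f := padicEmbedding q) (padicEmbedding q).injective
  exact IsPrimitiveRoot.coe_units_iff.1 h1

include hζ in
/-- `G_{ℚ_q}` acts on `ι ζ` through the cyclotomic character of `r τ`. -/
lemma map_zetaLoc (τ : Gq q) :
    Units.map (τ : PadicAlgCl q →* PadicAlgCl q) (zetaLoc q ζ) =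
      zetaLoc q ζ ^ ((cycloChar p (localGaloisToGlobal q τ) : (ZMod p)ˣ) : ZMod p).val := by
  apply Units.ext
  rw [Units.val_pow_eq_pow_val, coe_zetaLoc, ← map_pow]
  show τ (padicEmbedding q (ζ : Qb)) = _
  rw [← padicEmbedding_localGaloisToGlobal]
  congr 1
  have := smul_zeta hζ (localGaloisToGlobal q τ)
  have h2 := congrArg (fun u : Qbˣ => (u : Qb)) this
  simpa [Units.val_pow_eq_pow_val] using h2

/-- `ℤ/p → Ω^×`, `a ↦ (ι ζ)^a`. -/
def muLocAdd : ZMod p →+ unitsRep ℚ_[q] (PadicAlgCl q) :=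
  ((Subgroup.zpowers (zetaLoc q ζ)).subtype.toAdditive).comp
    (isPrimitiveRoot_zetaLoc hζ q).zmodEquivZPowers.toAddMonoidHom

lemma toU_muLocAdd_natCast (i : ℕ) :
    toU ℚ_[q] (PadicAlgCl q) (muLocAdd hζ q (i : ZMod p)) = zetaLoc q ζ ^ i := by
  show ((Additive.toMul ((isPrimitiveRoot_zetaLoc hζ q).zmodEquivZPowers (i : ZMod p)) :
    Subgroup.zpowers (zetaLoc q ζ)) : (PadicAlgCl q)ˣ) = zetaLoc q ζ ^ i
  rw [(isPrimitiveRoot_zetaLoc hζ q).zmodEquivZPowers_apply_coe_nat]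
  rfl

lemma muLocAdd_injective : Function.Injective (muLocAdd hζ q) := by
  intro a b h
  apply (isPrimitiveRoot_zetaLoc hζ q).zmodEquivZPowers.injective
  have h2 : Function.Injective ((Subgroup.zpowers (zetaLoc q ζ)).subtype.toAdditive) :=
    fun x y hxy => Subtype.ext hxy
  exact h2 h

/-- **`G_{ℚ_q}` acts on `μ_p(ℚ̄_q)` through the cyclotomic character of `r τ`.** -/
theorem smul_muLocAdd (τ : Gq q) (a : ZMod p) :
    (unitsRep ℚ_[q] (PadicAlgCl q)).ρ τ (muLocAdd hζ q a) =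
      muLocAdd hζ q (((cycloChar p (localGaloisToGlobal q τ) : (ZMod p)ˣ) : ZMod p) * a) := by
  obtain ⟨i, rfl⟩ : ∃ i : ℕ, (i : ZMod p) = a := ⟨a.val, ZMod.natCast_zmod_val a⟩
  apply toU_injective ℚ_[q] (PadicAlgCl q)
  have hc : (((cycloChar p (localGaloisToGlobal q τ) : (ZMod p)ˣ) : ZMod p)) * (i : ZMod p) =
      ((((cycloChar p (localGaloisToGlobal q τ) : (ZMod p)ˣ) : ZMod p).val * i : ℕ) :
        ZMod p) := by
    rw [Nat.cast_mul, ZMod.natCast_zmod_val]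
  rw [toU_ρ, toU_muLocAdd_natCast, hc, toU_muLocAdd_natCast, map_pow, map_zetaLoc hζ q τ,
    pow_mul]

/-- `T|_{G_q}`, the restriction of `𝔽_p(χ_cyc)` to the decomposition group at `q`. -/
abbrev chiQq (p : ℕ) [Fact p.Prime] : Rep.{0} (ZMod p) (Gq q) :=
  Rep.res (localGaloisToGlobal q) (chiQ p)

/-- `𝔽_p(χ_cyc)|_{G_q} → Ω^×`, `a ↦ (ι ζ)^a`. -/
def muChiLocAdd : chiQq q p →+ unitsRep ℚ_[q] (PadicAlgCl q) := muLocAdd hζ q

theorem muChiLocAdd_equivariant (τ : Gq q) (a : chiQq q p) :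
    muChiLocAdd hζ q ((chiQq q p).ρ τ a) =
      (unitsRep ℚ_[q] (PadicAlgCl q)).ρ τ (muChiLocAdd hζ q a) :=
  (smul_muLocAdd hζ q τ a).symm

lemma muChiLocAdd_injective : Function.Injective (muChiLocAdd hζ q) := muLocAdd_injective hζ q

lemma p_smul_muChiLocAdd (a : chiQq q p) : (p : ℤ) • muChiLocAdd hζ q a = 0 := by
  show (p : ℤ) • muLocAdd hζ q a = 0
  rw [← map_zsmul, natCast_zsmul]
  have : p • (a : ZMod p) = 0 := by
    rw [nsmul_eq_mul, ZMod.natCast_self, zero_mul]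
  rw [this, map_zero]

/-- `𝔽_p(χ_cyc)|_{G_q} → μ_p(ℚ̄_q)`. -/
def muChiLocTors : chiQq q p →+ muRep ℚ_[q] (PadicAlgCl q) p where
  toFun a := ⟨muChiLocAdd hζ q a, (mem_torsSub_iff _ _ _).2 (p_smul_muChiLocAdd hζ q a)⟩
  map_zero' := Subtype.ext (map_zero _)
  map_add' a b := Subtype.ext (map_add _ a b)

lemma muι_muChiLocTors (a : chiQq q p) :
    (Local.Abs.muι ℚ_[q] (PadicAlgCl q) p).hom (muChiLocTors hζ q a) = muChiLocAdd hζ q a := rfl

theorem muChiLocTors_equivariant (τ : Gq q) (a : chiQq q p) :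
    muChiLocTors hζ q ((chiQq q p).ρ τ a) =
      (muRep ℚ_[q] (PadicAlgCl q) p).ρ τ (muChiLocTors hζ q a) :=
  Subtype.ext (muChiLocAdd_equivariant hζ q τ a)

lemma muChiLocTors_bijective : Function.Bijective (muChiLocTors hζ q) := by
  constructor
  · intro a b h
    exact muChiLocAdd_injective hζ q
      (congrArg (Local.Abs.muι ℚ_[q] (PadicAlgCl q) p).hom h)
  · intro y
    have hy := toU_muι_pow ℚ_[q] (PadicAlgCl q) p y
    have hmem : toU ℚ_[q] (PadicAlgCl q) ((Local.Abs.muι ℚ_[q] (PadicAlgCl q) p).hom y) ∈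
        Subgroup.zpowers (zetaLoc q ζ) := by
      rw [(isPrimitiveRoot_zetaLoc hζ q).zpowers_eq, mem_rootsOfUnity]
      exact hy
    obtain ⟨n, hn⟩ := Subgroup.mem_zpowers_iff.1 hmem
    refine ⟨((n : ℤ) : ZMod p), ?_⟩
    apply torsι_injective
    apply toU_injective ℚ_[q] (PadicAlgCl q)
    rw [← hn]
    show ((Additive.toMul ((isPrimitiveRoot_zetaLoc hζ q).zmodEquivZPowers ((n : ℤ) : ZMod p)) :
      Subgroup.zpowers (zetaLoc q ζ)) : (PadicAlgCl q)ˣ) = zetaLoc q ζ ^ n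
    rw [(isPrimitiveRoot_zetaLoc hζ q).zmodEquivZPowers_apply_coe_int]
    rfl

/-- **`𝔽_p(χ_cyc)|_{G_q} ≃ μ_p(ℚ̄_q)` as `G_{ℚ_q}`-modules.** -/
def muChiLocEquiv : chiQq q p ≃+ muRep ℚ_[q] (PadicAlgCl q) p :=
  AddEquiv.ofBijective (muChiLocTors hζ q) (muChiLocTors_bijective hζ q)

lemma muChiLocEquiv_apply (a : chiQq q p) : muChiLocEquiv hζ q a = muChiLocTors hζ q a := rfl

theorem muChiLocEquiv_equivariant (τ : Gq q) (a : chiQq q p) :
    muChiLocEquiv hζ q ((chiQq q p).ρ τ a) =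
      (muRep ℚ_[q] (PadicAlgCl q) p).ρ τ (muChiLocEquiv hζ q a) :=
  muChiLocTors_equivariant hζ q τ a

end Local


/-! ### Localisation `O_S^× → Ω^×` along `r : G_{ℚ_q} → G_ℚ` and compatibility -/

section Compat

variable (S) (q : ℕ) [Fact q.Prime]

/-- The localisation map `O_S^× → Ω^×`, `u ↦ ι u`, as an additive map. -/
def locUQ : sUnitsS S →+ unitsRep ℚ_[q] (PadicAlgCl q) :=
  ((locEmbU q 1).comp (sUnitsQS S).subtype).toAdditive

lemma toU_locUQ (a : sUnitsS S) :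
    toU ℚ_[q] (PadicAlgCl q) (locUQ S q a) = locEmbU q 1 (sUnitsS.unit S a) := rfl

lemma locUQ_injective : Function.Injective (locUQ S q) := by
  intro a b h
  apply sUnitsS.unit_injective
  apply locEmbU_injective q 1
  exact congrArg (toU ℚ_[q] (PadicAlgCl q)) h

/-- `u ↦ ι u` is equivariant along `r = localGaloisToGlobal q`. -/
theorem locUQ_equivariant (τ : Gq q) (a : sUnitsS S) :
    locUQ S q ((sUnitsS S).ρ (localGaloisToGlobal q τ) a) =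
      (unitsRep ℚ_[q] (PadicAlgCl q)).ρ τ (locUQ S q a) := by
  apply toU_injective ℚ_[q] (PadicAlgCl q)
  rw [toU_ρ, toU_locUQ, toU_locUQ, sUnitsS.unit_ρ]
  apply Units.ext
  show padicEmbedding q ((1 : GQ) (localGaloisToGlobal q τ ((sUnitsS.unit S a : Qbˣ) : Qb))) =
    τ (padicEmbedding q ((1 : GQ) ((sUnitsS.unit S a : Qbˣ) : Qb)))
  rw [AlgEquiv.one_apply, AlgEquiv.one_apply, padicEmbedding_localGaloisToGlobal]

/-- **The localisation morphism** `Res_r O_S^× ⟶ Ω^×` of `G_{ℚ_q}`-modules. -/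
def locUQHom : Rep.res (localGaloisToGlobal q) (sUnitsS S) ⟶ unitsRep ℚ_[q] (PadicAlgCl q) :=
  Rep.ofHom
    { toLinearMap := (locUQ S q).toIntLinearMap
      isIntertwining' := fun τ => by
        apply LinearMap.ext
        intro a
        exact locUQ_equivariant S q τ a }

lemma locUQHom_hom_apply (a : sUnitsS S) : (locUQHom S q).hom a = locUQ S q a := rfl

variable {S}

/-- **The global and local dictionaries are compatible with localisation.** -/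
theorem locUQ_muChiAdd (a : chiQ p) :
    locUQ S q (muChiAdd hζ hζS a) = muChiLocAdd hζ q a := by
  obtain ⟨i, rfl⟩ : ∃ i : ℕ, (i : ZMod p) = a := ⟨(a : ZMod p).val, ZMod.natCast_zmod_val _⟩
  apply toU_injective ℚ_[q] (PadicAlgCl q)
  rw [toU_locUQ]
  show locEmbU q 1 (sUnitsS.unit S (muAdd hζ hζS (i : ZMod p))) =
    toU ℚ_[q] (PadicAlgCl q) (muLocAdd hζ q (i : ZMod p))
  rw [unit_muAdd_natCast, toU_muLocAdd_natCast, map_pow]
  rfl

end Compat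

/-! ### Discreteness -/

section Discrete

include hζ hζS in
/-- `𝔽_p(χ_cyc)` is a discrete `G_{ℚ,S}`-module (`p ∈ S`, in the form `ζ_p ∈ O_S^×`). -/
theorem isDiscrete_chiQ : IsDiscrete (levelS S) (chiQ p) :=
  isDiscrete_of_injective_addHom (levelS S) (muChiAdd hζ hζS) (muChiAdd_equivariant hζ hζS)
    (muChiAdd_injective hζ hζS)

include hζ in
/-- `𝔽_p(χ_cyc)|_{G_q}` is a discrete `G_{ℚ_q}`-module. -/
theorem isDiscrete_chiQq (q : ℕ) [Fact q.Prime] : IsDiscrete (levelQ q) (chiQq q p) :=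
  haveI := isGalois_padicAlgCl q
  isDiscrete_of_injective_addHom (levelQ q) (muChiLocAdd hζ q) (muChiLocAdd_equivariant hζ q)
    (muChiLocAdd_injective hζ q)

end Discrete


/-! ### The induced maps on `Hlc` -/

section Hlc

variable [IsDiscrete (levelS S) (chiQ p)]

/-- `Hlcⁿ(G_{ℚ,S}, 𝔽_p(χ_cyc)) → Hlcⁿ(G_{ℚ,S}, O_S^×)`. -/
def HlcMuChi (n : ℕ) : Hlc (levelS S) (chiQ p) n →+ Hlc (levelS S) (sUnitsS S) n :=
  HlcAdd (levelS S) (muChiAdd hζ hζS) (muChiAdd_equivariant hζ hζS) n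

/-- **`Hlcⁿ(G_{ℚ,S}, 𝔽_p(χ_cyc)) ≃ Hlcⁿ(G_{ℚ,S}, O_S^×[p])`.** -/
def HlcMuChiEquiv (n : ℕ) :
    Hlc (levelS S) (chiQ p) n ≃+ Hlc (levelS S) (torsRep (sUnitsS S) (p : ℤ)) n :=
  HlcAddEquiv (levelS S) (muChiEquiv hζ hζS) (muChiEquiv_equivariant hζ hζS) n

/-- `HlcMuChi` is `HlcMuChiEquiv` followed by the inclusion of the `p`-torsion. -/
theorem HlcMap_torsι_HlcMuChiEquiv (n : ℕ) (x : Hlc (levelS S) (chiQ p) n) :
    HlcMap (levelS S) (torsι (sUnitsS S) (p : ℤ)) n (HlcMuChiEquiv hζ hζS n x) =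
      HlcMuChi hζ hζS n x := by
  have := HlcAdd_HlcMap (levelS S) (muChiEquiv hζ hζS).toAddMonoidHom
    (muChiEquiv_equivariant hζ hζS) (muChiAdd hζ hζS) (muChiAdd_equivariant hζ hζS)
    (𝟙 (chiQ p)) (torsι (sUnitsS S) (p : ℤ)) (fun _ => rfl) n x
  rw [HlcMap_id] at this
  exact this.symm

/-- `ℤ`-semilinearity of `HlcMuChi`. -/
theorem HlcMuChi_intCast_smul (n : ℕ) (m : ℤ) (x : Hlc (levelS S) (chiQ p) n) :
    HlcMuChi hζ hζS n ((m : ZMod p) • x) = m • HlcMuChi hζ hζS n x := by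
  rw [← int_smul_eq_zsmul inferInstance m (HlcMuChi hζ hζS n x)]
  exact HlcAdd_smul (levelS S) (muChiAdd hζ hζS) (muChiAdd_equivariant hζ hζS) (m : ZMod p) m
    (fun a => by
      show muAdd hζ hζS ((m : ZMod p) • (a : ZMod p)) = m • muAdd hζ hζS a
      rw [← map_zsmul]
      congr 1
      rw [zsmul_eq_mul, smul_eq_mul]) n x

variable (q : ℕ) [Fact q.Prime] [IsDiscrete (levelQ q) (chiQq q p)]

/-- `Hlcⁿ(G_{ℚ_q}, 𝔽_p(χ_cyc)) → Hlcⁿ(G_{ℚ_q}, Ω^×)`. -/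
def HlcMuChiLoc (n : ℕ) :
    Hlc (levelQ q) (chiQq q p) n →+ Hlc (levelQ q) (unitsRep ℚ_[q] (PadicAlgCl q)) n :=
  HlcAdd (levelQ q) (muChiLocAdd hζ q) (muChiLocAdd_equivariant hζ q) n

/-- **`Hlcⁿ(G_{ℚ_q}, 𝔽_p(χ_cyc)) ≃ Hlcⁿ(G_{ℚ_q}, μ_p)`.** -/
def HlcMuChiLocEquiv (n : ℕ) :
    Hlc (levelQ q) (chiQq q p) n ≃+ Hlc (levelQ q) (muRep ℚ_[q] (PadicAlgCl q) p) n :=
  HlcAddEquiv (levelQ q) (muChiLocEquiv hζ q) (muChiLocEquiv_equivariant hζ q) n

theorem HlcMap_muι_HlcMuChiLocEquiv (n : ℕ) (x : Hlc (levelQ q) (chiQq q p) n) :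
    HlcMap (levelQ q) (Local.Abs.muι ℚ_[q] (PadicAlgCl q) p) n (HlcMuChiLocEquiv hζ q n x) =
      HlcMuChiLoc hζ q n x := by
  have := HlcAdd_HlcMap (levelQ q) (muChiLocEquiv hζ q).toAddMonoidHom
    (muChiLocEquiv_equivariant hζ q) (muChiLocAdd hζ q) (muChiLocAdd_equivariant hζ q)
    (𝟙 (chiQq q p)) (Local.Abs.muι ℚ_[q] (PadicAlgCl q) p) (fun _ => rfl) n x
  rw [HlcMap_id] at this
  exact this.symm

/-- **`Hlc²(G_{ℚ_q}, 𝔽_p(χ_cyc)) ↪ Br(ℚ_q)`.** -/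
theorem HlcMuChiLoc_two_injective : Function.Injective (HlcMuChiLoc hζ q 2) := by
  intro x y h
  rw [← HlcMap_muι_HlcMuChiLocEquiv, ← HlcMap_muι_HlcMuChiLocEquiv] at h
  have hroots : HasRoots (PadicAlgCl q) p :=
    hasRoots_of_isAlgClosed (PadicAlgCl q) (Fact.out : p.Prime).ne_zero
  exact (HlcMuChiLocEquiv hζ q 2).injective
    (HlcMap_muι_two_injective ℚ_[q] (PadicAlgCl q) hroots h)

/-- The image of `Hlc²(G_{ℚ_q}, 𝔽_p(χ_cyc))` in `Br(ℚ_q)` is killed by `p`. -/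
theorem p_smul_HlcMuChiLoc (n : ℕ) (x : Hlc (levelQ q) (chiQq q p) n) :
    (p : ℤ) • HlcMuChiLoc hζ q n x = 0 := by
  have h := HlcAdd_smul (levelQ q) (muChiLocAdd hζ q) (muChiLocAdd_equivariant hζ q)
    ((p : ℤ) : ZMod p) (p : ℤ) (fun a => by
      show muLocAdd hζ q (((p : ℤ) : ZMod p) • (a : ZMod p)) = (p : ℤ) • muLocAdd hζ q a
      rw [← map_zsmul]
      congr 1
      rw [zsmul_eq_mul, smul_eq_mul]) n x
  rw [← int_smul_eq_zsmul inferInstance (p : ℤ) (HlcMuChiLoc hζ q n x)]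
  refine h.symm.trans ?_
  have : ((p : ℤ) : ZMod p) = 0 := by
    rw [Int.cast_natCast, ZMod.natCast_self]
  rw [this, zero_smul, map_zero]

/-- **The image of `Hlcⁿ(G_{ℚ_q}, 𝔽_p(χ_cyc))` in `Hlcⁿ(G_{ℚ_q}, Ω^×)` is the `p`-torsion.** -/
theorem exists_HlcMuChiLoc_eq_iff (n : ℕ)
    (z : Hlc (levelQ q) (unitsRep ℚ_[q] (PadicAlgCl q)) n) :
    (∃ y : Hlc (levelQ q) (chiQq q p) n, HlcMuChiLoc hζ q n y = z) ↔ (p : ℤ) • z = 0 := by
  have hroots : HasRoots (PadicAlgCl q) p :=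
    hasRoots_of_isAlgClosed (PadicAlgCl q) (Fact.out : p.Prime).ne_zero
  rw [← exists_HlcMap_muι_eq_iff ℚ_[q] (PadicAlgCl q) hroots n z]
  constructor
  · rintro ⟨y, rfl⟩
    exact ⟨HlcMuChiLocEquiv hζ q n y, HlcMap_muι_HlcMuChiLocEquiv hζ q n y⟩
  · rintro ⟨y', rfl⟩
    refine ⟨(HlcMuChiLocEquiv hζ q n).symm y', ?_⟩
    rw [← HlcMap_muι_HlcMuChiLocEquiv, AddEquiv.apply_symm_apply]

/-- **Localisation square**: `Hlc(G_{ℚ,S}, T) → Hlc(G_{ℚ_q}, T)` (restriction) versus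
`Hlc(G_{ℚ,S}, O_S^×) → Hlc(G_{ℚ_q}, Ω^×)` (localisation `u ↦ ι u`). -/
theorem HlcMuChiLoc_HlcRes (n : ℕ) (x : Hlc (levelS S) (chiQ p) n) :
    HlcMuChiLoc hζ q n (HlcRes (isContHom_localGaloisToGlobal S q) (chiQ p) n x) =
      HlcPull (isContHom_localGaloisToGlobal S q) (locUQHom S q) n (HlcMuChi hζ hζS n x) :=
  HlcAdd_HlcPull (levelS S) (isContHom_localGaloisToGlobal S q)
    (muChiAdd hζ hζS) (muChiAdd_equivariant hζ hζS)
    (A := chiQ p) (B := chiQq q p) (M := sUnitsS S) (N := unitsRep ℚ_[q] (PadicAlgCl q))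
    (muChiLocAdd hζ q) (muChiLocAdd_equivariant hζ q) (𝟙 _) (locUQHom S q)
    (fun a => (locUQ_muChiAdd hζ hζS q a).symm) n x

end Hlc

end Fermat.Agent.GC.KumH.MuChi
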