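/-
GATE-C / C4 Kummer-index stream (helper51).  (G3) second inequality: the engine of `Engine.lean` with the
T14 key lemma (`Fermat.Agent.S14.SI.key_lemma`, resting on `first_inequality_tame`) plugged in.
-/
import Fermat.Agent.GC.Kummer.Engine
import Fermat.Agent.S14.SI.KeyLemma

set_option autoImplicit false

open NumberField IsDedekindDomain nonZeroDivisors

namespace Fermat.Agent.GC.Kummer

open Fermat.Agent.S14 Fermat.Agent.S14.SI

variable {K : Type*} [Field K] [NumberField K]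
variable {N : Type*} [Field N] [NumberField N] [Algebra K N]

/-- **(G3) second inequality**, model-free form: `K ⊇ μ_p`, `N/K` Galois of degree `p` unramified outside
`S ⊇ {v ∣ p}`, `S` generates `Cl(K)`, the primes `SN` of `N` above `S` generate `Cl(N)`.  For any model
`(A, d, 𝒩)` of the `S`-ideles of `K` with the norms from `N` satisfying `h1`–`h4`, the norm index
`[A : 𝒩 · d(U_S)]` divides `p`. -/
theorem second_inequality_of_model [IsGalois K N] {p : ℕ} (hp : p.Prime) (hp2 : p ≠ 2) (ζ : K)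
    (hζ : IsPrimitiveRoot ζ p) (hdeg : Module.finrank K N = p)
    (S : Finset (HeightOneSpectrum (𝓞 K)))
    (hSp : ∀ v : HeightOneSpectrum (𝓞 K), (p : 𝓞 K) ∈ v.asIdeal → v ∈ S)
    (hScl : Subgroup.closure (Set.range fun v : S =>
        ClassGroup.mk0 ⟨v.1.asIdeal, mem_nonZeroDivisors_of_ne_zero v.1.ne_bot⟩) = ⊤)
    (hunr : ∀ P : Ideal (𝓞 N), P.IsPrime → P ≠ ⊥ → (∀ v ∈ S, P.under (𝓞 K) ≠ v.asIdeal) →
      ∀ τ : N ≃ₐ[K] N, (∀ z : 𝓞 N, τ • z - z ∈ P) → τ = 1)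
    (SN : Finset (HeightOneSpectrum (𝓞 N)))
    (hSN : ∀ Q ∈ SN, Bridge.below K Q ∈ S)
    (hSNcl : Subgroup.closure (Set.range fun Q : SN =>
        ClassGroup.mk0 ⟨Q.1.asIdeal, mem_nonZeroDivisors_of_ne_zero Q.1.ne_bot⟩) = ⊤)
    {A : Type*} [CommGroup A] (d : Kˣ →* A) (𝒩 : Subgroup A)
    (h1 : ∀ y : A, y ^ p ∈ 𝒩)
    (h2 : ∀ z : Nˣ, d (Units.map (Algebra.norm K : N →* K) z) ∈ 𝒩)
    (h3 : ∀ y : A, ∃ x : Kˣ, ∃ z : A, y = d x * z ^ p)
    (h4 : ∀ x ∈ locPow p S, ∃ z : A, d x = z ^ p) :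
    (𝒩 ⊔ ((S : Set (HeightOneSpectrum (𝓞 K))).unit K).map d).index ∣ p :=
  index_dvd_of_model hp hp2 ζ hζ hdeg S hSp hScl hunr SN hSN hSNcl
    (fun T hST hTsurj x hx hloc => key_lemma hp hp2 ζ hζ S T hST hSp hScl hTsurj x hx hloc)
    d 𝒩 h1 h2 h3 h4

end Fermat.Agent.GC.Kummer
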