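/-
GATE-C / C4→C5 KUMMER-BRIDGE, Kummer side of (N-d) / `hC1` (helper51).  For `K ⊂ Q_S` a number field
with `ζ_p ∈ K`, `p` odd, `p ∈ S`; `s = #S_K` (`primesAbove K S`), `r₂ = r₂(K)`,
`X = Hlc¹(G_{K,S}, O_S^×)` (finite: X-FINITE, `H1Lim.lean`):

* `card_hlc_one_zmod`   : `|Hlc¹(G_{K,S}, ℤ/p)| = p^(r₂+s) · |X[p]|`  (UNCONDITIONAL);
* `finite_hlc_one_zmod` : `Hlc¹(G_{K,S}, ℤ/p)` is finite            (UNCONDITIONAL);
* `card_sha2Mu_mul_le`  : `|Ш²(ℤ/p)| · p^(r₂+s) ≤ |Hlc¹(G_{K,S}, ℤ/p)|` under helper78's HASSE hypothesis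
  (= the Kummer side of `hC1` of helper59's `good_of_inputs_C1`, in `Nat.card` form);
* `euler_card_sUnitsK`  : helper77's `euler_card` with `h0` and X-FINITE discharged.

Inputs: `H0Count.lean` (Dirichlet count), `H1Lim.lean` (X-FINITE), helper78 `HlcMu.kummerSeq`,
`HlcSha2.card_sha2Mu_le`, helper77 `KummerBridge.card_hlc_succ / euler_card`.
-/
import Mathlib
import Fermat.Agent.GC.Kummer.H0Count
import Fermat.Agent.GC.Kummer.H1Lim
import Fermat.Agent.GC.Kummer.HlcSha2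

set_option autoImplicit false
set_option linter.unusedSectionVars false

open NumberField IsDedekindDomain

noncomputable section

namespace Fermat.Agent.GC.KumXF

open Fermat.Agent.GC.KumH

open Fermat.Agent.GC.Prof Fermat.Agent.GC.C0 Fermat.Agent.GC.Places groupCohomology
open Fermat.Agent.GC.Global.Adapter Fermat.Agent.GC.Global.KummerBridge

local notation "Qb" => AlgebraicClosure ℚ
local notation "GQ" => (AlgebraicClosure ℚ ≃ₐ[ℚ] AlgebraicClosure ℚ)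

/-- `M[p]` as a submodule (`torsC`) and as a subtype have the same cardinality. -/
theorem card_torsC_eq_card_subtype {M : Type*} [AddCommGroup M] [Module ℤ M] (p : ℕ) :
    Nat.card (torsC ((p : ℤ)) M) = Nat.card {x : M // p • x = 0} := by
  refine Nat.card_congr (Equiv.subtypeEquivRight fun x => ?_)
  rw [mem_torsC, Nat.cast_smul_eq_nsmul]

variable {S : Finset Nat.Primes} (K : IntermediateField ℚ Qb) [FiniteDimensional ℚ K]
  {p : ℕ} [NeZero p] {ζ : Qbˣ} (hζ : IsPrimitiveRoot ζ p) (hζS : ζ ∈ sUnitsQS S)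
  (hζK : ((ζ : Qbˣ) : Qb) ∈ K)

include hζ hζS hζK in
/-- **`|Hlc¹(G_{K,S}, ℤ/p)| = p^(r₂+s) · |Hlc¹(G_{K,S}, O_S^×)[p]|`** (Kummer + Dirichlet). -/
theorem card_hlc_one_zmod (hK : K.IsUnramifiedOutside S) (hp : p.Prime) (hp2 : p ≠ 2)
    (hpS : (⟨p, hp⟩ : Nat.Primes) ∈ S) :
    Nat.card (Hlc (levelK S K) (Rep.trivial ℤ K.fixingSubgroup (ZMod p)) 1) =
      p ^ (InfinitePlace.nrComplexPlaces ↥K + (primesAbove ↥K S).card) *
        Nat.card (torsC ((p : ℤ)) (Hlc (levelK S K) (sUnitsK S K) 1)) := by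
  rw [card_hlc_succ (levelK S K) (Fermat.Agent.GC.KumH.kummerSeq K hζ hζS hζK hp hpS) 0,
    card_hlc_zero_sUnitsK_quot hK hp hp2 hζ hζK]

include hζ hζS hζK in
/-- `Hlc¹(G_{K,S}, ℤ/p)` is finite. -/
theorem finite_hlc_one_zmod (hK : K.IsUnramifiedOutside S) (hp : p.Prime) (hp2 : p ≠ 2)
    (hpS : (⟨p, hp⟩ : Nat.Primes) ∈ S) :
    Finite (Hlc (levelK S K) (Rep.trivial ℤ K.fixingSubgroup (ZMod p)) 1) := by
  have hX := (finite_hlc_one_sUnitsK hK).1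
  apply Nat.finite_of_card_ne_zero
  rw [card_hlc_one_zmod K hζ hζS hζK hK hp hp2 hpS]
  exact mul_ne_zero (pow_ne_zero _ hp.ne_zero) Nat.card_pos.ne'

include hζ hζS hζK in
/-- helper77's `euler_card` with `h0` (Dirichlet) and X-FINITE discharged: only the count of
`Hlc²(G_{K,S}, O_S^×)[p]` is left as an input. -/
theorem euler_card_sUnitsK (hK : K.IsUnramifiedOutside S) (hp : p.Prime) (hp2 : p ≠ 2)
    (hpS : (⟨p, hp⟩ : Nat.Primes) ∈ S) (t2 : ℕ)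
    (h2 : Nat.card (torsC ((p : ℤ)) (Hlc (levelK S K) (sUnitsK S K) 2)) = p ^ t2) :
    Finite (Hlc (levelK S K) (Rep.trivial ℤ K.fixingSubgroup (ZMod p)) 1) ∧
    Finite (Hlc (levelK S K) (Rep.trivial ℤ K.fixingSubgroup (ZMod p)) 2) ∧
      Nat.card (Hlc (levelK S K) (Rep.trivial ℤ K.fixingSubgroup (ZMod p)) 1) * p ^ t2 =
      Nat.card (Hlc (levelK S K) (Rep.trivial ℤ K.fixingSubgroup (ZMod p)) 2) *
        p ^ (InfinitePlace.nrComplexPlaces ↥K + (primesAbove ↥K S).card) := by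
  have hX := (finite_hlc_one_sUnitsK hK).1
  exact euler_card (levelK S K) (Fermat.Agent.GC.KumH.kummerSeq K hζ hζS hζK hp hpS) p _ t2
    (card_hlc_zero_sUnitsK_quot hK hp hp2 hζ hζK) hp.ne_zero h2

/-- **Kummer side of `hC1`**: under helper78's HASSE hypothesis for `Hlc²(G_{K,S}, O_S^×)[p]` with
respect to a family of places `(q_i, s_i)`,
`|Ш²(G_{K,S}, ℤ/p)| · p^(r₂+s) ≤ |Hlc¹(G_{K,S}, ℤ/p)|`. -/
theorem card_sha2Mu_mul_le (hK : K.IsUnramifiedOutside S) (hp : p.Prime) (hp2 : p ≠ 2)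
    (hpS : (⟨p, hp⟩ : Nat.Primes) ∈ S)
    {ι : Type*} (qs : ι → ℕ) [hq : ∀ i, Fact (qs i).Prime] (ss : ι → GQ)
    (hHasse : ∀ z : Hlc (levelK S K) (sUnitsK S K) 2, (p : ℤ) • z = 0 →
      (∀ i, HlcPull (isContHom_locHomAlg S (qs i) K (ss i))
        (locSUnitsHom S (qs i) K (ss i)) 2 z = 0) → z = 0) :
    Nat.card (sha2Mu K hζ hζS hζK qs ss) *
        p ^ (InfinitePlace.nrComplexPlaces ↥K + (primesAbove ↥K S).card) ≤
      Nat.card (Hlc (levelK S K) (Rep.trivial ℤ K.fixingSubgroup (ZMod p)) 1) := by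
  have hX := (finite_hlc_one_sUnitsK hK).1
  rw [card_hlc_one_zmod K hζ hζS hζK hK hp hp2 hpS, card_torsC_eq_card_subtype, mul_comm]
  exact Nat.mul_le_mul_left _ (card_sha2Mu_le K hζ hζS hζK hp hpS qs ss hHasse)

end Fermat.Agent.GC.KumXF
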