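/-
GATE-C / BASE-KUM (B9), helper78.  The diagonal `E_S → J_S`: the `S`-units of `Q_S` inside the
`q`-component `lcCoind (levelS S) (localGaloisToGlobal q) (Ω_q^×)` of the `S`-idele module
(helper71's level-constant coinduction), `u ↦ (g ↦ ι_q (g u))`, and its compatibility with the
Mackey evaluation / the localisation `locSUnitsHom`.
-/
import Mathlib
import Fermat.Agent.GC.Kummer.HlcLocKum
import Fermat.Agent.GC.Global.Limit.LcMackey

set_option autoImplicit false

open CategoryTheory

noncomputable section

namespace Fermat.Agent.GC.KumH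

open Fermat.Agent.GC.Prof Fermat.Agent.GC.C0 Fermat.Agent.GC.Places Fermat.Agent.GC.Local.Abs
  Fermat.Agent.GC.Local.KR Fermat.Agent.GC.LimJ groupCohomology

local notation "Qb" => AlgebraicClosure ℚ
local notation "GQ" => (AlgebraicClosure ℚ ≃ₐ[ℚ] AlgebraicClosure ℚ)

variable (S : Finset Nat.Primes) (q : ℕ) [Fact q.Prime]

/-- `locEmbU` is multiplicative in the conjugating element: `ι ((g * σ) u) = ι (g (σ u))`. -/
lemma locEmbU_mul (g σ : GQ) (u : Qbˣ) : locEmbU q (g * σ) u = locEmbU q g (σ • u) := rfl

/-- Left equivariance: `ι (r(d) g u) = d (ι (g u))`. -/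
lemma locEmbU_localGaloisToGlobal_mul (d : Gq q) (g : GQ) (u : Qbˣ) :
    locEmbU q (localGaloisToGlobal q d * g) u =
      Units.map (d : PadicAlgCl q →* PadicAlgCl q) (locEmbU q g u) := by
  apply Units.ext
  show padicEmbedding q (localGaloisToGlobal q d (g (u : Qb))) = d (padicEmbedding q (g (u : Qb)))
  exact padicEmbedding_localGaloisToGlobal q d _

/-- The function `g ↦ ι_q (g u)` attached to an `S`-unit `u` of `Q_S`. -/
def diagQFun (a : sUnitsS S) : lcCoind (levelS S) (localGaloisToGlobal q)
    (unitsRep ℚ_[q] (PadicAlgCl q)) :=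
  lcCoindMk (fun g => ofU ℚ_[q] (PadicAlgCl q) (locEmbU q g (sUnitsS.unit S a)))
    (fun d g => by
      apply toU_injective ℚ_[q] (PadicAlgCl q)
      exact locEmbU_localGaloisToGlobal_mul q d g _)
    (by
      obtain ⟨F, hF, hmF⟩ := (sUnitsS.unit_mem S a).1
      refine ⟨F.fixingSubgroup, ⟨F, hF, rfl⟩, fun g u hu => ?_⟩
      rw [IntermediateField.mem_fixingSubgroup_iff] at hu
      apply toU_injective ℚ_[q] (PadicAlgCl q)
      apply Units.ext
      show padicEmbedding q (g (u ((sUnitsS.unit S a : Qbˣ) : Qb))) = _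
      rw [hu _ hmF]
      rfl)

@[simp] lemma lcCoindFun_diagQFun (a : sUnitsS S) (g : GQ) :
    lcCoindFun (diagQFun S q a) g = ofU ℚ_[q] (PadicAlgCl q) (locEmbU q g (sUnitsS.unit S a)) :=
  rfl

/-- **The diagonal** `O_S^× ⟶ J_{S,q}`. -/
def diagQ : sUnitsS S ⟶ lcCoind (levelS S) (localGaloisToGlobal q)
    (unitsRep ℚ_[q] (PadicAlgCl q)) :=
  Rep.ofHom
    { toLinearMap :=
        (AddMonoidHom.toIntLinearMap
          { toFun := diagQFun S q
            map_zero' := by
              apply lcCoind_ext
              intro g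
              apply toU_injective ℚ_[q] (PadicAlgCl q)
              show locEmbU q g (1 : Qbˣ) = 1
              rw [map_one]
            map_add' := fun a b => by
              apply lcCoind_ext
              intro g
              apply toU_injective ℚ_[q] (PadicAlgCl q)
              show locEmbU q g (sUnitsS.unit S a * sUnitsS.unit S b) = _
              rw [map_mul]
              rfl })
      isIntertwining' := fun σ => by
        apply LinearMap.ext
        intro a
        apply lcCoind_ext
        intro g
        apply toU_injective ℚ_[q] (PadicAlgCl q)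
        show locEmbU q g (σ • sUnitsS.unit S a) = locEmbU q (g * σ) (sUnitsS.unit S a)
        rfl }

lemma diagQ_hom_apply (a : sUnitsS S) : (diagQ S q).hom a = diagQFun S q a := rfl

lemma diagQ_injective : Function.Injective (diagQ S q).hom := by
  intro a b h
  apply sUnitsS.unit_injective
  apply locEmbU_injective q 1
  have h1 := congrArg (fun F => toU ℚ_[q] (PadicAlgCl q) (lcCoindFun F 1)) h
  exact h1

/-- **Mackey evaluation at `s` of the diagonal is the localisation `u ↦ ι_q (s u)`.** -/
lemma lcCoindFun_diagQ_apply (a : sUnitsS S) (s : GQ) :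
    toU ℚ_[q] (PadicAlgCl q) (lcCoindFun ((diagQ S q).hom a) s) =
      locEmbU q s (sUnitsS.unit S a) := rfl

/-- The same, through helper71's `lcMackeyEv` at the canonical Mackey point of `s` for
`H = G_K`. -/
lemma lcMackeyEv_diagQ (K : IntermediateField ℚ Qb) (s : GQ) (a : sUnitsS S) :
    toU ℚ_[q] (PadicAlgCl q)
      ((lcMackeyEv (levelS S) (unitsRep ℚ_[q] (PadicAlgCl q))
        (LcMackeyPt.ofElt (localGaloisToGlobal q) K.fixingSubgroup s)).hom ((diagQ S q).hom a)) =
      locEmbU q s (sUnitsS.unit S a) := rfl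

end Fermat.Agent.GC.KumH
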