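/-
GATE-C / (MU-CHI) part 2, helper5.  Local numerics of `T = 𝔽_p(χ_cyc)` over `ℚ_q` (ANY prime `q`,
`q = p` included, `ζ_p ∉ ℚ_q` allowed): `Hlc²(G_{ℚ_q}, T) ≃ Br(ℚ_q)[p]` has `p` elements, i.e. is
one-dimensional over `𝔽_p` (helper3's `card_brauer_torsion_prime` through `MuChi.lean`).
-/
import Fermat.Agent.GC.Kummer.MuChi
import Fermat.Agent.GC.Local.BrauerCycFinal

set_option autoImplicit false

open CategoryTheory

noncomputable section

namespace Fermat.Agent.GC.KumH.MuChi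

open Fermat.Agent.GC.Prof Fermat.Agent.GC.C0 Fermat.Agent.GC.Places Fermat.Agent.GC.Local.Abs
  Fermat.Agent.GC.Local.KR Fermat.Agent.GC.KumH groupCohomology ExtCitation

local notation "Qb" => AlgebraicClosure ℚ
local notation "GQ" => (AlgebraicClosure ℚ ≃ₐ[ℚ] AlgebraicClosure ℚ)

variable {p : ℕ} [Fact p.Prime] {ζ : Qbˣ} (hζ : IsPrimitiveRoot ζ p) (q : ℕ) [Fact q.Prime]
  [IsDiscrete (levelQ q) (chiQq q p)]

/-- **`Hlc²(G_{ℚ_q}, 𝔽_p(χ_cyc)) ≃ Br(ℚ_q)[p]`.** -/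
def HlcMuChiLocBr : Hlc (levelQ q) (chiQq q p) 2 ≃
    {x : Hlc (levelQ q) (unitsRep ℚ_[q] (PadicAlgCl q)) 2 // p • x = 0} :=
  Equiv.ofBijective
    (fun y => ⟨HlcMuChiLoc hζ q 2 y, by
      rw [← natCast_zsmul]
      exact p_smul_HlcMuChiLoc hζ q 2 y⟩)
    ⟨fun y y' h => HlcMuChiLoc_two_injective hζ q (congrArg Subtype.val h), fun z => by
      obtain ⟨y, hy⟩ := (exists_HlcMuChiLoc_eq_iff hζ q 2 z.1).2 (by
        rw [natCast_zsmul]
        exact z.2)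
      exact ⟨y, Subtype.ext hy⟩⟩

lemma HlcMuChiLocBr_apply (y : Hlc (levelQ q) (chiQq q p) 2) :
    (HlcMuChiLocBr hζ q y).1 = HlcMuChiLoc hζ q 2 y := rfl

include hζ in
/-- **`#Hlc²(G_{ℚ_q}, 𝔽_p(χ_cyc)) = p`** for every prime `q`. -/
theorem card_Hlc_two_chiQq : Nat.card (Hlc (levelQ q) (chiQq q p) 2) = p := by
  rw [Nat.card_congr (HlcMuChiLocBr hζ q)]
  exact Fermat.Agent.GC.Local.BrauerCycFinal.card_brauer_torsion_prime q ℚ_[q] (PadicAlgCl q) p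

include hζ in
theorem finite_Hlc_two_chiQq : Finite (Hlc (levelQ q) (chiQq q p) 2) := by
  apply Nat.finite_of_card_ne_zero
  rw [card_Hlc_two_chiQq hζ q]
  exact (Fact.out : p.Prime).ne_zero

include hζ in
/-- **`dim_{𝔽_p} Hlc²(G_{ℚ_q}, 𝔽_p(χ_cyc)) = 1`** for every prime `q`. -/
theorem finrank_Hlc_two_chiQq :
    Module.finrank (ZMod p) (Hlc (levelQ q) (chiQq q p) 2) = 1 := by
  have := finite_Hlc_two_chiQq hζ q
  have h1 := card_Hlc_eq_pow_finrank (levelQ q) p (chiQq q p) 2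
  rw [card_Hlc_two_chiQq hζ q] at h1
  have hp : 1 < p := (Fact.out : p.Prime).one_lt
  exact (Nat.pow_right_injective hp (by simpa using h1.symm))

include hζ in
theorem finiteDimensional_Hlc_two_chiQq :
    FiniteDimensional (ZMod p) (Hlc (levelQ q) (chiQq q p) 2) := by
  rw [finiteDimensional_Hlc_iff_finite]
  exact finite_Hlc_two_chiQq hζ q

end Fermat.Agent.GC.KumH.MuChi
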