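/-
GATE-C / (MU-CHI) part 3, helper5.
* `Λ = ∏_{q ∈ S} Hlc²(G_{ℚ_q}, T)`, `T = 𝔽_p(χ_cyc)`, over `L = locDataQ S` (the target of
  `locRes (locDataQ S) T 2` in helper59's `PTSha_of_arith`): every factor is one-dimensional, so
  `Λ` is finite-dimensional of dimension `#S`.
* Bridge to helper69's `GC/Places/ChiMuLoc.lean`: for `ζ = zetaQb p` my local dictionary
  `muChiLocEquiv` is his `chiMuQ`, hence `HlcMuChiLocEquiv = HlcChiMuQ`.
-/
import Fermat.Agent.GC.Kummer.MuChiBr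
import Fermat.Agent.GC.PT.LocDataQ
import Fermat.Agent.GC.Places.ChiMuLoc

set_option autoImplicit false

open CategoryTheory

noncomputable section

namespace Fermat.Agent.GC.KumH.MuChi

open Fermat.Agent.GC.Prof Fermat.Agent.GC.Prof.Cone Fermat.Agent.GC.C0 Fermat.Agent.GC.Places
  Fermat.Agent.GC.Local.Abs Fermat.Agent.GC.Local.KR Fermat.Agent.GC.KumH
  Fermat.Agent.GC.PT.LocDataQ groupCohomology ExtCitation

local notation "Qb" => AlgebraicClosure ℚ
local notation "GQ" => (AlgebraicClosure ℚ ≃ₐ[ℚ] AlgebraicClosure ℚ)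

attribute [local instance] factPrimeOfPrimes

variable {p : ℕ} [Fact p.Prime] (S : Finset Nat.Primes) [IsDiscrete (levelS S) (chiQ p)]

/-- (Instance search does not see through `chiRep`; helper74's `MainInst.isDiscrete_res_chiRep` is
the global instance consumers have in scope — any two proofs are equal.) -/
theorem isDiscrete_res_locDataQ_chiQ (v : (locDataQ S).ι) :
    IsDiscrete ((locDataQ S).𝒰v v) (Rep.res ((locDataQ S).r v) (chiQ p)) :=
  LocalData.isDiscrete_res (locDataQ S) v (chiQ p)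

attribute [local instance] isDiscrete_res_locDataQ_chiQ

/-- Each factor `Hlc²(G_{ℚ_q}, T)` of `Λ` is one-dimensional. -/
theorem finrank_Hlc_two_locDataQ (v : (locDataQ S).ι) :
    Module.finrank (ZMod p)
      (Hlc ((locDataQ S).𝒰v v) (Rep.res ((locDataQ S).r v) (chiQ p)) 2) = 1 := by
  obtain ⟨ζ, hζ⟩ := exists_primitiveRoot_Qb p
  exact @finrank_Hlc_two_chiQq p _ ζ hζ (((show ↥S from v) : Nat.Primes) : ℕ)
    (factPrimeOfPrimes _) (isDiscrete_res_locDataQ_chiQ S v)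

theorem finiteDimensional_Hlc_two_locDataQ (v : (locDataQ S).ι) :
    FiniteDimensional (ZMod p)
      (Hlc ((locDataQ S).𝒰v v) (Rep.res ((locDataQ S).r v) (chiQ p)) 2) := by
  obtain ⟨ζ, hζ⟩ := exists_primitiveRoot_Qb p
  exact @finiteDimensional_Hlc_two_chiQq p _ ζ hζ (((show ↥S from v) : Nat.Primes) : ℕ)
    (factPrimeOfPrimes _) (isDiscrete_res_locDataQ_chiQ S v)

/-- **`Λ = ∏_{q ∈ S} Hlc²(G_{ℚ_q}, T)` is finite-dimensional.** -/
theorem finiteDimensional_Lam :
    FiniteDimensional (ZMod p)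
      (∀ v, Hlc ((locDataQ S).𝒰v v) (Rep.res ((locDataQ S).r v) (chiQ p)) 2) := by
  have := fun v => finiteDimensional_Hlc_two_locDataQ (p := p) S v
  exact Module.Finite.pi

/-- **`dim Λ = #S`.** -/
theorem finrank_Lam :
    Module.finrank (ZMod p)
      (∀ v, Hlc ((locDataQ S).𝒰v v) (Rep.res ((locDataQ S).r v) (chiQ p)) 2) = S.card := by
  have := fun v => finiteDimensional_Hlc_two_locDataQ (p := p) S v
  rw [Module.finrank_pi_fintype]
  simp only [finrank_Hlc_two_locDataQ]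
  rw [Finset.sum_const, smul_eq_mul, mul_one, Finset.card_univ]
  exact Fintype.card_coe S


/-! ### Bridge to helper69's `chiMuQ` -/

section Bridge

variable (p) (q : ℕ) [Fact q.Prime]

lemma zetaLoc_zetaQb : zetaLoc q (zetaQb p) = Fermat.Agent.GC.Places.zetaLoc p q :=
  Units.ext rfl

/-- For `ζ = zetaQb p` the local dictionary of `MuChi.lean` is helper69's `chiMuQ`. -/
theorem muChiLocEquiv_zetaQb (a : chiQq q p) :
    muChiLocEquiv (isPrimitiveRoot_zetaQb p) q a = chiMuQ p q a := by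
  apply torsι_injective (unitsRep ℚ_[q] (PadicAlgCl q)) (p : ℤ)
  show muLocAdd (isPrimitiveRoot_zetaQb p) q a =
    (Local.Abs.muι ℚ_[q] (PadicAlgCl q) p).hom (chiMuQ p q a)
  obtain ⟨i, rfl⟩ : ∃ i : ℕ, (i : ZMod p) = a := ⟨(a : ZMod p).val, ZMod.natCast_zmod_val _⟩
  apply toU_injective ℚ_[q] (PadicAlgCl q)
  rw [toU_muLocAdd_natCast]
  show _ = toU ℚ_[q] (PadicAlgCl q) ((Local.Abs.muι ℚ_[q] (PadicAlgCl q) p).hom
    (chiMuEquiv ℚ_[q] (Fermat.Agent.GC.Places.isPrimitiveRoot_zetaLoc p q)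
      (Fermat.Agent.GC.Places.chiQ p q) (i : ZMod p)))
  rw [muι_chiMuEquiv, toU_ofU, zetaLoc_zetaQb]
  exact (pow_eq_pow_mod _ (Fermat.Agent.GC.Places.isPrimitiveRoot_zetaLoc p q).pow_eq_one).trans
    (by rw [ZMod.val_natCast])

/-- ... hence the two identifications `Hlc(G_q, T) ≃+ Hlc(G_q, μ_p)` agree. -/
theorem HlcMuChiLocEquiv_zetaQb [IsDiscrete (levelQ q) (chiQq q p)] (n : ℕ)
    (x : Hlc (levelQ q) (chiQq q p) n) :
    HlcMuChiLocEquiv (isPrimitiveRoot_zetaQb p) q n x =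
      HlcAddEquiv (levelQ q) (A := chiQq q p) (chiMuQ p q) (chiMuQ_equivariant p q) n x := by
  rw [HlcAddEquiv_apply]
  refine HlcAdd_congr (levelQ q) (f := (muChiLocEquiv (isPrimitiveRoot_zetaQb p) q).toAddMonoidHom)
    (muChiLocEquiv_equivariant (isPrimitiveRoot_zetaQb p) q) _ ?_ n x
  ext a
  exact muChiLocEquiv_zetaQb p q a

end Bridge

end Fermat.Agent.GC.KumH.MuChi
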