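/-
GATE-C / (MU-CHI) part 4, helper5.  `(NC)_ℚ` in UNIT language.

The `hNC` binder of helper59's `C0.PTSha_of_arith` ("no class of `Hlc²(G_{ℚ,S}, T)`,
`T = 𝔽_p(χ_cyc)`, is supported at exactly one place") follows from the same statement for the
`p`-torsion of `Hlc²(G_{ℚ,S}, O_S^×)` with the localisation maps
`HlcPull r_q locUQHom : Hlc²(G_{ℚ,S}, O_S^×) → Hlc²(G_{ℚ_q}, Ω_q^×) = Br(ℚ_q)`:
* `hNC_of_unitsNC` : the reduction (via `HlcMuChi`, `HlcMuChiLoc_HlcRes`,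
  `HlcMuChiLoc_two_injective`);
* `p_smul_HlcMuChi` : the image of `Hlc(G_{ℚ,S}, T)` in `Hlc(G_{ℚ,S}, O_S^×)` is killed by `p`;
* `HlcPull_locUQHom_HlcMuChi_of_single` : the local components of `HlcMuChi x` when
  `locRes x = Pi.single v y`.
-/
import Fermat.Agent.GC.Kummer.MuChiLam

set_option autoImplicit false

open CategoryTheory

noncomputable section

namespace Fermat.Agent.GC.KumH.MuChi

open Fermat.Agent.GC.Prof Fermat.Agent.GC.Prof.Cone Fermat.Agent.GC.C0 Fermat.Agent.GC.Places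
  Fermat.Agent.GC.Local.Abs Fermat.Agent.GC.Local.KR Fermat.Agent.GC.KumH
  Fermat.Agent.GC.PT.LocDataQ groupCohomology ExtCitation

local notation "Qb" => AlgebraicClosure ℚ
local notation "GQ" => (AlgebraicClosure ℚ ≃ₐ[ℚ] AlgebraicClosure ℚ)

attribute [local instance] factPrimeOfPrimes

variable {p : ℕ} [Fact p.Prime] {S : Finset Nat.Primes} [IsDiscrete (levelS S) (chiQ p)]
variable {ζ : Qbˣ} (hζ : IsPrimitiveRoot ζ p) (hζS : ζ ∈ sUnitsQS S)

/-- The image of `Hlcⁿ(G_{ℚ,S}, 𝔽_p(χ_cyc))` in `Hlcⁿ(G_{ℚ,S}, O_S^×)` is killed by `p`. -/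
theorem p_smul_HlcMuChi (n : ℕ) (x : Hlc (levelS S) (chiQ p) n) :
    (p : ℤ) • HlcMuChi hζ hζS n x = 0 := by
  rw [← HlcMuChi_intCast_smul]
  have : ((p : ℤ) : ZMod p) = 0 := by rw [Int.cast_natCast, ZMod.natCast_self]
  rw [this, zero_smul, map_zero]

attribute [local instance] isDiscrete_res_locDataQ_chiQ

/-- The unit-language form of `(NC)_ℚ` (for one place `v ∈ S`). -/
def UnitsNCAt (S : Finset Nat.Primes) (p : ℕ) [Fact p.Prime] (v : ↥S) : Prop :=
  ∀ z : Hlc (levelS S) (sUnitsS S) 2, (p : ℤ) • z = 0 →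
    (∀ w : ↥S, w ≠ v →
      HlcPull (isContHom_localGaloisToGlobal S ((w : Nat.Primes) : ℕ))
        (locUQHom S ((w : Nat.Primes) : ℕ)) 2 z = 0) →
    HlcPull (isContHom_localGaloisToGlobal S ((v : Nat.Primes) : ℕ))
      (locUQHom S ((v : Nat.Primes) : ℕ)) 2 z = 0

/-- The local components of `HlcMuChi x` when `locRes x = Pi.single v y`. -/
theorem HlcPull_locUQHom_HlcMuChi_of_single (n : ℕ) (v : (locDataQ S).ι)
    (y : Hlc ((locDataQ S).𝒰v v) (Rep.res ((locDataQ S).r v) (chiQ p)) n)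
    (x : Hlc (levelS S) (chiQ p) n)
    (hx : locRes (locDataQ S) (chiQ p) n x = Pi.single v y) (w : (locDataQ S).ι) :
    HlcPull (isContHom_localGaloisToGlobal S (((show ↥S from w) : Nat.Primes) : ℕ))
        (locUQHom S (((show ↥S from w) : Nat.Primes) : ℕ)) n (HlcMuChi hζ hζS n x) =
      @HlcMuChiLoc p _ ζ hζ (((show ↥S from w) : Nat.Primes) : ℕ) (factPrimeOfPrimes _)
        (isDiscrete_res_locDataQ_chiQ S w) n ((Pi.single v y :
          ∀ v, Hlc ((locDataQ S).𝒰v v) (Rep.res ((locDataQ S).r v) (chiQ p)) n) w) := by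
  rw [← hx, locRes_apply]
  exact (@HlcMuChiLoc_HlcRes S p _ ζ hζ hζS _ (((show ↥S from w) : Nat.Primes) : ℕ)
    (factPrimeOfPrimes _) (isDiscrete_res_locDataQ_chiQ S w) n x).symm

include hζ hζS in
/-- `(NC)_ℚ` from its unit-language form (version with a chosen `ζ_p ∈ O_S^×`). -/
theorem hNC_of_unitsNC_zeta (hU : ∀ v : ↥S, UnitsNCAt S p v) :
    ∀ (v : (locDataQ S).ι)
      (y : Hlc ((locDataQ S).𝒰v v) (Rep.res ((locDataQ S).r v) (chiQ p)) 2)
      (x : Hlc (levelS S) (chiQ p) 2),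
      locRes (locDataQ S) (chiQ p) 2 x = Pi.single v y → y = 0 := by
  classical
  intro v y x hx
  have hloc := HlcPull_locUQHom_HlcMuChi_of_single hζ hζS 2 v y x hx
  have hv := hU v (HlcMuChi hζ hζS 2 x) (p_smul_HlcMuChi hζ hζS 2 x) (fun w hw => by
    have h0 : (Pi.single v y :
        ∀ v, Hlc ((locDataQ S).𝒰v v) (Rep.res ((locDataQ S).r v) (chiQ p)) 2) w = 0 :=
      Pi.single_eq_of_ne (M := fun v =>
        ↑(Hlc ((locDataQ S).𝒰v v) (Rep.res ((locDataQ S).r v) (chiQ p)) 2)) hw y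
    exact (hloc w).trans ((congrArg _ h0).trans (map_zero _)))
  have h1 : (Pi.single v y :
      ∀ v, Hlc ((locDataQ S).𝒰v v) (Rep.res ((locDataQ S).r v) (chiQ p)) 2) v = y :=
    Pi.single_eq_same (M := fun v =>
      ↑(Hlc ((locDataQ S).𝒰v v) (Rep.res ((locDataQ S).r v) (chiQ p)) 2)) v y
  have hv' := (hloc v).symm.trans hv
  rw [h1] at hv'
  exact @HlcMuChiLoc_two_injective p _ ζ hζ (((show ↥S from v) : Nat.Primes) : ℕ)
    (factPrimeOfPrimes _) (isDiscrete_res_locDataQ_chiQ S v) _ _ (hv'.trans (map_zero _).symm)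

/-- **`(NC)_ℚ` from its unit-language form**: the `hNC` binder of `C0.PTSha_of_arith`
(`chiQ p = C0.TChi p` are the same `abbrev`), for `p ∈ S`. -/
theorem hNC_of_unitsNC (hpS : pPrime p ∈ S) (hU : ∀ v : ↥S, UnitsNCAt S p v) :
    ∀ (v : (locDataQ S).ι)
      (y : Hlc ((locDataQ S).𝒰v v) (Rep.res ((locDataQ S).r v) (chiQ p)) 2)
      (x : Hlc (levelS S) (chiQ p) 2),
      locRes (locDataQ S) (chiQ p) 2 x = Pi.single v y → y = 0 := by
  obtain ⟨ζ, hζ⟩ := exists_primitiveRoot_Qb p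
  exact hNC_of_unitsNC_zeta hζ
    (mem_sUnitsQS_of_pow_eq_one (Fact.out : p.Prime) hpS ζ hζ.pow_eq_one) hU

end Fermat.Agent.GC.KumH.MuChi
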