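/-
GATE-C / C4 (helper11): the hypothesis `hH90` of helper77's `na_card` (KummerBridgeZ.lean) for the
local family of helper20's NA-LOC-KUM: `(𝒰v, Ω) := (levelLoc q K s, locUnitsK q K s)`, i.e. the
decomposition group `locGroup q K s` at a place of `K` above `q`, acting on `Ω_qˣ`.

* `hlc_one_locUnitsK_eq_zero` : `Hlc¹(locGroup q K s, Ω_qˣ) = 0` (Hilbert 90 in the limit, helper81
  `Abs.hlc_one_unitsRep_eq_zero`, transported by helper78 `HlcPull_locUnitsKAlg_injective`);
* `na_hH90` : every class of `Hlc¹(locGroup q K s, Ω_qˣ)` is divisible by any `c : ℤ` — the exact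
  shape `∀ x, ∃ x', c • x' = x` of `hH90` (take `c := (p : ℤ)`).
-/
import Mathlib
import Fermat.Agent.GC.Kummer.HlcHasse
import Fermat.Agent.GC.Local.Abs.Hilbert90

set_option autoImplicit false

open CategoryTheory IntermediateField

noncomputable section

namespace Fermat.Agent.GC.KumH

open Fermat.Agent.GC.Prof Fermat.Agent.GC.C0 Fermat.Agent.GC.Places Fermat.Agent.GC.Local.Abs
  Fermat.Agent.GC.Local.KR Fermat.Agent.GC.LimJ groupCohomology

local notation "Qb" => AlgebraicClosure ℚ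
local notation "GQ" => (AlgebraicClosure ℚ ≃ₐ[ℚ] AlgebraicClosure ℚ)

variable (q : ℕ) [Fact q.Prime] (K : IntermediateField ℚ Qb) [FiniteDimensional ℚ K] (s : GQ)

/-- **Hilbert 90 at a place of `K`**: `Hlc¹(locGroup q K s, Ω_qˣ) = 0`. -/
theorem hlc_one_locUnitsK_eq_zero (x : Hlc (levelLoc q K s) (locUnitsK q K s) 1) : x = 0 := by
  apply HlcPull_locUnitsKAlg_injective q K s 1
  rw [map_zero]
  exact hlc_one_unitsRep_eq_zero _

instance subsingleton_hlc_one_locUnitsK :
    Subsingleton (Hlc (levelLoc q K s) (locUnitsK q K s) 1) :=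
  ⟨fun x y => (hlc_one_locUnitsK_eq_zero q K s x).trans (hlc_one_locUnitsK_eq_zero q K s y).symm⟩

/-- **`hH90` of `na_card`** at one place: `Hlc¹(locGroup q K s, Ω_qˣ)` is `c`-divisible. -/
theorem na_hH90 (c : ℤ) (x : Hlc (levelLoc q K s) (locUnitsK q K s) 1) :
    ∃ x' : Hlc (levelLoc q K s) (locUnitsK q K s) 1, c • x' = x :=
  ⟨0, (hlc_one_locUnitsK_eq_zero q K s _).trans (hlc_one_locUnitsK_eq_zero q K s x).symm⟩

/-- **`hH90` of `na_card`**, family form over all places of `K` above `S` (index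
`Σ q : ↥S, placeIdx q K`, representatives `placeRep`). -/
theorem na_hH90_fam (S : Finset Nat.Primes) (c : ℤ)
    (i : Σ q : S, placeIdx ((q : Nat.Primes) : ℕ) K)
    (x : Hlc (levelLoc ((i.1 : Nat.Primes) : ℕ) K (placeRep ((i.1 : Nat.Primes) : ℕ) K i.2))
      (locUnitsK ((i.1 : Nat.Primes) : ℕ) K (placeRep ((i.1 : Nat.Primes) : ℕ) K i.2)) 1) :
    ∃ x' : Hlc (levelLoc ((i.1 : Nat.Primes) : ℕ) K (placeRep ((i.1 : Nat.Primes) : ℕ) K i.2))
      (locUnitsK ((i.1 : Nat.Primes) : ℕ) K (placeRep ((i.1 : Nat.Primes) : ℕ) K i.2)) 1,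
      c • x' = x :=
  na_hH90 _ K _ c x

end Fermat.Agent.GC.KumH
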